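/-
S56 / FLAT / IRR (architect helper78): the IRREDUCIBLE (supersingular) case of the flat bound.
DEFINITIONS, part 1: the tame field `K'' = K0(ϖ)`, `ϖ ^ (p ^ 2 - 1) = p`, inside `Qb`, in Galois
theoretic form.

* `rs A x`      : the residue class of `x` (junk value `0` outside `A`);
* `Unif A p ϖ`  : the standing hypotheses (`p` odd prime, `A` over `p`, `ϖ ^ (p ^ 2 - 1) = p`);
* `InK A ϖ a`   : `a ∈ K0(ϖ)`, i.e. `a` is fixed by every element of the inertia group fixing `ϖ`;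
* `xi ϖ g`      : `g ϖ / ϖ`, a root of unity of order dividing `p ^ 2 - 1`;
* `UU A ϖ j`    : the units `a ∈ K0(ϖ)` with `a ≡ 1 mod ϖ ^ j`;
* `lc A ϖ j a`  : the leading coefficient `(a - 1) / ϖ ^ j mod 𝔪`;
* `KFam`, `Level` : an additive family of Kummer generators indexed by a finite field `k`.
Only definitions.
-/
import Fermat.Agent.S56.Flat.Defs
import Fermat.Agent.Lib.InertiaField.Teich
import Fermat.Agent.Lib.InertiaField.Frob

set_option autoImplicit false

namespace Fermat.Agent.S56.Flat.Irr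

open Fermat.Agent.Lib.InertiaField

/-- The residue field of `A`. -/
abbrev kb (A : ValuationSubring Qb) : Type := IsLocalRing.ResidueField ↥A

open Classical in
/-- The residue class of `x` (`0` if `x ∉ A`). -/
noncomputable def rs (A : ValuationSubring Qb) (x : Qb) : kb A :=
  if h : x ∈ A then IsLocalRing.residue ↥A ⟨x, h⟩ else 0

/-- The standing hypotheses. -/
structure Unif (A : ValuationSubring Qb) (p : ℕ) (ϖ : Qb) : Prop where
  prime : p.Prime
  odd : p ≠ 2
  lies : A.LiesOverPrime p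
  pow : ϖ ^ (p ^ 2 - 1) = (p : Qb)

/-- `a ∈ K0(ϖ)`. -/
def InK (A : ValuationSubring Qb) (ϖ a : Qb) : Prop :=
  ∀ σ : GQ, σ ∈ Iner A → σ ϖ = ϖ → σ a = a

/-- `g ϖ / ϖ`. -/
noncomputable def xi (ϖ : Qb) (g : GQ) : Qb := g ϖ / ϖ

/-- The units of `K0(ϖ)` congruent to `1` modulo `ϖ ^ j`. -/
def UU (A : ValuationSubring Qb) (ϖ : Qb) (j : ℕ) : Set Qb :=
  {a | InK A ϖ a ∧ A.valuation (a - 1) ≤ A.valuation ϖ ^ j}

/-- The leading coefficient at level `j`. -/
noncomputable def lc (A : ValuationSubring Qb) (ϖ : Qb) (j : ℕ) (a : Qb) : kb A :=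
  rs A ((a - 1) / ϖ ^ j)

/-- `ψ` induces `x ↦ x ^ N` on the residue field. -/
def ActsAsPow (A : ValuationSubring Qb) (ψ : GQ) (N : ℕ) : Prop :=
  ψ ∈ A.decompositionSubgroup ℚ ∧ ∀ x ∈ A, ψ x - x ^ N ∈ A.nonunits

/-- An additive family of Kummer generators over `K0(ϖ)`, indexed by `k`: `Gen z α` means
"`α` is a Kummer generator of the character number `z`".  The inertia group permutes the characters
through the multiplier `m`. -/
structure KFam (A : ValuationSubring Qb) (p : ℕ) (ϖ : Qb) {k : Type} [Field k] (m : GQ → k)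
    (Gen : k → Qb → Prop) : Prop where
  ne_zero : ∀ z α, Gen z α → α ≠ 0
  mul : ∀ z z' α α', Gen z α → Gen z' α' → Gen (z + z') (α * α')
  pow_inK : ∀ z α, Gen z α → InK A ϖ (α ^ p)
  div_inK : ∀ z α α', Gen z α → Gen z α' → InK A ϖ (α / α')
  mul_inK : ∀ z α b, Gen z α → InK A ϖ b → b ≠ 0 → Gen z (α * b)
  smul : ∀ τ ∈ Iner A, ∀ z α, Gen z α → Gen (m τ * z) (τ α)

/-- All the characters of the family have a Kummer generator `α` with `α ^ p ≡ 1 mod ϖ ^ j`. -/
def Level (A : ValuationSubring Qb) (p : ℕ) (ϖ : Qb) {k : Type} (Gen : k → Qb → Prop) (j : ℕ) :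
    Prop :=
  ∀ z, ∃ α, Gen z α ∧ α ^ p ∈ UU A ϖ j

end Fermat.Agent.S56.Flat.Irr
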