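/-
S56 / FLAT / IRR (architect helper78): DEFINITIONS, part 2: matrix cocycles on the decomposition
group, their Kummer families, the normal form ("shape") of the residual representation.

Everything is stated for an abstract group `H` with a homomorphism `f : H →* GQ` ONTO the
decomposition group of `A` (`IsLocMap`); the application is `H = Gv q`, `f = ιv q`.

* `trp`, `chr`   : the trace `k → 𝔽_p` and the additive character `y ↦ ζ ^ tr(y)`;
* `IsMCoc f s u` : `u : H → M2 k` is a smooth trace zero cocycle for the adjoint action through `s`;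
* `Gen`          : the Kummer generators attached to the entry `(i, j)` of `u` restricted to
                   `I' = {x | f x ∈ Iner A, f x ϖ = ϖ}`;
* `KC`           : Fontaine's bound for the entries `(0, 1)` and `(0, 0)`;
* `LC u x`       : `x` is the leading coefficient function of the `(0, 1)`-family at level `p² + 1`;
* `Shape`        : `s = diag(θ, θ ^ p)` on inertia, `θ` = the fundamental character of level 2,
                   a Frobenius acting by an antidiagonal matrix, plus auxiliary choices;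
* `conjRep`      : the conjugate representation `P s Q`;
* `FlatData`, `CountCore` : the abstract form of the statement to be proved.
Only definitions.
-/
import Fermat.Agent.S56.Flat.Irr.Defs
import Fermat.Agent.S53.Defs
import Fermat.Agent.S55.Arith.Defs
import Fermat.Prelude.Def_EllipticCurve_FrobeniusTrace

set_option autoImplicit false

namespace Fermat.Agent.S56.Flat.Irr

open Fermat.Agent.Lib.InertiaField
open Fermat.Agent.S53 (M2)

/-- The trace `k → 𝔽_p`. -/
noncomputable def trp (p : ℕ) (k : Type) [Field k] [CharP k p] : k →+ ZMod p :=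
  letI := ZMod.algebra k p
  (Algebra.trace (ZMod p) k).toAddMonoidHom

/-- The additive character `y ↦ ζ ^ tr(y)` of `k`. -/
noncomputable def chr (p : ℕ) {k : Type} [Field k] [CharP k p] (ζ : Qb) (y : k) : Qb :=
  ζ ^ (trp p k y).val

variable {k : Type} [Field k] {H : Type} [Group H]

/-- `f` maps `H` onto the decomposition group of `A`. -/
structure IsLocMap (A : ValuationSubring Qb) (f : H →* GQ) : Prop where
  mem : ∀ x, f x ∈ A.decompositionSubgroup ℚ
  surj : ∀ g ∈ A.decompositionSubgroup ℚ, ∃ x, f x = g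

/-- A smooth cocycle with values in the trace zero matrices (adjoint action through `s`). -/
structure IsMCoc (f : H →* GQ) (s : GQ →* M2 k) (u : H → M2 k) : Prop where
  map_mul : ∀ x y, u (x * y) = u x + s (f x) * u y * s (f x)⁻¹
  trace : ∀ x, (u x).trace = 0
  level : ∃ N ∈ Fermat.Agent.S55.lvlAll.carrier, ∀ n, f n ∈ N → u n = 0

/-- `α` is a Kummer generator of the character `x ↦ ζ ^ tr(z u(x)_{ij})` of `I'`. -/
def Gen (A : ValuationSubring Qb) (p : ℕ) [CharP k p] (ϖ ζ : Qb) (f : H →* GQ) (u : H → M2 k)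
    (i j : Fin 2) (z : k) (α : Qb) : Prop :=
  α ≠ 0 ∧ ∀ x, f x ∈ Iner A → f x ϖ = ϖ → f x α = chr p ζ (z * u x i j) * α

/-- Fontaine's bound for the entries `(0, 1)` and `(0, 0)`. -/
def KC (A : ValuationSubring Qb) (p : ℕ) [CharP k p] (ϖ ζ : Qb) (f : H →* GQ) (u : H → M2 k) :
    Prop :=
  Level A p ϖ (Gen A p ϖ ζ f u 0 1) (p ^ 2 - 1) ∧ Level A p ϖ (Gen A p ϖ ζ f u 0 0) (p ^ 2 - 1)

/-- `x` is the leading coefficient function at level `p ^ 2 + 1` of the `(0, 1)`-family. -/
def LC (A : ValuationSubring Qb) (p : ℕ) [CharP k p] (ϖ ζ : Qb) (f : H →* GQ) (u : H → M2 k)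
    (x : k → kb A) : Prop :=
  ∀ z α, Gen A p ϖ ζ f u 0 1 z α → α ^ p ∈ UU A ϖ (p ^ 2 + 1) →
    lc A ϖ (p ^ 2 + 1) (α ^ p) = x z

/-- The normal form of `s` on the decomposition group, and auxiliary choices. -/
structure Shape (A : ValuationSubring Qb) (p : ℕ) (ϖ : Qb) (s : GQ →* M2 k) where
  /-- the fundamental character of level 2 -/
  θ : GQ → k
  diag : ∀ σ ∈ Iner A, s σ = !![θ σ, 0; 0, θ σ ^ p]
  /-- the embedding of `k` in the residue field -/
  jj : k →+* kb A
  jj_θ : ∀ σ ∈ Iner A, jj (θ σ) = rs A (xi ϖ σ)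
  /-- a Frobenius -/
  φ : GQ
  frob : A.IsFrobeniusAt φ p
  x₀ : k
  y₀ : k
  anti : s φ = !![0, x₀; y₀, 0]
  /-- a primitive `p`-th root of unity -/
  ζ : Qb
  ζ_pow : ζ ^ p = 1
  ζ_ne : ζ ≠ 1
  /-- a generator of tame inertia of level 2 -/
  τ₀ : GQ
  τ₀_mem : τ₀ ∈ Iner A
  τ₀_order : orderOf (θ τ₀) = p ^ 2 - 1
  /-- the cyclotomic character of `φ ^ 2` -/
  nψ : ℕ
  nψ_spec : (φ * φ) ζ = ζ ^ nψ

/-- The multiplier of the `(0, 1)`-family at the generator `τ₀`. -/
def Shape.g₀ {A : ValuationSubring Qb} {p : ℕ} {ϖ : Qb} {s : GQ →* M2 k} (Sh : Shape A p ϖ s) : k :=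
  Sh.θ Sh.τ₀ ^ (2 * p)

/-- The constant of the Frobenius-semilinear relation `x ^ (p ^ 2) = C x`. -/
noncomputable def Shape.C {A : ValuationSubring Qb} {p : ℕ} {ϖ : Qb} {s : GQ →* M2 k}
    (Sh : Shape A p ϖ s) : kb A :=
  (Sh.nψ : kb A) * (rs A (xi ϖ (Sh.φ * Sh.φ)) ^ (p ^ 2 + 1))⁻¹

/-- The conjugate representation `g ↦ P s(g) Q`, `Q = P⁻¹`. -/
noncomputable def conjRep (s : GQ →* M2 k) (P Q : M2 k) (hPQ : P * Q = 1) (hQP : Q * P = 1) : GQ →* M2 k where
  toFun g := P * s g * Q
  map_one' := by rw [map_one, mul_one, hPQ]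
  map_mul' g h := by
    rw [map_mul]
    calc P * (s g * s h) * Q = P * s g * 1 * s h * Q := by simp only [mul_one, mul_assoc]
      _ = P * s g * Q * (P * s h * Q) := by rw [← hQP]; simp only [mul_assoc]

theorem conjRep_apply (s : GQ →* M2 k) (P Q : M2 k) (hPQ : P * Q = 1) (hQP : Q * P = 1) (g : GQ) :
    conjRep s P Q hPQ hQP g = P * s g * Q := rfl

/-- `u` is a cocycle which is "flat": there is a flat `I`-module `W`, killed by `p`, such that the
elements of inertia acting trivially on `W` are killed by `s` and `u`. -/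
def FlatData (A : ValuationSubring Qb) (p : ℕ) (f : H →* GQ) (s : GQ →* M2 k) (u : H → M2 k) :
    Prop :=
  IsMCoc f s u ∧ ∃ (W : Type) (_ : AddCommGroup W) (_ : DistribMulAction ↥(Iner A) W),
    Finite W ∧ (∀ w : W, p • w = 0) ∧ FlatLoc A W ∧
      ∀ σ : ↥(Iner A), ActsTriv W σ → s σ.1 = 1 ∧ ∀ x, f x = σ.1 → u x = 0

/-- The restrictions to inertia of the cocycles with the property `Pr` take at most `|k|` values
modulo coboundaries. -/
def CountFor (A : ValuationSubring Qb) (f : H →* GQ) (s : GQ →* M2 k)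
    (Pr : (H → M2 k) → Prop) : Prop :=
  ∃ (T : Type) (_ : Finite T) (Φ : {u : H → M2 k // Pr u} → T), Nat.card T ≤ Nat.card k ∧
    ∀ u u', Φ u = Φ u' → ∃ m : M2 k, m.trace = 0 ∧
      ∀ x, f x ∈ Iner A → u.1 x - u'.1 x = s (f x) * m * s (f x)⁻¹ - m

/-- The abstract form of the goal. -/
def CountCore (A : ValuationSubring Qb) (p : ℕ) (f : H →* GQ) (s : GQ →* M2 k) : Prop :=
  CountFor A f s (FlatData A p f s)

end Fermat.Agent.S56.Flat.Irr
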