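/-
S56 / FLAT / IRR (architect helper78): DEFINITIONS, part 3: existence of the normal form `Shape`.

* `IrrHyp A p s φ` : the hypotheses on `s` restricted to the decomposition group of `A`
                     (`φ` a Frobenius, dense modulo inertia; cyclotomic determinant; split
                     characteristic polynomials; no stable line);
* `Indep v₁ v₂`    : linear independence in `k²`;
* `chi A c σ`      : the tame character `σ ↦ σ c / c mod 𝔪` attached to (the valuation of) `c`;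
* `Lead`           : the output of (TC) for a minimal stable subgroup `W0` of `k²`;
* `ChiHyp`         : what remains of `Lead` (basis independent);
* `Eig`            : an eigenbasis for inertia, swapped by the Frobenius.
Only definitions.
-/
import Fermat.Agent.S56.Flat.Irr.Defs2
import Fermat.Agent.S56.Flat.CountDefs

set_option autoImplicit false

namespace Fermat.Agent.S56.Flat.Irr

open Fermat.Agent.Lib.InertiaField Polynomial
open Fermat.Agent.S53 (M2)

variable {k : Type} [Field k]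

/-- The hypotheses on the residual representation at `p`. -/
structure IrrHyp (A : ValuationSubring Qb) (p : ℕ) (s : GQ →* M2 k) (φ : GQ) : Prop where
  prime : p.Prime
  odd : p ≠ 2
  lies : A.LiesOverPrime p
  frob : A.IsFrobeniusAt φ p
  dense : ∀ g ∈ A.decompositionSubgroup ℚ, ∃ i : ℕ, ∃ τ ∈ Iner A, s g = s φ ^ i * s τ
  det : ∀ (σ : GQ) (a : ℕ), (∀ μ : Qb, μ ^ p = 1 → σ μ = μ ^ a) → (s σ).det = (a : k)
  split : ∀ σ : GQ, ∃ α β : k, (s σ).charpoly = (X - C α) * (X - C β)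
  noLine : ¬ ∃ v : Fin 2 → k, v ≠ 0 ∧
    ∀ g ∈ A.decompositionSubgroup ℚ, ∃ a : k, (s g).mulVec v = a • v

/-- Linear independence of two vectors. -/
def Indep (v₁ v₂ : Fin 2 → k) : Prop := ∀ a b : k, a • v₁ + b • v₂ = 0 → a = 0 ∧ b = 0

/-- The tame character attached to `c`. -/
noncomputable def chi (A : ValuationSubring Qb) (c : Qb) (σ : GQ) : kb A := rs A (σ c / c)

/-- The leading term map on a stable subgroup `W0` of `k²`. -/
structure Lead (A : ValuationSubring Qb) (p : ℕ) (s : GQ →* M2 k) (W0 : AddSubgroup (Fin 2 → k))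
    (c : Qb) (y : (Fin 2 → k) → Qb) : Prop where
  ne_bot : ∃ w ∈ W0, w ≠ 0
  stable : ∀ σ ∈ Iner A, ∀ w ∈ W0, (s σ).mulVec w ∈ W0
  val_lt : A.valuation c < 1
  val_le : A.valuation (p : Qb) ≤ A.valuation c ^ (p - 1)
  equiv : ∀ σ ∈ Iner A, ∀ w ∈ W0, y ((s σ).mulVec w) = σ (y w)
  val_eq : ∀ w ∈ W0, w ≠ 0 → A.valuation (y w) = A.valuation c
  zero : y 0 = 0
  add : ∀ w ∈ W0, ∀ w' ∈ W0, A.valuation (y (w + w') - y w - y w') < A.valuation c

/-- The reduction of the leading term map: `w ↦ y w / c mod 𝔪`. -/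
noncomputable def ybar (A : ValuationSubring Qb) (c : Qb) (y : (Fin 2 → k) → Qb) (w : Fin 2 → k) :
    kb A := rs A (y w / c)

/-- The basis independent consequences of `Lead`. -/
structure ChiHyp (A : ValuationSubring Qb) (p : ℕ) (s : GQ →* M2 k) (c : Qb) : Prop where
  val_lt : A.valuation c < 1
  val_le : A.valuation (p : Qb) ≤ A.valuation c ^ (p - 1)
  s_eq : ∀ σ ∈ Iner A, ∀ τ ∈ Iner A, chi A c σ = chi A c τ → s σ = s τ
  quad : ∀ σ ∈ Iner A, ∀ n₁ n₀ : ℕ, s σ * s σ + (n₀ : M2 k) = (n₁ : M2 k) * s σ →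
    chi A c σ ^ 2 + (n₀ : kb A) = (n₁ : kb A) * chi A c σ
  fix : ∃ x : Qb, A.valuation x = A.valuation c ∧ ∀ σ ∈ Iner A, s σ = 1 → σ x = x

/-- An eigenbasis for inertia, swapped by the Frobenius. -/
structure Eig (A : ValuationSubring Qb) (s : GQ →* M2 k) (φ : GQ) (v₁ v₂ : Fin 2 → k)
    (θ₁ θ₂ : GQ → k) (x₀ y₀ : k) : Prop where
  indep : Indep v₁ v₂
  eig₁ : ∀ σ ∈ Iner A, (s σ).mulVec v₁ = θ₁ σ • v₁
  eig₂ : ∀ σ ∈ Iner A, (s σ).mulVec v₂ = θ₂ σ • v₂
  frob₁ : (s φ).mulVec v₁ = y₀ • v₂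
  frob₂ : (s φ).mulVec v₂ = x₀ • v₁

end Fermat.Agent.S56.Flat.Irr
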