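/-
S56 / FLAT / IRR (architect helper78, proofs helper40): task IRR-S18, the hypotheses `IsLocMap`,
`IrrHyp` for the chosen place.
-/
import Fermat.Agent.S56.Flat.Irr.Defs3
import Fermat.Agent.S56.Interface
import Fermat.Agent.S55.Loc.Field.ArithFields

set_option autoImplicit false

namespace Fermat.Agent.S56.Flat.Irr

open Fermat.Agent.Lib.InertiaField Polynomial
open Fermat.Agent.S53 (M2)

variable {k : Type} [Field k]

/-! ## IRR-S18 (file `Adapter.lean`): the hypotheses `IsLocMap`, `IrrHyp` for the chosen place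
`isLocMap_ιv`: `S55.Loc.Field.range_ιv` (`(ιv q).range = Dq q`).
`exists_irrHyp`: a Frobenius `φ` from `isFrobLoc_frob`; `dense`: `hs.fin` gives `L`;
`exists_pow_mul_of_frob h L hL hg` gives `i, τ` with `(φ ^ i * τ)⁻¹ * g` fixing `L`, so
`s ((φ ^ i * τ)⁻¹ * g) = 1`; `det`, `split` are fields of `ResHyp`; `noLine` is `¬ HasLine`. -/
section S18
theorem isLocMap_ιv (q : Nat.Primes) :
    IsLocMap (Fermat.Agent.S55.plc q) (Fermat.Agent.S55.ιv q) where
  mem x := Fermat.Agent.S55.Loc.Field.ιv_mem_Dq q x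
  surj g hg := by
    have h : g ∈ (Fermat.Agent.S55.ιv q).range := by
      rw [Fermat.Agent.S55.Loc.Field.range_ιv]
      exact hg
    exact h
theorem exists_irrHyp {p : ℕ} (hp : p.Prime) (hp2 : p ≠ 2) {s : GQ →* M2 k}
    (hs : Fermat.Agent.S56.ResHyp p s) (hline : ¬ HasLine s ⟨p, hp⟩) :
    ∃ φ : GQ, IrrHyp (Fermat.Agent.S55.plc ⟨p, hp⟩) p s φ := by
  have hfr := Fermat.Agent.S55.Loc.Field.isFrobLoc_frob ⟨p, hp⟩
  refine ⟨_, ⟨hp, hp2, Fermat.Agent.S55.Loc.Field.plc_liesOverPrime ⟨p, hp⟩, hfr, ?_, hs.det,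
    hs.split, hline⟩⟩
  intro g hg
  obtain ⟨L, hL, hLs⟩ := hs.fin
  obtain ⟨i, τ, hτ, hmem⟩ := Fermat.Agent.S55.Loc.Field.exists_pow_mul_of_frob hfr L hL hg
  refine ⟨i, τ, hτ, ?_⟩
  have h1 := hLs _ (fun x hx => hmem ⟨x, hx⟩)
  rw [← map_pow, ← map_mul, ← mul_one (s (_ * τ)), ← h1, ← map_mul, mul_inv_cancel_left]
end S18

end Fermat.Agent.S56.Flat.Irr
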