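/-
S56 / FLAT / IRR, node IRR-R: API of the residue map `rs`.   Owner: helper206.
-/
import Fermat.Agent.S56.Flat.Irr.Defs
import Fermat.Agent.S05.Inertia

set_option autoImplicit false

namespace Fermat.Agent.S56.Flat.Irr

open Fermat.Agent.Lib.InertiaField

variable {A : ValuationSubring Qb} {p : ℕ} {ϖ : Qb}

/-! ## IRR-R (file `Res.lean`): the residue map -/
section R

theorem rs_of_mem {x : Qb} (h : x ∈ A) : rs A x = IsLocalRing.residue ↥A ⟨x, h⟩ := by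
  unfold rs
  rw [dif_pos h]

theorem rs_zero : rs A 0 = 0 := (rs_of_mem A.zero_mem).trans (map_zero _)

theorem rs_one : rs A 1 = 1 := (rs_of_mem A.one_mem).trans (map_one _)

theorem rs_add {x y : Qb} (hx : x ∈ A) (hy : y ∈ A) : rs A (x + y) = rs A x + rs A y := by
  rw [rs_of_mem hx, rs_of_mem hy, rs_of_mem (add_mem hx hy), ← map_add]
  rfl

theorem rs_sub {x y : Qb} (hx : x ∈ A) (hy : y ∈ A) : rs A (x - y) = rs A x - rs A y := by
  rw [rs_of_mem hx, rs_of_mem hy, rs_of_mem (sub_mem hx hy), ← map_sub]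
  rfl

theorem rs_neg {x : Qb} (hx : x ∈ A) : rs A (-x) = - rs A x := by
  rw [rs_of_mem hx, rs_of_mem (neg_mem hx), ← map_neg]
  rfl

theorem rs_mul {x y : Qb} (hx : x ∈ A) (hy : y ∈ A) : rs A (x * y) = rs A x * rs A y := by
  rw [rs_of_mem hx, rs_of_mem hy, rs_of_mem (mul_mem hx hy), ← map_mul]
  rfl

theorem rs_pow {x : Qb} (hx : x ∈ A) (n : ℕ) : rs A (x ^ n) = rs A x ^ n := by
  rw [rs_of_mem hx, rs_of_mem (pow_mem hx n), ← map_pow]
  rfl

theorem rs_natCast (n : ℕ) : rs A (n : Qb) = (n : kb A) := by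
  rw [rs_of_mem (natCast_mem A n), ← map_natCast (IsLocalRing.residue ↥A) n]
  rfl

theorem rs_eq_zero_iff {x : Qb} (hx : x ∈ A) : rs A x = 0 ↔ x ∈ A.nonunits := by
  rw [rs_of_mem hx, IsLocalRing.residue_eq_zero_iff,
    ValuationSubring.mem_nonunits_iff_exists_mem_maximalIdeal]
  exact ⟨fun h => ⟨hx, h⟩, fun ⟨_, h⟩ => h⟩

theorem rs_eq_iff {x y : Qb} (hx : x ∈ A) (hy : y ∈ A) :
    rs A x = rs A y ↔ x - y ∈ A.nonunits := by
  rw [← rs_eq_zero_iff (sub_mem hx hy), rs_sub hx hy, sub_eq_zero]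

theorem rs_inv {x : Qb} (hx : A.valuation x = 1) : rs A x⁻¹ = (rs A x)⁻¹ := by
  have hxA : x ∈ A := (A.valuation_le_one_iff x).1 hx.le
  have hxA' : x⁻¹ ∈ A := by
    rw [← A.valuation_le_one_iff, map_inv₀, hx, inv_one]
  have hx0 : x ≠ 0 := by
    rintro rfl
    rw [map_zero] at hx
    exact zero_ne_one hx
  have h1 : rs A x * rs A x⁻¹ = 1 := by
    rw [← rs_mul hxA hxA', mul_inv_cancel₀ hx0, rs_one]
  exact eq_inv_of_mul_eq_one_right h1

theorem exists_rs_eq (c : kb A) : ∃ x ∈ A, rs A x = c := by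
  obtain ⟨⟨x, hx⟩, rfl⟩ := IsLocalRing.residue_surjective c
  exact ⟨x, hx, rs_of_mem hx⟩

theorem exists_mem_K0_rs_eq (hp : p.Prime) (hA : A.LiesOverPrime p) (c : kb A) :
    ∃ x, x ∈ K0 A ∧ x ∈ A ∧ rs A x = c := by
  obtain ⟨a, ha, rfl⟩ := exists_rs_eq c
  obtain ⟨b, hbK, hbA, hab⟩ := exists_mem_K0_sub_mem A p hp hA ha
  exact ⟨b, hbK, hbA, ((rs_eq_iff ha hbA).2 hab).symm⟩

theorem rs_inertia {σ : GQ} (hσ : σ ∈ Iner A) {x : Qb} (hx : x ∈ A) : rs A (σ x) = rs A x :=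
  (rs_eq_iff (apply_mem_of_mem_decomposition A (inertia_le_decomposition A hσ) hx) hx).2
    (apply_sub_mem_nonunits A hσ hx)

theorem rs_actsAsPow {ψ : GQ} {N : ℕ} (h : ActsAsPow A ψ N) {x : Qb} (hx : x ∈ A) :
    rs A (ψ x) = rs A x ^ N := by
  rw [← rs_pow hx]
  exact (rs_eq_iff (apply_mem_of_mem_decomposition A h.1 hx) (pow_mem hx N)).2 (h.2 x hx)

theorem charP_kb (hp : p.Prime) (hA : A.LiesOverPrime p) : CharP (kb A) p :=
  charP_residueField A p hp hA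

/-- elements of the decomposition group preserve the valuation -/
theorem val_apply {g : GQ} (hg : g ∈ A.decompositionSubgroup ℚ) (x : Qb) :
    A.valuation (g x) = A.valuation x := by
  have : Algebra.IsAlgebraic ℚ Qb := AlgebraicClosure.isAlgebraic ℚ
  exact Fermat.Agent.S05.decomposition_valuation_eq A hg x

theorem val_eq_of_pow_eq {x y : Qb} {n : ℕ} (hn : n ≠ 0)
    (h : A.valuation x ^ n = A.valuation y ^ n) : A.valuation x = A.valuation y :=
  (pow_left_inj₀ zero_le zero_le hn).1 h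

theorem actsAsPow_sq {φ : GQ} (hφ : A.IsFrobeniusAt φ p) : ActsAsPow A (φ * φ) (p ^ 2) := by
  have h1 : ActsAsPow A φ p :=
    ⟨hφ.mem_decompositionSubgroup, fun x hx => frob_apply_sub_pow_mem A p hφ hx⟩
  refine ⟨mul_mem h1.1 h1.1, fun x hx => ?_⟩
  have hφx : φ x ∈ A := apply_mem_of_mem_decomposition A h1.1 hx
  have hφφx : φ (φ x) ∈ A := apply_mem_of_mem_decomposition A h1.1 hφx
  rw [AlgEquiv.mul_apply, ← rs_eq_iff hφφx (pow_mem hx _), rs_actsAsPow h1 hφx,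
    rs_actsAsPow h1 hx, rs_pow hx, ← pow_mul, sq]

end R

end Fermat.Agent.S56.Flat.Irr
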