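/-
S56 / FLAT / IRR (architect helper78), task IRR-T1 (helper250): basic facts on the uniformiser `ϖ`
(`ϖ ^ (p ^ 2 - 1) = p`) and on `xi ϖ g = g ϖ / ϖ`.
-/
import Fermat.Agent.S56.Flat.Irr.Defs
import Fermat.Agent.S56.Flat.Irr.Res

set_option autoImplicit false

namespace Fermat.Agent.S56.Flat.Irr

open Fermat.Agent.Lib.InertiaField

variable {A : ValuationSubring Qb} {p : ℕ} {ϖ : Qb}

/-! ## IRR-T1 (file `Tame1.lean`): `ϖ` and `xi` -/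
section T1

theorem Unif.three_le (h : Unif A p ϖ) : 3 ≤ p := by
  have h2 := h.prime.two_le
  have h3 := h.odd
  omega

theorem Tame1.exp_ne_zero (h : Unif A p ϖ) : p ^ 2 - 1 ≠ 0 := by
  have h3 := h.three_le
  have h9 : 9 ≤ p ^ 2 := by nlinarith
  omega

theorem Unif.not_dvd (h : Unif A p ϖ) : ¬ p ∣ p ^ 2 - 1 := by
  intro hd
  have h3 := h.three_le
  have h1 : 1 ≤ p ^ 2 := Nat.one_le_pow _ _ (by omega)
  have h2 : p ∣ p ^ 2 := dvd_pow_self p (by norm_num)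
  have h4 : p ∣ p ^ 2 - (p ^ 2 - 1) := Nat.dvd_sub h2 hd
  rw [Nat.sub_sub_self h1] at h4
  have h5 := Nat.le_of_dvd one_pos h4
  omega

theorem Unif.ne_zero (h : Unif A p ϖ) : ϖ ≠ 0 := by
  intro h0
  have h1 := h.pow
  rw [h0, zero_pow (Tame1.exp_ne_zero h)] at h1
  exact (Nat.cast_ne_zero.2 h.prime.ne_zero) h1.symm

theorem Unif.val_pow (h : Unif A p ϖ) :
    A.valuation ϖ ^ (p ^ 2 - 1) = A.valuation (p : Qb) := by
  rw [← map_pow, h.pow]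

theorem Unif.val_lt_one (h : Unif A p ϖ) : A.valuation ϖ < 1 := by
  have h1 : A.valuation (p : Qb) < 1 := (ValuationSubring.mem_nonunits_iff A).1 h.lies
  by_contra hc
  rw [not_lt] at hc
  have h2 := one_le_pow₀ hc (n := p ^ 2 - 1)
  rw [h.val_pow] at h2
  exact absurd h1 (not_lt.2 h2)

theorem Unif.val_ne_zero (h : Unif A p ϖ) : A.valuation ϖ ≠ 0 :=
  (map_ne_zero _).2 h.ne_zero

theorem Unif.mem (h : Unif A p ϖ) : ϖ ∈ A :=
  (A.valuation_le_one_iff _).1 h.val_lt_one.le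

theorem Unif.mem_nonunits (h : Unif A p ϖ) : ϖ ∈ A.nonunits :=
  (ValuationSubring.mem_nonunits_iff A).2 h.val_lt_one

theorem Unif.apply_eq (h : Unif A p ϖ) (g : GQ) : g ϖ = xi ϖ g * ϖ := by
  rw [xi, div_mul_cancel₀ _ h.ne_zero]

theorem Unif.xi_pow (h : Unif A p ϖ) (g : GQ) : xi ϖ g ^ (p ^ 2 - 1) = 1 := by
  have hp0 : (p : Qb) ≠ 0 := Nat.cast_ne_zero.2 h.prime.ne_zero
  rw [xi, div_pow, ← map_pow, h.pow, map_natCast, div_self hp0]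

theorem Unif.xi_mem_K0 (h : Unif A p ϖ) (g : GQ) : xi ϖ g ∈ K0 A :=
  rootOfUnity_mem_K0 A p h.prime h.lies h.not_dvd (h.xi_pow g)

theorem Tame1.val_eq_one_of_pow (h : Unif A p ϖ) {ξ : Qb} (hξ : ξ ^ (p ^ 2 - 1) = 1) :
    A.valuation ξ = 1 := by
  have h1 : A.valuation ξ ^ (p ^ 2 - 1) = 1 := by rw [← map_pow, hξ, map_one]
  exact (pow_eq_one_iff.1 h1).resolve_right (Tame1.exp_ne_zero h)

theorem Tame1.mem_of_pow (h : Unif A p ϖ) {ξ : Qb} (hξ : ξ ^ (p ^ 2 - 1) = 1) : ξ ∈ A :=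
  (A.valuation_le_one_iff _).1 (Tame1.val_eq_one_of_pow h hξ).le

theorem Unif.xi_mem (h : Unif A p ϖ) (g : GQ) : xi ϖ g ∈ A :=
  Tame1.mem_of_pow h (h.xi_pow g)

theorem Unif.val_xi (h : Unif A p ϖ) (g : GQ) : A.valuation (xi ϖ g) = 1 :=
  Tame1.val_eq_one_of_pow h (h.xi_pow g)

theorem Unif.xi_mul (h : Unif A p ϖ) (g g' : GQ) : xi ϖ (g * g') = g (xi ϖ g') * xi ϖ g := by
  have h0 := h.ne_zero
  have hg0 : g ϖ ≠ 0 := (map_ne_zero g).2 h0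
  simp only [xi, AlgEquiv.mul_apply, map_div₀]
  field_simp

theorem Unif.xi_mul_of_inertia (h : Unif A p ϖ) {σ : GQ} (hσ : σ ∈ Iner A) (g : GQ) :
    xi ϖ (σ * g) = xi ϖ σ * xi ϖ g := by
  rw [h.xi_mul, (mem_K0_iff A _).1 (h.xi_mem_K0 g) σ hσ, mul_comm]

theorem Unif.xi_eq_one_iff (h : Unif A p ϖ) (g : GQ) : xi ϖ g = 1 ↔ g ϖ = ϖ := by
  rw [xi, div_eq_one_iff_eq h.ne_zero]

/-- roots of unity of order dividing `p ^ 2 - 1` are distinct modulo the maximal ideal -/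
theorem Unif.eq_of_rs_eq (h : Unif A p ϖ) {ξ ξ' : Qb} (hξ : ξ ^ (p ^ 2 - 1) = 1)
    (hξ' : ξ' ^ (p ^ 2 - 1) = 1) (he : rs A ξ = rs A ξ') : ξ = ξ' :=
  rootOfUnity_eq_of_sub_mem A p h.prime h.lies h.not_dvd h.not_dvd hξ hξ'
    ((rs_eq_iff (Tame1.mem_of_pow h hξ) (Tame1.mem_of_pow h hξ')).1 he)

theorem Unif.rs_xi_eq_one_iff (h : Unif A p ϖ) (g : GQ) : rs A (xi ϖ g) = 1 ↔ g ϖ = ϖ := by
  rw [← h.xi_eq_one_iff]
  constructor
  · intro he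
    exact h.eq_of_rs_eq (h.xi_pow g) (one_pow _) (by rw [he, rs_one])
  · intro he
    rw [he, rs_one]

end T1

end Fermat.Agent.S56.Flat.Irr
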