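/-
S56 / FLAT / IRR (architect helper78, proofs helper273), task IRR-S3:
the tame character `chi A c σ = rs (σ c / c)`.
-/
import Fermat.Agent.S56.Flat.Irr.Defs3
import Fermat.Agent.S56.Flat.Irr.Res
import Fermat.Agent.S56.Flat.Irr.Tame1

set_option autoImplicit false

namespace Fermat.Agent.S56.Flat.Irr

open Fermat.Agent.Lib.InertiaField Polynomial
open Fermat.Agent.S53 (M2)

variable {A : ValuationSubring Qb} {p : ℕ} {ϖ c : Qb}
variable {k : Type} [Field k] {s : GQ →* M2 k} {φ : GQ}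

/-! ## IRR-S3 (file `Chi.lean`): the tame character `chi A c σ = rs (σ c / c)`
`σ c / c` is a unit (`val_apply`).  If `c' = c u`, `u` a unit, `σ u / u ≡ 1` (`rs_inertia`, `rs_inv`).
`σ τ c / c = σ (τ c / c) * (σ c / c)` and `rs (σ x) = rs x`.
Conjugation: `(g σ g⁻¹) c / c = g (σ c' / c')` with `c' = g⁻¹ c`, `val c' = val c`;
`rs (φ x) = rs x ^ p` for a Frobenius (`frob_apply_sub_pow_mem` of Lib/InertiaField/Frob, `rs_eq_iff`);
`g` preserves `A.nonunits`. -/
section S3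
variable {c' : Qb} {σ τ g : GQ}

theorem Chi.mem_of_val {x : Qb} (hx : A.valuation x = 1) : x ∈ A :=
  (A.valuation_le_one_iff x).1 hx.le

theorem Chi.rs_ne_zero {x : Qb} (hx : A.valuation x = 1) : rs A x ≠ 0 := by
  intro h
  rw [rs_eq_zero_iff (Chi.mem_of_val hx), ValuationSubring.mem_nonunits_iff, hx] at h
  exact lt_irrefl _ h

theorem val_apply_div (hc : c ≠ 0) (hσ : σ ∈ A.decompositionSubgroup ℚ) :
    A.valuation (σ c / c) = 1 := by
  rw [map_div₀, val_apply hσ, div_self ((_root_.map_ne_zero _).2 hc)]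

theorem Chi.apply_div_mem (hc : c ≠ 0) (hσ : σ ∈ A.decompositionSubgroup ℚ) : σ c / c ∈ A :=
  Chi.mem_of_val (val_apply_div hc hσ)

theorem chi_ne_zero (hc : c ≠ 0) (hσ : σ ∈ Iner A) : chi A c σ ≠ 0 :=
  Chi.rs_ne_zero (val_apply_div hc (inertia_le_decomposition A hσ))

/-- `σ u / u ≡ 1` for a unit `u`. -/
theorem Chi.rs_apply_div {u : Qb} (hu : A.valuation u = 1) (hσ : σ ∈ Iner A) :
    rs A (σ u / u) = 1 := by
  have huA : u ∈ A := Chi.mem_of_val hu
  have hσu : σ u ∈ A := apply_mem_of_mem_decomposition A (inertia_le_decomposition A hσ) huA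
  have hinv : u⁻¹ ∈ A := Chi.mem_of_val (by rw [map_inv₀, hu, inv_one])
  rw [div_eq_mul_inv, rs_mul hσu hinv, rs_inertia hσ huA, rs_inv hu,
    mul_inv_cancel₀ (Chi.rs_ne_zero hu)]

theorem chi_congr (hc : c ≠ 0) (h : A.valuation c = A.valuation c') (hσ : σ ∈ Iner A) :
    chi A c σ = chi A c' σ := by
  have hc' : c' ≠ 0 := by
    rw [← _root_.map_ne_zero A.valuation, ← h]
    exact (_root_.map_ne_zero _).2 hc
  have hD := inertia_le_decomposition A hσ
  have hu : A.valuation (c' / c) = 1 := by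
    rw [map_div₀, ← h, div_self ((_root_.map_ne_zero _).2 hc)]
  have hσc : σ c ≠ 0 := (_root_.map_ne_zero σ).2 hc
  have e : σ c' / c' = σ c / c * (σ (c' / c) / (c' / c)) := by
    rw [map_div₀]
    field_simp
  unfold chi
  rw [e, rs_mul (Chi.apply_div_mem hc hD) (Chi.mem_of_val (val_apply_div
    (div_ne_zero hc' hc) hD)), Chi.rs_apply_div hu hσ, mul_one]

theorem chi_one (hc : c ≠ 0) : chi A c 1 = 1 := by
  unfold chi
  rw [AlgEquiv.one_apply, div_self hc, rs_one]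

theorem chi_of_fix (hc : c ≠ 0) (h : σ c = c) : chi A c σ = 1 := by
  unfold chi
  rw [h, div_self hc, rs_one]

theorem chi_mul (hc : c ≠ 0) (hσ : σ ∈ Iner A) (hτ : τ ∈ Iner A) :
    chi A c (σ * τ) = chi A c σ * chi A c τ := by
  have hDσ := inertia_le_decomposition A hσ
  have hDτ := inertia_le_decomposition A hτ
  have hσc : σ c ≠ 0 := (_root_.map_ne_zero σ).2 hc
  have e : (σ * τ) c / c = σ c / c * σ (τ c / c) := by
    rw [AlgEquiv.mul_apply, map_div₀]
    field_simp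
  unfold chi
  rw [e, rs_mul (Chi.apply_div_mem hc hDσ)
    (apply_mem_of_mem_decomposition A hDσ (Chi.apply_div_mem hc hDτ)),
    rs_inertia hσ (Chi.apply_div_mem hc hDτ)]

theorem chi_inv (hc : c ≠ 0) (hσ : σ ∈ Iner A) : chi A c σ⁻¹ = (chi A c σ)⁻¹ := by
  have h := chi_mul hc hσ (inv_mem hσ)
  rw [mul_inv_cancel, chi_one hc] at h
  exact eq_inv_of_mul_eq_one_right h.symm

theorem chi_pow_right (hc : c ≠ 0) (hσ : σ ∈ Iner A) (n : ℕ) :
    chi A c (σ ^ n) = chi A c σ ^ n := by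
  induction n with
  | zero => rw [pow_zero, pow_zero, chi_one hc]
  | succ n ih => rw [pow_succ, pow_succ, chi_mul hc (pow_mem hσ n) hσ, ih]

theorem chi_pow_left (hc : c ≠ 0) (hσ : σ ∈ Iner A) (m : ℕ) :
    chi A (c ^ m) σ = chi A c σ ^ m := by
  unfold chi
  rw [map_pow, ← div_pow, rs_pow (Chi.apply_div_mem hc (inertia_le_decomposition A hσ))]

theorem chi_conj_eq_one (hc : c ≠ 0) (hg : g ∈ A.decompositionSubgroup ℚ) (hσ : σ ∈ Iner A)
    (h : chi A c σ = 1) : chi A c (g⁻¹ * σ * g) = 1 := by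
  have hgc : g c ≠ 0 := (_root_.map_ne_zero g).2 hc
  have hD := inertia_le_decomposition A hσ
  have hx : σ (g c) / g c ∈ A := Chi.apply_div_mem hgc hD
  have h1 : chi A (g c) σ = 1 := by
    rw [← chi_congr hc (val_apply hg c).symm hσ, h]
  have h2 : σ (g c) / g c - 1 ∈ A.nonunits := by
    rw [← rs_eq_iff hx A.one_mem, rs_one]
    exact h1
  have h3 := apply_mem_nonunits_of_mem_decomposition A (inv_mem hg) h2
  have e : (g⁻¹ * σ * g) c / c = g⁻¹ (σ (g c) / g c) := by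
    rw [AlgEquiv.mul_apply, AlgEquiv.mul_apply, map_div₀]
    congr 1
    exact (g.symm_apply_apply c).symm
  unfold chi
  rw [e, ← rs_one (A := A), rs_eq_iff (apply_mem_of_mem_decomposition A (inv_mem hg) hx) A.one_mem]
  rw [map_sub, map_one] at h3
  exact h3

theorem chi_frob (hc : c ≠ 0) (hφ : A.IsFrobeniusAt φ p) (hσ : σ ∈ Iner A) :
    chi A c (φ * σ * φ⁻¹) = chi A c σ ^ p := by
  have hφD : φ ∈ A.decompositionSubgroup ℚ := hφ.mem_decompositionSubgroup
  have hact : ActsAsPow A φ p := ⟨hφD, fun x hx => frob_apply_sub_pow_mem A p hφ hx⟩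
  have hc' : φ⁻¹ c ≠ 0 := (_root_.map_ne_zero φ⁻¹).2 hc
  have hD := inertia_le_decomposition A hσ
  have e : (φ * σ * φ⁻¹) c / c = φ (σ (φ⁻¹ c) / φ⁻¹ c) := by
    rw [AlgEquiv.mul_apply, AlgEquiv.mul_apply, map_div₀]
    congr 1
    exact (φ.apply_symm_apply c).symm
  rw [chi_congr hc (val_apply (inv_mem hφD) c).symm hσ]
  unfold chi
  rw [e, rs_actsAsPow hact (Chi.apply_div_mem hc' hD)]

theorem chi_eq_xi (σ : GQ) : chi A ϖ σ = rs A (xi ϖ σ) := rfl

end S3

end Fermat.Agent.S56.Flat.Irr
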