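/-
S56 / FLAT / IRR (architect helper78), task IRR-S7: formal consequences of `ChiHyp`.
-/
import Fermat.Agent.S56.Flat.Irr.Defs3
import Fermat.Agent.S56.Flat.Irr.Chi

set_option autoImplicit false

namespace Fermat.Agent.S56.Flat.Irr

open Fermat.Agent.Lib.InertiaField Polynomial
open Fermat.Agent.S53 (M2)

variable {A : ValuationSubring Qb} {p : ℕ} {ϖ c : Qb}
variable {k : Type} [Field k] {s : GQ →* M2 k} {φ : GQ}

/-! ## IRR-S7 (file `ChiConseq.lean`): formal consequences of `ChiHyp`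
`c ≠ 0` since `0 < val p ≤ val c ^ (p - 1)`.  `comm`: `chi (σ τ) = chi (τ σ)`.
`frob_conj`: `chi (φ σ φ⁻¹) = chi σ ^ p = chi (σ ^ p)` (`chi_frob`, `chi_pow_right`,
`conj_mem_inertia`).  `chi_eq_one_iff`: `→` is `s_eq` with `τ = 1`; `←`: `C.fix`, `chi_congr`,
`chi_of_fix`. -/
section S7
theorem ChiHyp.c_ne_zero (hp : p.Prime) (C : ChiHyp A p s c) : c ≠ 0 := by
  rintro rfl
  have h1 := C.val_le
  have hp1 : p - 1 ≠ 0 := by
    have := hp.two_le
    omega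
  rw [map_zero, zero_pow hp1, le_zero_iff, map_eq_zero] at h1
  exact Nat.cast_ne_zero.2 hp.ne_zero h1

theorem ChiHyp.comm (hp : p.Prime) (C : ChiHyp A p s c) :
    ∀ σ ∈ Iner A, ∀ τ ∈ Iner A, s σ * s τ = s τ * s σ := by
  intro σ hσ τ hτ
  have hc := C.c_ne_zero hp
  rw [← map_mul, ← map_mul]
  apply C.s_eq _ (mul_mem hσ hτ) _ (mul_mem hτ hσ)
  rw [chi_mul hc hσ hτ, chi_mul hc hτ hσ, mul_comm]

theorem ChiHyp.frob_conj (hp : p.Prime) (C : ChiHyp A p s c) (hφ : A.IsFrobeniusAt φ p) :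
    ∀ σ ∈ Iner A, s (φ * σ * φ⁻¹) = s σ ^ p := by
  intro σ hσ
  have hc := C.c_ne_zero hp
  rw [← map_pow]
  apply C.s_eq _ (conj_mem_inertia A hφ.mem_decompositionSubgroup hσ) _ (pow_mem hσ p)
  rw [chi_frob hc hφ hσ, chi_pow_right hc hσ]

theorem ChiHyp.chi_eq_one_iff (hp : p.Prime) (C : ChiHyp A p s c) :
    ∀ σ ∈ Iner A, (chi A c σ = 1 ↔ s σ = 1) := by
  intro σ hσ
  have hc := C.c_ne_zero hp
  constructor
  · intro h
    rw [← map_one s]
    apply C.s_eq _ hσ _ (one_mem _)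
    rw [h, chi_one hc]
  · intro h
    obtain ⟨x, hx, hfix⟩ := C.fix
    have hx0 : x ≠ 0 := by
      rw [← _root_.map_ne_zero A.valuation, hx]
      exact (_root_.map_ne_zero _).2 hc
    rw [chi_congr hc hx.symm hσ]
    exact chi_of_fix hx0 (hfix σ hσ h)
end S7

end Fermat.Agent.S56.Flat.Irr
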