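/-
S56 / FLAT / IRR (architect helper78), task IRR-S0: independent vectors in `k²`.
-/
import Fermat.Agent.S56.Flat.Irr.Defs3

set_option autoImplicit false

namespace Fermat.Agent.S56.Flat.Irr

open Fermat.Agent.Lib.InertiaField Polynomial
open Fermat.Agent.S53 (M2)

variable {A : ValuationSubring Qb} {p : ℕ} {ϖ c : Qb}
variable {k : Type} [Field k] {s : GQ →* M2 k} {φ : GQ}

/-! ## IRR-S0 (file `LinAlg.lean`): independent vectors in `k²`
Pure linear algebra of `2 × 2` matrices over a field.  `Indep v₁ v₂ ↔ v₁ 0 * v₂ 1 - v₁ 1 * v₂ 0 ≠ 0`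
is a convenient intermediate step (Cramer); `Q = !![v₁ 0, v₂ 0; v₁ 1, v₂ 1]`, `P = Q⁻¹`. -/
section S0
variable {M N : M2 k} {v v₁ v₂ w w' : Fin 2 → k}

omit [Field k] in
theorem linAlg_ext {u u' : Fin 2 → k} (h0 : u 0 = u' 0) (h1 : u 1 = u' 1) : u = u' := by
  funext i
  fin_cases i
  · exact h0
  · exact h1

theorem linAlg_det_ne_zero (h : Indep v₁ v₂) : v₁ 0 * v₂ 1 - v₁ 1 * v₂ 0 ≠ 0 := by
  intro hD
  have h1 := h (v₂ 1) (-v₁ 1) (linAlg_ext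
    (by simp only [Pi.add_apply, Pi.smul_apply, smul_eq_mul, Pi.zero_apply]; linear_combination hD)
    (by simp only [Pi.add_apply, Pi.smul_apply, smul_eq_mul, Pi.zero_apply]; ring))
  have h2 := h (v₂ 0) (-v₁ 0) (linAlg_ext
    (by simp only [Pi.add_apply, Pi.smul_apply, smul_eq_mul, Pi.zero_apply]; ring)
    (by simp only [Pi.add_apply, Pi.smul_apply, smul_eq_mul, Pi.zero_apply]; linear_combination -hD))
  have e0 : v₁ 0 = 0 := neg_eq_zero.1 h2.2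
  have e1 : v₁ 1 = 0 := neg_eq_zero.1 h1.2
  have h3 := h 1 0 (linAlg_ext
    (by simp only [Pi.add_apply, Pi.smul_apply, smul_eq_mul, Pi.zero_apply]; rw [e0]; ring)
    (by simp only [Pi.add_apply, Pi.smul_apply, smul_eq_mul, Pi.zero_apply]; rw [e1]; ring))
  exact one_ne_zero h3.1

theorem indep_of_not_smul (hw : w ≠ 0) (hw' : ∀ a : k, w' ≠ a • w) : Indep w w' := by
  intro a b hab
  have hb : b = 0 := by
    by_contra hb
    apply hw' (-(b⁻¹ * a))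
    have h1 : b • w' = -(a • w) := eq_neg_of_add_eq_zero_right hab
    calc w' = b⁻¹ • (b • w') := by rw [smul_smul, inv_mul_cancel₀ hb, one_smul]
      _ = -(b⁻¹ * a) • w := by rw [h1, smul_neg, smul_smul, neg_smul]
  refine ⟨?_, hb⟩
  rw [hb, zero_smul, add_zero] at hab
  exact (smul_eq_zero.1 hab).resolve_right hw

theorem Indep.symm (h : Indep v₁ v₂) : Indep v₂ v₁ := by
  intro a b hab
  rw [add_comm] at hab
  exact (h b a hab).symm

theorem Indep.ne_zero_left (h : Indep v₁ v₂) : v₁ ≠ 0 := by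
  intro h0
  have := h 1 0 (by rw [h0, smul_zero, zero_smul, add_zero])
  exact one_ne_zero this.1

theorem Indep.ne_zero_right (h : Indep v₁ v₂) : v₂ ≠ 0 := by
  intro h0
  have := h 0 1 (by rw [h0, smul_zero, zero_smul, add_zero])
  exact one_ne_zero this.2

theorem Indep.exists_coord (h : Indep v₁ v₂) (v : Fin 2 → k) :
    ∃ a b : k, v = a • v₁ + b • v₂ := by
  have hD := linAlg_det_ne_zero h
  obtain ⟨D, hDdef⟩ : ∃ D, D = v₁ 0 * v₂ 1 - v₁ 1 * v₂ 0 := ⟨_, rfl⟩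
  rw [← hDdef] at hD
  refine ⟨(v 0 * v₂ 1 - v 1 * v₂ 0) / D, (v₁ 0 * v 1 - v₁ 1 * v 0) / D, linAlg_ext ?_ ?_⟩
  · simp only [Pi.add_apply, Pi.smul_apply, smul_eq_mul]
    field_simp
    rw [hDdef]
    ring
  · simp only [Pi.add_apply, Pi.smul_apply, smul_eq_mul]
    field_simp
    rw [hDdef]
    ring

theorem Indep.eq_of_mulVec_eq (h : Indep v₁ v₂) (h₁ : M.mulVec v₁ = N.mulVec v₁)
    (h₂ : M.mulVec v₂ = N.mulVec v₂) : M = N := by
  rw [Matrix.ext_iff_mulVec]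
  intro v
  obtain ⟨a, b, rfl⟩ := h.exists_coord v
  rw [Matrix.mulVec_add, Matrix.mulVec_add, Matrix.mulVec_smul, Matrix.mulVec_smul,
    Matrix.mulVec_smul, Matrix.mulVec_smul, h₁, h₂]

theorem Indep.exists_conj (h : Indep v₁ v₂) :
    ∃ P Q : M2 k, P * Q = 1 ∧ Q * P = 1 ∧ ∀ (M : M2 k) (a b c d : k),
      M.mulVec v₁ = a • v₁ + c • v₂ → M.mulVec v₂ = b • v₁ + d • v₂ →
      P * M * Q = !![a, b; c, d] := by
  have hD := linAlg_det_ne_zero h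
  obtain ⟨D, hDdef⟩ : ∃ D, D = v₁ 0 * v₂ 1 - v₁ 1 * v₂ 0 := ⟨_, rfl⟩
  rw [← hDdef] at hD
  have hPQ : (D⁻¹ • !![v₂ 1, -v₂ 0; -v₁ 1, v₁ 0] : M2 k) * !![v₁ 0, v₂ 0; v₁ 1, v₂ 1] = 1 := by
    rw [Matrix.smul_mul, Matrix.mul_fin_two, Matrix.smul_of, Matrix.one_fin_two]
    have e1 : D⁻¹ * (v₂ 1 * v₁ 0 + -v₂ 0 * v₁ 1) = 1 := by
      rw [show v₂ 1 * v₁ 0 + -v₂ 0 * v₁ 1 = D by rw [hDdef]; ring, inv_mul_cancel₀ hD]
    have e2 : D⁻¹ * (-v₁ 1 * v₂ 0 + v₁ 0 * v₂ 1) = 1 := by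
      rw [show -v₁ 1 * v₂ 0 + v₁ 0 * v₂ 1 = D by rw [hDdef]; ring, inv_mul_cancel₀ hD]
    have e3 : D⁻¹ * (v₂ 1 * v₂ 0 + -v₂ 0 * v₂ 1) = 0 := by
      rw [show v₂ 1 * v₂ 0 + -v₂ 0 * v₂ 1 = 0 by ring, mul_zero]
    have e4 : D⁻¹ * (-v₁ 1 * v₁ 0 + v₁ 0 * v₁ 1) = 0 := by
      rw [show -v₁ 1 * v₁ 0 + v₁ 0 * v₁ 1 = 0 by ring, mul_zero]
    simp only [Matrix.smul_cons, smul_eq_mul, Matrix.smul_empty, e1, e2, e3, e4]
  refine ⟨D⁻¹ • !![v₂ 1, -v₂ 0; -v₁ 1, v₁ 0], !![v₁ 0, v₂ 0; v₁ 1, v₂ 1], hPQ,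
    mul_eq_one_comm.1 hPQ, ?_⟩
  intro M a b c d h₁ h₂
  have hMQ : M * !![v₁ 0, v₂ 0; v₁ 1, v₂ 1] = !![v₁ 0, v₂ 0; v₁ 1, v₂ 1] * !![a, b; c, d] := by
    have a0 := congrFun h₁ 0
    have a1 := congrFun h₁ 1
    have b0 := congrFun h₂ 0
    have b1 := congrFun h₂ 1
    simp only [Matrix.mulVec, dotProduct, Fin.sum_univ_two, Pi.add_apply, Pi.smul_apply,
      smul_eq_mul] at a0 a1 b0 b1
    rw [Matrix.eta_fin_two M, Matrix.mul_fin_two, Matrix.mul_fin_two, a0, a1, b0, b1]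
    congr 1
    simp only [mul_comm]
  rw [mul_assoc, hMQ, ← mul_assoc, hPQ, one_mul]

theorem Indep.det_eq (h : Indep v₁ v₂) {a d : k} (h₁ : M.mulVec v₁ = a • v₁)
    (h₂ : M.mulVec v₂ = d • v₂) : M.det = a * d := by
  obtain ⟨P, Q, hPQ, -, hc⟩ := h.exists_conj
  have h3 := hc M a 0 0 d (by rw [h₁, zero_smul, add_zero]) (by rw [h₂, zero_smul, zero_add])
  have h4 := congrArg Matrix.det h3
  rw [Matrix.det_mul, Matrix.det_mul, Matrix.det_fin_two_of] at h4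
  have h5 : P.det * Q.det = 1 := by rw [← Matrix.det_mul, hPQ, Matrix.det_one]
  linear_combination h4 - M.det * h5

theorem Indep.eigenvector_mem (h : Indep v₁ v₂) {α β c : k} (hαβ : α ≠ β)
    (h₁ : M.mulVec v₁ = α • v₁) (h₂ : M.mulVec v₂ = β • v₂) (hv : M.mulVec v = c • v) :
    (∃ a : k, v = a • v₁) ∨ (∃ b : k, v = b • v₂) := by
  obtain ⟨x, y, rfl⟩ := h.exists_coord v
  rw [Matrix.mulVec_add, Matrix.mulVec_smul, Matrix.mulVec_smul, h₁, h₂] at hv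
  have h3 := h (x * (α - c)) (y * (β - c)) (by
    have : (x * (α - c)) • v₁ + (y * (β - c)) • v₂ =
        (x • α • v₁ + y • β • v₂) - c • (x • v₁ + y • v₂) := by
      simp only [smul_add, smul_smul, mul_sub, sub_smul]
      rw [mul_comm c x, mul_comm c y]
      abel
    rw [this, hv, sub_self])
  by_cases hx : x = 0
  · right
    exact ⟨y, by rw [hx, zero_smul, zero_add]⟩
  · left
    have hαc : α = c := sub_eq_zero.1 ((mul_eq_zero.1 h3.1).resolve_left hx)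
    have hy : y = 0 := by
      rcases mul_eq_zero.1 h3.2 with hy | hy
      · exact hy
      · exact absurd (hαc.trans (sub_eq_zero.1 hy).symm) hαβ
    exact ⟨x, by rw [hy, zero_smul, add_zero]⟩

end S0

end Fermat.Agent.S56.Flat.Irr
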