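/-
S56 / FLAT / IRR (architect helper78), task IRR-S1: eigenvectors of `2 × 2` matrices with split
characteristic polynomial.
-/
import Fermat.Agent.S56.Flat.Irr.Defs3
import Fermat.Agent.S56.Flat.Irr.LinAlg

set_option autoImplicit false

namespace Fermat.Agent.S56.Flat.Irr

open Fermat.Agent.Lib.InertiaField Polynomial
open Fermat.Agent.S53 (M2)

variable {A : ValuationSubring Qb} {p : ℕ} {ϖ c : Qb}
variable {k : Type} [Field k] {s : GQ →* M2 k} {φ : GQ}

/-! ## IRR-S1 (file `LinAlgEig.lean`): eigenvectors of `2 × 2` matrices with split charpoly -/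
section S1
variable {M : M2 k} {v v' : Fin 2 → k}

/-- `c` is an eigenvalue iff it is a root of the characteristic polynomial. -/
theorem linAlgEig_exists_iff (M : M2 k) (c : k) :
    (∃ v : Fin 2 → k, v ≠ 0 ∧ M.mulVec v = c • v) ↔ M.charpoly.eval c = 0 := by
  rw [Matrix.eval_charpoly, ← Matrix.exists_mulVec_eq_zero_iff]
  have e : ∀ v : Fin 2 → k, (Matrix.scalar (Fin 2) c - M).mulVec v = c • v - M.mulVec v := by
    intro v
    rw [Matrix.sub_mulVec, Matrix.scalar_apply, ← Matrix.smul_one_eq_diagonal, Matrix.smul_mulVec,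
      Matrix.one_mulVec]
  constructor
  · rintro ⟨v, hv, h⟩
    exact ⟨v, hv, by rw [e, h, sub_self]⟩
  · rintro ⟨v, hv, h⟩
    rw [e] at h
    exact ⟨v, hv, (sub_eq_zero.1 h).symm⟩

theorem exists_eigenvector {α β : k} (h : M.charpoly = (X - C α) * (X - C β)) :
    ∃ v : Fin 2 → k, v ≠ 0 ∧ M.mulVec v = α • v := by
  rw [linAlgEig_exists_iff, h]
  simp

theorem eigenvalue_mem {α β c : k} (h : M.charpoly = (X - C α) * (X - C β)) (hv : v ≠ 0)
    (hc : M.mulVec v = c • v) : c = α ∨ c = β := by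
  have h1 := (linAlgEig_exists_iff M c).1 ⟨v, hv, hc⟩
  rw [h, eval_mul, eval_sub, eval_sub, eval_X, eval_C, eval_C] at h1
  rcases mul_eq_zero.1 h1 with h2 | h2
  · exact Or.inl (sub_eq_zero.1 h2)
  · exact Or.inr (sub_eq_zero.1 h2)

theorem exists_eigenbasis {α β : k} (h : M.charpoly = (X - C α) * (X - C β)) (hαβ : α ≠ β) :
    ∃ v₁ v₂ : Fin 2 → k, Indep v₁ v₂ ∧ M.mulVec v₁ = α • v₁ ∧ M.mulVec v₂ = β • v₂ := by
  obtain ⟨v₁, hv₁, h₁⟩ := exists_eigenvector h
  obtain ⟨v₂, hv₂, h₂⟩ := exists_eigenvector (M := M) (α := β) (β := α) (by rw [h, mul_comm])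
  refine ⟨v₁, v₂, ?_, h₁, h₂⟩
  intro a b hab
  have h3 : M.mulVec (a • v₁ + b • v₂) = 0 := by rw [hab, Matrix.mulVec_zero]
  rw [Matrix.mulVec_add, Matrix.mulVec_smul, Matrix.mulVec_smul, h₁, h₂] at h3
  have h4 : (a * (α - β)) • v₁ = 0 := by
    have h5 : (a * (α - β)) • v₁ = (a • α • v₁ + b • β • v₂) - β • (a • v₁ + b • v₂) := by
      rw [smul_add, smul_smul, smul_smul, smul_smul, smul_smul, mul_sub, sub_smul, mul_comm β a,
        mul_comm β b]
      abel
    rw [h5, h3, hab, smul_zero, sub_zero]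
  have ha : a = 0 := by
    rcases smul_eq_zero.1 h4 with h6 | h6
    · exact (mul_eq_zero.1 h6).resolve_right (sub_ne_zero.2 hαβ)
    · exact absurd h6 hv₁
  refine ⟨ha, ?_⟩
  rw [ha, zero_smul, zero_add] at hab
  exact (smul_eq_zero.1 hab).resolve_right hv₂

/-- a non scalar matrix with a double eigenvalue has only one eigenline -/
theorem eigenvector_unique {α : k} (h : M.charpoly = (X - C α) * (X - C α))
    (hM : ¬ ∃ a : k, M = a • (1 : M2 k)) (hv : v ≠ 0) (hv1 : M.mulVec v = α • v) {c : k}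
    (hv' : M.mulVec v' = c • v') : ∃ a : k, v' = a • v := by
  by_contra hcon
  have hne : ∀ a : k, v' ≠ a • v := fun a ha => hcon ⟨a, ha⟩
  have hv'0 : v' ≠ 0 := fun h0 => hne 0 (by rw [h0, zero_smul])
  have hc : c = α := by
    rcases eigenvalue_mem h hv'0 hv' with h1 | h1 <;> exact h1
  have hind : Indep v v' := indep_of_not_smul hv hne
  apply hM
  refine ⟨α, hind.eq_of_mulVec_eq ?_ ?_⟩
  · rw [hv1, Matrix.smul_mulVec, Matrix.one_mulVec]
  · rw [hv', hc, Matrix.smul_mulVec, Matrix.one_mulVec]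

end S1

end Fermat.Agent.S56.Flat.Irr
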