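/-
S56 / FLAT / IRR (architect helper78), task IRR-S2 (helper258): consequences of "no stable line".
-/
import Fermat.Agent.S56.Flat.Irr.Defs3
import Fermat.Agent.S56.Flat.Irr.LinAlg
import Fermat.Agent.S56.Flat.Irr.LinAlgEig

set_option autoImplicit false

namespace Fermat.Agent.S56.Flat.Irr

open Fermat.Agent.Lib.InertiaField Polynomial
open Fermat.Agent.S53 (M2)

variable {A : ValuationSubring Qb} {p : ℕ} {ϖ c : Qb}
variable {k : Type} [Field k] {s : GQ →* M2 k} {φ : GQ}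

section S2

private theorem noLine_pow_mulVec (M : M2 k) (v : Fin 2 → k) (a : k) (h : M.mulVec v = a • v)
    (i : ℕ) : (M ^ i).mulVec v = a ^ i • v := by
  induction i with
  | zero => simp
  | succ i ih =>
    rw [pow_succ, ← Matrix.mulVec_mulVec, h, Matrix.mulVec_smul, ih, smul_smul, pow_succ, mul_comm]

theorem IrrHyp.noLine' (h : IrrHyp A p s φ) : ¬ ∃ v : Fin 2 → k, v ≠ 0 ∧
    (∃ a : k, (s φ).mulVec v = a • v) ∧ ∀ τ ∈ Iner A, ∃ a : k, (s τ).mulVec v = a • v := by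
  rintro ⟨v, hv, ⟨a, ha⟩, hτ⟩
  apply h.noLine
  refine ⟨v, hv, fun g hg => ?_⟩
  obtain ⟨i, τ, hτI, hgs⟩ := h.dense g hg
  obtain ⟨b, hb⟩ := hτ τ hτI
  refine ⟨b * a ^ i, ?_⟩
  rw [hgs, ← Matrix.mulVec_mulVec, hb, Matrix.mulVec_smul, noLine_pow_mulVec _ _ _ ha, smul_smul]

theorem IrrHyp.eq_one_of_fix (h : IrrHyp A p s φ) (N : Set GQ)
    (hN : ∀ g ∈ A.decompositionSubgroup ℚ, ∀ n ∈ N, g⁻¹ * n * g ∈ N) {w : Fin 2 → k} (hw : w ≠ 0)
    (hfix : ∀ n ∈ N, (s n).mulVec w = w) : ∀ n ∈ N, s n = 1 := by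
  intro n₀ hn₀
  by_contra hne
  apply h.noLine
  refine ⟨w, hw, fun g hg => ?_⟩
  by_contra hcon
  push Not at hcon
  have hind : Indep w ((s g).mulVec w) := indep_of_not_smul hw hcon
  have hfix' : ∀ n ∈ N, (s n).mulVec ((s g).mulVec w) = (s g).mulVec w := by
    intro n hn
    have h1 : n * g = g * (g⁻¹ * n * g) := by group
    rw [Matrix.mulVec_mulVec, ← map_mul, h1, map_mul, ← Matrix.mulVec_mulVec, hfix _ (hN g hg n hn)]
  apply hne
  apply hind.eq_of_mulVec_eq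
  · rw [hfix n₀ hn₀, Matrix.one_mulVec]
  · rw [hfix' n₀ hn₀, Matrix.one_mulVec]

theorem IrrHyp.exists_not_scalar (h : IrrHyp A p s φ) :
    ∃ σ ∈ Iner A, ¬ ∃ a : k, s σ = a • (1 : M2 k) := by
  by_contra hcon
  push Not at hcon
  obtain ⟨α, β, hαβ⟩ := h.split φ
  obtain ⟨v, hv, hvα⟩ := exists_eigenvector hαβ
  apply h.noLine'
  refine ⟨v, hv, ⟨α, hvα⟩, fun τ hτ => ?_⟩
  obtain ⟨a, ha⟩ := hcon τ hτ
  exact ⟨a, by rw [ha, Matrix.smul_mulVec, Matrix.one_mulVec]⟩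

theorem IrrHyp.no_fixed (h : IrrHyp A p s φ) :
    ¬ ∃ w : Fin 2 → k, w ≠ 0 ∧ ∀ σ ∈ Iner A, (s σ).mulVec w = w := by
  rintro ⟨w, hw, hfix⟩
  obtain ⟨σ, hσ, hns⟩ := h.exists_not_scalar
  apply hns
  have h1 := h.eq_one_of_fix (Iner A : Set GQ) (fun g hg n hn => by
    have h2 := conj_mem_inertia (A := A) (inv_mem hg) hn
    rwa [inv_inv] at h2) hw hfix σ hσ
  exact ⟨1, by rw [h1, one_smul]⟩

end S2

end Fermat.Agent.S56.Flat.Irr
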