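/-
S56 / FLAT / IRR, node IRR-S5: `ybar : W0 → kb A` is additive, injective, `chi`-equivariant.
-/
import Fermat.Agent.S56.Flat.Irr.Defs3
import Fermat.Agent.S56.Flat.Irr.Chi
import Fermat.Agent.S56.Flat.Irr.Res

set_option autoImplicit false

namespace Fermat.Agent.S56.Flat.Irr

open Fermat.Agent.Lib.InertiaField Polynomial
open Fermat.Agent.S53 (M2)

variable {A : ValuationSubring Qb} {p : ℕ} {ϖ c : Qb}
variable {k : Type} [Field k] {s : GQ →* M2 k} {φ : GQ}

/-! ## IRR-S5 (file `Ybar.lean`): `ybar : W0 → kb A` is additive, injective, `chi`-equivariant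
`y w / c ∈ A` for `w ∈ W0`; `(y (w + w') - y w - y w') / c ∈ A.nonunits`;
`y (s σ w) / c = σ (y w / c) * (σ c / c)`. -/
section S5
variable {W0 : AddSubgroup (Fin 2 → k)} {y : (Fin 2 → k) → Qb}

theorem Lead.c_ne_zero (hp : p.Prime) (L : Lead A p s W0 c y) : c ≠ 0 := by
  rintro rfl
  have h := L.val_le
  have hp1 : p - 1 ≠ 0 := by
    have := hp.two_le
    omega
  rw [map_zero, zero_pow hp1, le_zero_iff, map_eq_zero] at h
  exact hp.ne_zero (by exact_mod_cast h)

private theorem Lead.ybar_val_div (hp : p.Prime) (L : Lead A p s W0 c y) {w : Fin 2 → k}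
    (hw : w ∈ W0) (hw0 : w ≠ 0) : A.valuation (y w / c) = 1 := by
  have hc : A.valuation c ≠ 0 := (_root_.map_ne_zero _).2 (L.c_ne_zero hp)
  rw [map_div₀, L.val_eq w hw hw0, div_self hc]

theorem Lead.div_mem (hp : p.Prime) (L : Lead A p s W0 c y) {w : Fin 2 → k} (hw : w ∈ W0) :
    y w / c ∈ A := by
  by_cases hw0 : w = 0
  · rw [hw0, L.zero, zero_div]
    exact A.zero_mem
  · exact (A.valuation_le_one_iff _).1 (L.ybar_val_div hp hw hw0).le

theorem Lead.ybar_zero (L : Lead A p s W0 c y) : ybar A c y 0 = 0 := by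
  rw [ybar, L.zero, zero_div, rs_zero]

theorem Lead.ybar_add (hp : p.Prime) (L : Lead A p s W0 c y) {w w' : Fin 2 → k} (hw : w ∈ W0)
    (hw' : w' ∈ W0) : ybar A c y (w + w') = ybar A c y w + ybar A c y w' := by
  have hc : A.valuation c ≠ 0 := (_root_.map_ne_zero _).2 (L.c_ne_zero hp)
  rw [ybar, ybar, ybar, ← rs_add (L.div_mem hp hw) (L.div_mem hp hw'),
    rs_eq_iff (L.div_mem hp (add_mem hw hw')) (add_mem (L.div_mem hp hw) (L.div_mem hp hw'))]
  have h : y (w + w') / c - (y w / c + y w' / c) = (y (w + w') - y w - y w') / c := by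
    ring
  rw [h, ValuationSubring.mem_nonunits_iff, map_div₀]
  exact (div_lt_one₀ (zero_lt_iff.2 hc)).2 (L.add w hw w' hw')

theorem Lead.ybar_sub (hp : p.Prime) (L : Lead A p s W0 c y) {w w' : Fin 2 → k} (hw : w ∈ W0)
    (hw' : w' ∈ W0) : ybar A c y (w - w') = ybar A c y w - ybar A c y w' := by
  have h := L.ybar_add hp (sub_mem hw hw') hw'
  rw [sub_add_cancel] at h
  rw [h, add_sub_cancel_right]

theorem Lead.ybar_nsmul (hp : p.Prime) (L : Lead A p s W0 c y) (n : ℕ) {w : Fin 2 → k}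
    (hw : w ∈ W0) : ybar A c y (n • w) = (n : kb A) * ybar A c y w := by
  induction n with
  | zero => rw [zero_smul, L.ybar_zero, Nat.cast_zero, zero_mul]
  | succ n ih =>
    rw [succ_nsmul, L.ybar_add hp (nsmul_mem hw n) hw, ih, Nat.cast_succ, add_mul, one_mul]

theorem Lead.ybar_eq_zero_iff (hp : p.Prime) (L : Lead A p s W0 c y) {w : Fin 2 → k}
    (hw : w ∈ W0) : ybar A c y w = 0 ↔ w = 0 := by
  constructor
  · intro h
    by_contra hw0
    rw [ybar, rs_eq_zero_iff (L.div_mem hp hw), ValuationSubring.mem_nonunits_iff,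
      L.ybar_val_div hp hw hw0] at h
    exact lt_irrefl _ h
  · rintro rfl
    exact L.ybar_zero

theorem Lead.ybar_inj (hp : p.Prime) (L : Lead A p s W0 c y) {w w' : Fin 2 → k} (hw : w ∈ W0)
    (hw' : w' ∈ W0) (h : ybar A c y w = ybar A c y w') : w = w' := by
  have h1 : ybar A c y (w - w') = 0 := by
    rw [L.ybar_sub hp hw hw', h, sub_self]
  exact sub_eq_zero.1 ((L.ybar_eq_zero_iff hp (sub_mem hw hw')).1 h1)

theorem Lead.ybar_smul (hp : p.Prime) (L : Lead A p s W0 c y) {σ : GQ} (hσ : σ ∈ Iner A)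
    {w : Fin 2 → k} (hw : w ∈ W0) :
    ybar A c y ((s σ).mulVec w) = chi A c σ * ybar A c y w := by
  have hc0 : c ≠ 0 := L.c_ne_zero hp
  have hc : A.valuation c ≠ 0 := (_root_.map_ne_zero _).2 hc0
  have hσD : σ ∈ A.decompositionSubgroup ℚ := inertia_le_decomposition A hσ
  have hσc : σ c ≠ 0 := (_root_.map_ne_zero σ).2 hc0
  have h1 : σ c / c ∈ A := by
    rw [← A.valuation_le_one_iff, map_div₀, val_apply hσD, div_self hc]
  have h2 : σ (y w / c) ∈ A := apply_mem_of_mem_decomposition A hσD (L.div_mem hp hw)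
  have h3 : y ((s σ).mulVec w) / c = σ c / c * σ (y w / c) := by
    rw [L.equiv σ hσ w hw, map_div₀]
    field_simp
  rw [ybar, h3, rs_mul h1 h2, rs_inertia hσ (L.div_mem hp hw)]
  rfl

end S5

end Fermat.Agent.S56.Flat.Irr
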