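/-
S56 / FLAT / IRR (architect helper78), task IRR-S6: `Lead` ⇒ `ChiHyp`.
-/
import Fermat.Agent.S56.Flat.Irr.Defs3
import Fermat.Agent.S56.Flat.Irr.Ybar
import Fermat.Agent.S56.Flat.Irr.NoLine
import Fermat.Agent.S56.Flat.Irr.Chi

set_option autoImplicit false

namespace Fermat.Agent.S56.Flat.Irr

open Fermat.Agent.Lib.InertiaField Polynomial
open Fermat.Agent.S53 (M2)

variable {A : ValuationSubring Qb} {p : ℕ} {ϖ c : Qb}
variable {k : Type} [Field k] {s : GQ →* M2 k} {φ : GQ}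

/-! ## IRR-S6 (file `ChiHypOf.lean`): `Lead` ⇒ `ChiHyp`
`s_eq`: `N = {σ ∈ Iner A | chi A c σ = 1}` is normalised by the decomposition group
(`chi_conj_eq_one`, `conj_mem_inertia`) and fixes `W0` pointwise (`ybar_smul`, `ybar_inj`), so
`s = 1` on `N` (`IrrHyp.eq_one_of_fix`); apply this to `τ⁻¹ * σ` (`chi_mul`, `chi_inv`).
`quad`: apply both sides of the matrix identity to `w ∈ W0`, `w ≠ 0`
(`(n : M2 k).mulVec w = n • w`), then `ybar` (`ybar_add`, `ybar_nsmul`, `ybar_smul`), cancel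
`ybar w ≠ 0`.  `fix`: `x = y w`. -/
section S6

private theorem ChiHypOf.natCast_mulVec (n : ℕ) (w : Fin 2 → k) :
    (n : M2 k).mulVec w = n • w := by
  rw [Matrix.natCast_mulVec, Nat.cast_smul_eq_nsmul]

theorem chiHyp_of_lead (h : IrrHyp A p s φ) {W0 : AddSubgroup (Fin 2 → k)}
    {y : (Fin 2 → k) → Qb} (L : Lead A p s W0 c y) : ChiHyp A p s c := by
  have hp := h.prime
  have hc : c ≠ 0 := L.c_ne_zero hp
  obtain ⟨w, hw, hw0⟩ := L.ne_bot
  have hyw : ybar A c y w ≠ 0 := fun h0 => hw0 ((L.ybar_eq_zero_iff hp hw).1 h0)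
  refine ⟨L.val_lt, L.val_le, ?_, ?_, ?_⟩
  · intro σ hσ τ hτ hχ
    have key := h.eq_one_of_fix {n | n ∈ Iner A ∧ chi A c n = 1}
      (fun g hg n hn => ⟨by
          have := conj_mem_inertia A (inv_mem hg) hn.1
          rwa [inv_inv] at this, chi_conj_eq_one hc hg hn.1 hn.2⟩) hw0
      (fun n hn => L.ybar_inj hp (L.stable n hn.1 w hw) hw (by
          rw [L.ybar_smul hp hn.1 hw, hn.2, one_mul]))
    have h1 : s (τ⁻¹ * σ) = 1 := by
      refine key _ ⟨mul_mem (inv_mem hτ) hσ, ?_⟩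
      rw [chi_mul hc (inv_mem hτ) hσ, chi_inv hc hτ, hχ, inv_mul_cancel₀ (chi_ne_zero hc hτ)]
    calc s σ = s (τ * (τ⁻¹ * σ)) := by rw [mul_inv_cancel_left]
      _ = s τ := by rw [map_mul, h1, mul_one]
  · intro σ hσ n₁ n₀ hq
    have hsw : (s σ).mulVec w ∈ W0 := L.stable σ hσ w hw
    have hssw : (s σ).mulVec ((s σ).mulVec w) ∈ W0 := L.stable σ hσ _ hsw
    have h1 : (s σ).mulVec ((s σ).mulVec w) + n₀ • w = n₁ • (s σ).mulVec w := by
      have := congrArg (fun M : M2 k => M.mulVec w) hq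
      simp only [Matrix.add_mulVec, ← Matrix.mulVec_mulVec, ChiHypOf.natCast_mulVec] at this
      exact this
    have h2 := congrArg (ybar A c y) h1
    rw [L.ybar_add hp hssw (W0.nsmul_mem hw n₀), L.ybar_nsmul hp n₀ hw, L.ybar_nsmul hp n₁ hsw,
      L.ybar_smul hp hσ hsw, L.ybar_smul hp hσ hw] at h2
    apply mul_right_cancel₀ hyw
    linear_combination h2
  · refine ⟨y w, L.val_eq w hw hw0, fun σ hσ h1 => ?_⟩
    rw [← L.equiv σ hσ w hw, h1, Matrix.one_mulVec]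

end S6

end Fermat.Agent.S56.Flat.Irr
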