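/-
S56 / FLAT / IRR (architect helper78), task IRR-C1: formal properties of matrix cocycles `IsMCoc`.
Pure group/matrix algebra: `s (f x) * s (f x)⁻¹ = 1` by `← map_mul`.
-/
import Fermat.Agent.S56.Flat.Irr.Defs2

set_option autoImplicit false

namespace Fermat.Agent.S56.Flat.Irr

open Fermat.Agent.Lib.InertiaField
open Fermat.Agent.S53 (M2)

variable {A : ValuationSubring Qb} {p : ℕ} {ϖ : Qb}
variable {k : Type} [Field k] {H : Type} [Group H] {f : H →* GQ} {s : GQ →* M2 k}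

theorem MCoc_mul_inv (s : GQ →* M2 k) (g : GQ) : s g * s g⁻¹ = 1 := by
  rw [← map_mul, mul_inv_cancel, map_one]

theorem MCoc_inv_mul (s : GQ →* M2 k) (g : GQ) : s g⁻¹ * s g = 1 := by
  rw [← map_mul, inv_mul_cancel, map_one]

theorem MCoc_inv_eq_one (s : GQ →* M2 k) {g : GQ} (hg : s g = 1) : s g⁻¹ = 1 := by
  have := MCoc_mul_inv s g
  rwa [hg, one_mul] at this

theorem MCoc_trace_conj (P Q m : M2 k) (hQP : Q * P = 1) : (P * m * Q).trace = m.trace := by
  rw [Matrix.trace_mul_comm, ← mul_assoc, hQP, one_mul]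

/-- the coboundary of `m` -/
theorem MCoc_cob (f : H →* GQ) (s : GQ →* M2 k) (hfin : ∃ N ∈ Fermat.Agent.S55.lvlAll.carrier,
    ∀ g ∈ N, s g = 1) (m : M2 k) :
    IsMCoc f s (fun x => s (f x) * m * s (f x)⁻¹ - m) where
  map_mul x y := by
    show s (f (x * y)) * m * s (f (x * y))⁻¹ - m = s (f x) * m * s (f x)⁻¹ - m +
      s (f x) * (s (f y) * m * s (f y)⁻¹ - m) * s (f x)⁻¹
    rw [map_mul, mul_inv_rev, map_mul, map_mul]
    noncomm_ring
  trace x := by
    show (s (f x) * m * s (f x)⁻¹ - m).trace = 0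
    rw [Matrix.trace_sub, MCoc_trace_conj _ _ _ (MCoc_inv_mul s _), sub_self]
  level := by
    obtain ⟨N, hN, h⟩ := hfin
    refine ⟨N, hN, fun n hn => ?_⟩
    show s (f n) * m * s (f n)⁻¹ - m = 0
    rw [h _ hn, MCoc_inv_eq_one s (h _ hn), one_mul, mul_one, sub_self]

/-! ## IRR-C1 (file `MCoc.lean`): formal properties of matrix cocycles -/
section C1
variable {u u' : H → M2 k}
theorem IsMCoc.map_one (hu : IsMCoc f s u) : u 1 = 0 := by
  have h := hu.map_mul 1 1
  rw [mul_one, _root_.map_one, inv_one, _root_.map_one, one_mul, mul_one] at h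
  exact left_eq_add.mp h
theorem IsMCoc.map_inv (hu : IsMCoc f s u) (x : H) :
    u x⁻¹ = - (s (f x)⁻¹ * u x * s (f x)) := by
  have h := hu.map_mul x⁻¹ x
  rw [inv_mul_cancel, hu.map_one, _root_.map_inv, inv_inv] at h
  exact eq_neg_of_add_eq_zero_left h.symm
theorem IsMCoc.sub (hu : IsMCoc f s u) (hu' : IsMCoc f s u') :
    IsMCoc f s (fun x => u x - u' x) where
  map_mul x y := by
    show u (x * y) - u' (x * y) = u x - u' x + s (f x) * (u y - u' y) * s (f x)⁻¹
    rw [hu.map_mul, hu'.map_mul]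
    noncomm_ring
  trace x := by
    show (u x - u' x).trace = 0
    rw [Matrix.trace_sub, hu.trace, hu'.trace, sub_self]
  level := by
    obtain ⟨N, hN, h⟩ := hu.level
    obtain ⟨N', hN', h'⟩ := hu'.level
    obtain ⟨N'', hN'', hle⟩ := Fermat.Agent.S55.lvlAll.directed N hN N' hN'
    refine ⟨N'', hN'', fun n hn => ?_⟩
    show u n - u' n = 0
    rw [h n (hle hn).1, h' n (hle hn).2, sub_self]
/-- subtracting a coboundary -/
theorem IsMCoc.sub_cob (hu : IsMCoc f s u) (hfin : ∃ N ∈ Fermat.Agent.S55.lvlAll.carrier,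
    ∀ g ∈ N, s g = 1) (m : M2 k) :
    IsMCoc f s (fun x => u x - (s (f x) * m * s (f x)⁻¹ - m)) :=
  hu.sub (MCoc_cob f s hfin m)
theorem IsMCoc.map_mul_of_eq_one (hu : IsMCoc f s u) {x : H} (hx : s (f x) = 1) (y : H) :
    u (x * y) = u x + u y := by
  rw [hu.map_mul, hx, MCoc_inv_eq_one s hx, one_mul, mul_one]
theorem IsMCoc.map_conj (hu : IsMCoc f s u) (g : H) {x : H} (hx : s (f x) = 1) :
    u (g * x * g⁻¹) = s (f g) * u x * s (f g)⁻¹ := by
  rw [hu.map_mul, hu.map_mul, hu.map_inv, _root_.map_mul, mul_inv_rev, _root_.map_mul,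
    _root_.map_mul, hx, MCoc_inv_eq_one s hx, mul_one, one_mul]
  have h1 : s (f g) * -(s (f g)⁻¹ * u g * s (f g)) * s (f g)⁻¹ =
      -((s (f g) * s (f g)⁻¹) * u g * (s (f g) * s (f g)⁻¹)) := by noncomm_ring
  rw [h1, MCoc_mul_inv, one_mul, mul_one]
  abel
theorem IsMCoc.mul_eq_zero (hu : IsMCoc f s u) {x y : H} (hx : u x = 0) (hy : u y = 0) :
    u (x * y) = 0 := by
  rw [hu.map_mul, hx, hy, mul_zero, zero_mul, add_zero]
theorem IsMCoc.inv_eq_zero (hu : IsMCoc f s u) {x : H} (hx : u x = 0) : u x⁻¹ = 0 := by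
  rw [hu.map_inv, hx, mul_zero, zero_mul, neg_zero]
theorem IsMCoc.pow_eq_zero (hu : IsMCoc f s u) {x : H} (hx : u x = 0) (n : ℕ) :
    u (x ^ n) = 0 := by
  induction n with
  | zero => rw [pow_zero, hu.map_one]
  | succ n ih => rw [pow_succ]; exact hu.mul_eq_zero ih hx
/-- `u` only depends on the image in `GQ` -/
theorem IsMCoc.eq_of_map_eq (hu : IsMCoc f s u) {x y : H} (hxy : f x = f y) : u x = u y := by
  obtain ⟨N, -, h⟩ := hu.level
  have h1 : u (y⁻¹ * x) = 0 := by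
    apply h
    rw [_root_.map_mul, _root_.map_inv, hxy, inv_mul_cancel]
    exact N.one_mem
  have h2 := hu.map_mul y (y⁻¹ * x)
  rw [mul_inv_cancel_left, h1, mul_zero, zero_mul, add_zero] at h2
  exact h2
theorem IsMCoc.entry11 (hu : IsMCoc f s u) (x : H) : u x 1 1 = - u x 0 0 := by
  have h := hu.trace x
  rw [Matrix.trace_fin_two] at h
  exact eq_neg_of_add_eq_zero_right h
theorem IsMCoc.conj (hu : IsMCoc f s u) (P Q : M2 k) (hPQ : P * Q = 1) (hQP : Q * P = 1) :
    IsMCoc f (conjRep s P Q hPQ hQP) (fun x => P * u x * Q) where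
  map_mul x y := by
    show P * u (x * y) * Q = P * u x * Q +
      (P * s (f x) * Q) * (P * u y * Q) * (P * s (f x)⁻¹ * Q)
    have h1 : (P * s (f x) * Q) * (P * u y * Q) * (P * s (f x)⁻¹ * Q) =
        P * s (f x) * (Q * P) * u y * (Q * P) * s (f x)⁻¹ * Q := by noncomm_ring
    rw [h1, hQP, hu.map_mul]
    noncomm_ring
  trace x := by
    show (P * u x * Q).trace = 0
    rw [MCoc_trace_conj _ _ _ hQP, hu.trace]
  level := by
    obtain ⟨N, hN, h⟩ := hu.level
    refine ⟨N, hN, fun n hn => ?_⟩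
    show P * u n * Q = 0
    rw [h n hn, mul_zero, zero_mul]
/-- telescoping: `m = ∑_{i < n} u (x ^ i)` satisfies `s m s⁻¹ = m + u (x ^ n) - n u(x)` -/
theorem IsMCoc.conj_sum_pow (hu : IsMCoc f s u) (x : H) (n : ℕ) :
    s (f x) * (∑ i ∈ Finset.range n, u (x ^ i)) * s (f x)⁻¹ =
      (∑ i ∈ Finset.range n, u (x ^ i)) + u (x ^ n) - n • u x := by
  induction n with
  | zero => simp [hu.map_one]
  | succ n ih =>
    have h1 : s (f x) * u (x ^ n) * s (f x)⁻¹ = u (x ^ (n + 1)) - u x := by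
      rw [pow_succ', hu.map_mul, add_sub_cancel_left]
    rw [Finset.sum_range_succ, mul_add, add_mul, ih, h1, succ_nsmul]
    abel
end C1

end Fermat.Agent.S56.Flat.Irr
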