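/-
S56 / FLAT / IRR (architect helper78), task IRR-T3 (owner helper281):
`K0(ϖ)/K0` has degree `p ^ 2 - 1`: the inertia group acts transitively on the roots of `X ^ e - p`.

Proof: the image `S` of the tame character `σ ↦ σ ϖ / ϖ` is a subgroup of `μ_e`; with `d = |S|` the
element `ϖ ^ d` is fixed by inertia, so its valuation is an integral power of that of `p`, which
forces `e ∣ d`, hence `S = μ_e`.
-/
import Fermat.Agent.S56.Flat.Irr.Defs
import Fermat.Agent.S56.Flat.Irr.Tame2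

set_option autoImplicit false

namespace Fermat.Agent.S56.Flat.Irr

open Fermat.Agent.Lib.InertiaField

variable {A : ValuationSubring Qb} {p : ℕ} {ϖ : Qb}

section T3

theorem tameSurj_e_pos (h : Unif A p ϖ) : 0 < p ^ 2 - 1 := by
  have h3 := h.three_le
  have h9 : 9 ≤ p ^ 2 := by nlinarith
  omega

/-- if `ϖ ^ d` is fixed by inertia (`d > 0`) then `p ^ 2 - 1 ≤ d`. -/
theorem tameSurj_le_of_fixed (h : Unif A p ϖ) {d : ℕ} (hd : 0 < d)
    (hfix : ∀ σ ∈ Iner A, σ (ϖ ^ d) = ϖ ^ d) : p ^ 2 - 1 ≤ d := by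
  have hK : ϖ ^ d ∈ K0 A := (mem_K0_iff A _).2 hfix
  obtain ⟨k, u, -, hu, hu', hk⟩ :=
    exists_zpow_mul_unit A p h.prime h.lies hK (pow_ne_zero d h.ne_zero)
  have hp0 : (p : Qb) ≠ 0 := by exact_mod_cast h.prime.ne_zero
  have hu0 : u ≠ 0 := by
    rintro rfl
    rw [mul_zero] at hk
    exact pow_ne_zero d h.ne_zero hk
  have hu1 : A.valuation u = 1 := by
    have h1 : A.valuation u ≤ 1 := (A.valuation_le_one_iff _).2 hu
    have h2 : A.valuation u⁻¹ ≤ 1 := (A.valuation_le_one_iff _).2 hu'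
    rw [map_inv₀] at h2
    have h0 : A.valuation u ≠ 0 := (map_ne_zero _).2 hu0
    exact le_antisymm h1 ((inv_le_one₀ (zero_lt_iff.2 h0)).1 h2)
  have hv : A.valuation ϖ ^ d = A.valuation (p : Qb) ^ k := by
    have := congrArg A.valuation hk
    rwa [map_pow, map_mul, map_zpow₀, hu1, mul_one] at this
  have hvp0 : A.valuation (p : Qb) ≠ 0 := (map_ne_zero _).2 hp0
  have hvp1 : A.valuation (p : Qb) < 1 := h.lies
  have hkey : A.valuation (p : Qb) ^ ((d : ℕ) : ℤ) =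
      A.valuation (p : Qb) ^ (k * ((p ^ 2 - 1 : ℕ) : ℤ)) := by
    rw [zpow_natCast, zpow_mul, ← hv, zpow_natCast, ← h.val_pow, ← pow_mul, ← pow_mul, mul_comm]
  have hinj := zpow_right_injective₀ (zero_lt_iff.2 hvp0) hvp1.ne hkey
  have hepos := tameSurj_e_pos h
  have hkpos : 0 < k := by
    by_contra hk0
    have hk0' : k ≤ 0 := not_lt.1 hk0
    have h1 : k * ((p ^ 2 - 1 : ℕ) : ℤ) ≤ 0 :=
      mul_nonpos_of_nonpos_of_nonneg hk0' (Int.natCast_nonneg _)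
    have h2 : (0 : ℤ) < (d : ℤ) := by exact_mod_cast hd
    omega
  have h3 : ((p ^ 2 - 1 : ℕ) : ℤ) ≤ k * ((p ^ 2 - 1 : ℕ) : ℤ) :=
    le_mul_of_one_le_left (Int.natCast_nonneg _) hkpos
  have h4 : ((p ^ 2 - 1 : ℕ) : ℤ) ≤ (d : ℤ) := by rw [hinj]; exact h3
  exact_mod_cast h4

theorem Unif.exists_inertia_apply_eq (h : Unif A p ϖ) {ξ : Qb} (hξ : ξ ^ (p ^ 2 - 1) = 1) :
    ∃ σ ∈ Iner A, σ ϖ = ξ * ϖ := by
  have : NeZero (p ^ 2 - 1) := ⟨(tameSurj_e_pos h).ne'⟩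
  let φ : ↥(Iner A) →* ↥(rootsOfUnity (p ^ 2 - 1) Qb) :=
    MonoidHom.mk' (fun σ => rootsOfUnity.mkOfPowEq (xi ϖ σ.1) (h.xi_pow σ.1)) (by
      intro σ τ
      apply Subtype.ext
      apply Units.ext
      simp only [Subgroup.coe_mul, Units.val_mul, rootsOfUnity.coe_mkOfPowEq]
      exact h.xi_mul_of_inertia σ.2 τ.1)
  have hφ : ∀ σ : ↥(Iner A), (((φ σ : ↥(rootsOfUnity (p ^ 2 - 1) Qb)) : Qbˣ) : Qb) = xi ϖ σ.1 :=
    fun σ => rootsOfUnity.coe_mkOfPowEq (h.xi_pow σ.1)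
  have hdpos : 0 < Nat.card φ.range := Nat.card_pos
  have hfix : ∀ σ ∈ Iner A, σ (ϖ ^ Nat.card φ.range) = ϖ ^ Nat.card φ.range := by
    intro σ hσ
    have h1 : (⟨φ ⟨σ, hσ⟩, MonoidHom.mem_range.2 ⟨_, rfl⟩⟩ : φ.range) ^ Nat.card φ.range = 1 :=
      pow_card_eq_one'
    have h2 : (xi ϖ σ) ^ Nat.card φ.range = 1 := by
      have h3 := congrArg (fun z : φ.range =>
        (((z : ↥(rootsOfUnity (p ^ 2 - 1) Qb)) : Qbˣ) : Qb)) h1
      simp only [SubmonoidClass.coe_pow, Units.val_pow_eq_pow_val, OneMemClass.coe_one,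
        Units.val_one] at h3
      rw [hφ] at h3
      exact h3
    rw [map_pow, h.apply_eq σ, mul_pow, h2, one_mul]
  have hle := tameSurj_le_of_fixed h hdpos hfix
  have htop : φ.range = ⊤ :=
    Subgroup.eq_top_of_le_card _ (le_trans (card_rootsOfUnity Qb (p ^ 2 - 1)) hle)
  have hmem : rootsOfUnity.mkOfPowEq ξ hξ ∈ φ.range := by
    rw [htop]
    exact Subgroup.mem_top _
  obtain ⟨σ, hσ⟩ := MonoidHom.mem_range.1 hmem
  refine ⟨σ.1, σ.2, ?_⟩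
  have h5 : xi ϖ σ.1 = ξ := by
    rw [← hφ σ, hσ]
    exact rootsOfUnity.coe_mkOfPowEq hξ
  rw [h.apply_eq σ.1, h5]

/-- an element of inertia whose `xi` has exact order `p ^ 2 - 1`, also modulo the maximal ideal -/
theorem Unif.exists_inertia_generator (h : Unif A p ϖ) :
    ∃ σ ∈ Iner A, orderOf (rs A (xi ϖ σ)) = p ^ 2 - 1 := by
  have hepos := tameSurj_e_pos h
  have : NeZero (p ^ 2 - 1) := ⟨hepos.ne'⟩
  have : NeZero ((p ^ 2 - 1 : ℕ) : Qb) := ⟨Nat.cast_ne_zero.2 hepos.ne'⟩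
  obtain ⟨ζ, hζ⟩ := HasEnoughRootsOfUnity.exists_primitiveRoot Qb (p ^ 2 - 1)
  obtain ⟨σ, hσ, hσϖ⟩ := h.exists_inertia_apply_eq hζ.pow_eq_one
  refine ⟨σ, hσ, ?_⟩
  have hxi : xi ϖ σ = ζ := by
    rw [xi, hσϖ, mul_div_assoc, div_self h.ne_zero, mul_one]
  have hζA : ζ ∈ A := hxi ▸ h.xi_mem σ
  rw [hxi, orderOf_eq_iff hepos]
  refine ⟨?_, ?_⟩
  · rw [← rs_pow hζA, hζ.pow_eq_one, rs_one]
  · intro m hm hm0 hcon
    rw [← rs_pow hζA, ← rs_one (A := A)] at hcon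
    have h1 : ζ ^ m = 1 := by
      refine h.eq_of_rs_eq ?_ (one_pow _) hcon
      rw [← pow_mul, mul_comm, pow_mul, hζ.pow_eq_one, one_pow]
    exact hζ.pow_ne_one_of_pos_of_lt hm0.ne' hm h1

end T3

end Fermat.Agent.S56.Flat.Irr
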