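/-
S56 / FLAT / IRR (architect helper78), task IRR-C7: tame inertia of level 2 is cyclic.
-/
import Fermat.Agent.S56.Flat.Irr.Defs2
import Fermat.Agent.S56.Flat.Irr.TameSurj

set_option autoImplicit false

namespace Fermat.Agent.S56.Flat.Irr

open Fermat.Agent.Lib.InertiaField
open Fermat.Agent.S53 (M2)

variable {A : ValuationSubring Qb} {p : ℕ} {ϖ : Qb}
variable {k : Type} [Field k] {H : Type} [Group H] {f : H →* GQ} {s : GQ →* M2 k}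

/-! ## IRR-C7 (file `TameGen.lean`): tame inertia of level 2 is cyclic
`r = rs (xi τ₀)` has order `e = p² - 1` in the field `kb A`, so the `e` powers of `r` are all the
roots of `X ^ e - 1`; `rs (xi σ) = r ^ n = rs (xi τ₀ ^ n)`, so `xi σ = xi τ₀ ^ n`
(`Unif.eq_of_rs_eq`) `= xi (τ₀ ^ n)` (`Unif.xi_mul_of_inertia`, induction), and
`σ' = (τ₀ ^ n)⁻¹ * σ` fixes `ϖ`. -/
section C7
theorem Unif.xi_pow_of_inertia (h : Unif A p ϖ) {τ : GQ} (hτ : τ ∈ Iner A) (n : ℕ) :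
    xi ϖ (τ ^ n) = xi ϖ τ ^ n := by
  induction n with
  | zero =>
    rw [pow_zero, pow_zero]
    exact (h.xi_eq_one_iff 1).2 rfl
  | succ n ih =>
    rw [pow_succ', h.xi_mul_of_inertia hτ, ih, pow_succ']

theorem Unif.exists_eq_pow_mul (h : Unif A p ϖ) {τ₀ : GQ} (hτ₀ : τ₀ ∈ Iner A)
    (hord : orderOf (rs A (xi ϖ τ₀)) = p ^ 2 - 1) {σ : GQ} (hσ : σ ∈ Iner A) :
    ∃ (n : ℕ) (σ' : GQ), σ' ∈ Iner A ∧ σ' ϖ = ϖ ∧ σ = τ₀ ^ n * σ' := by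
  have he : 0 < p ^ 2 - 1 := by
    have h3 := h.three_le
    have : 9 ≤ p ^ 2 := by nlinarith
    omega
  have hprim : IsPrimitiveRoot (rs A (xi ϖ τ₀)) (p ^ 2 - 1) := by
    rw [← hord]
    exact IsPrimitiveRoot.orderOf _
  have h1 : rs A (xi ϖ σ) ^ (p ^ 2 - 1) = 1 := by
    rw [← rs_pow (h.xi_mem σ), h.xi_pow, rs_one]
  have : NeZero (p ^ 2 - 1) := ⟨he.ne'⟩
  obtain ⟨n, -, hn⟩ := hprim.eq_pow_of_pow_eq_one h1
  have h2 : xi ϖ σ = xi ϖ τ₀ ^ n := by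
    refine h.eq_of_rs_eq (h.xi_pow σ) ?_ ?_
    · rw [← pow_mul, mul_comm, pow_mul, h.xi_pow, one_pow]
    · rw [rs_pow (h.xi_mem τ₀), hn]
  rw [← h.xi_pow_of_inertia hτ₀] at h2
  refine ⟨n, (τ₀ ^ n)⁻¹ * σ, mul_mem (inv_mem (pow_mem hτ₀ n)) hσ, ?_, ?_⟩
  · rw [AlgEquiv.mul_apply, h.apply_eq σ, h2, ← h.apply_eq (τ₀ ^ n)]
    exact (τ₀ ^ n).symm_apply_apply ϖ
  · rw [mul_inv_cancel_left]

theorem Unif.pow_fix (h : Unif A p ϖ) {τ : GQ} (hτ : τ ∈ Iner A) :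
    (τ ^ (p ^ 2 - 1)) ϖ = ϖ := by
  rw [← h.xi_eq_one_iff, h.xi_pow_of_inertia hτ, h.xi_pow]
end C7

end Fermat.Agent.S56.Flat.Irr
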