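/-
S56 / FLAT / IRR (architect helper78), task IRR-C8 (proof helper70): a matrix cocycle vanishing on
`I'` is a coboundary on inertia (telescoping sum over the powers of a generator).
-/
import Fermat.Agent.S56.Flat.Irr.Defs2
import Fermat.Agent.S56.Flat.Irr.MCoc
import Fermat.Agent.S56.Flat.Irr.TameGen

set_option autoImplicit false

namespace Fermat.Agent.S56.Flat.Irr

open Fermat.Agent.Lib.InertiaField
open Fermat.Agent.S53 (M2)

variable {A : ValuationSubring Qb} {p : ℕ} {ϖ : Qb}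
variable {k : Type} [Field k] {H : Type} [Group H] {f : H →* GQ} {s : GQ →* M2 k}

/-! ## IRR-C8 (file `Cob.lean`): a cocycle vanishing on `I'` is a coboundary on inertia
`τ₀` from `Unif.exists_inertia_generator`, `t ∈ H` with `f t = τ₀`, `e = p² - 1`,
`m = ∑_{i < e} w (t ^ i)` (trace zero).  `IsMCoc.conj_sum_pow`: `s m s⁻¹ = m + w (t ^ e) - e • w t`;
`w (t ^ e) = 0` (`Unif.pow_fix`) and `e = -1` in `k`: `w t = s m s⁻¹ - m`. -/
section C8
variable [CharP k p] {w : H → M2 k}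
theorem exists_cob (h : Unif A p ϖ) (hf : IsLocMap A f)
    (hs : ∀ σ ∈ Iner A, σ ϖ = ϖ → s σ = 1) (hw : IsMCoc f s w)
    (h0 : ∀ x, f x ∈ Iner A → f x ϖ = ϖ → w x = 0) :
    ∃ m : M2 k, m.trace = 0 ∧ ∀ x, f x ∈ Iner A → w x = s (f x) * m * s (f x)⁻¹ - m := by
  obtain ⟨τ₀, hτ₀, hord⟩ := h.exists_inertia_generator
  obtain ⟨t, ht⟩ := hf.surj τ₀ (inertia_le_decomposition A hτ₀)
  obtain ⟨m, hm⟩ : ∃ m : M2 k, m = ∑ i ∈ Finset.range (p ^ 2 - 1), w (t ^ i) := ⟨_, rfl⟩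
  have htr : m.trace = 0 := by
    rw [hm, Matrix.trace_sum]
    exact Finset.sum_eq_zero fun i _ => hw.trace _
  have hcast : ((p ^ 2 - 1 : ℕ) : k) = -1 := by
    have h1 : 1 ≤ p ^ 2 := Nat.one_le_pow _ _ h.prime.pos
    rw [Nat.cast_sub h1, Nat.cast_pow, CharP.cast_eq_zero k p, Nat.cast_one,
      zero_pow two_ne_zero, zero_sub]
  have hwt : w t = s (f t) * m * s (f t)⁻¹ - m := by
    have h1 := hw.conj_sum_pow t (p ^ 2 - 1)
    have h2 : w (t ^ (p ^ 2 - 1)) = 0 := by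
      apply h0
      · rw [map_pow, ht]
        exact pow_mem hτ₀ _
      · rw [map_pow, ht]
        exact h.pow_fix hτ₀
    rw [← hm, h2, add_zero, ← Nat.cast_smul_eq_nsmul k, hcast, neg_smul, one_smul,
      sub_neg_eq_add] at h1
    rw [h1, add_sub_cancel_left]
  have hpow : ∀ n : ℕ, w (t ^ n) = s (f (t ^ n)) * m * s (f (t ^ n))⁻¹ - m := by
    intro n
    induction n with
    | zero => rw [pow_zero, hw.map_one, map_one, inv_one, map_one, one_mul, mul_one, sub_self]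
    | succ n ih =>
      rw [pow_succ', hw.map_mul, ih, hwt, map_mul, mul_inv_rev, map_mul, map_mul]
      noncomm_ring
  refine ⟨m, htr, fun x hx => ?_⟩
  obtain ⟨n, σ', hσ', hfix, hxe⟩ := h.exists_eq_pow_mul hτ₀ hord hx
  have hfx' : f ((t ^ n)⁻¹ * x) = σ' := by
    rw [map_mul, map_inv, map_pow, ht, hxe, inv_mul_cancel_left]
  have hw' : w ((t ^ n)⁻¹ * x) = 0 :=
    h0 _ (by rw [hfx']; exact hσ') (by rw [hfx']; exact hfix)
  have hx2 : x = t ^ n * ((t ^ n)⁻¹ * x) := by rw [mul_inv_cancel_left]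
  have hs1 : s σ' = 1 := hs σ' hσ' hfix
  have hs2 : s σ'⁻¹ = 1 := by
    have h3 : s σ'⁻¹ * s σ' = 1 := by rw [← map_mul, inv_mul_cancel, map_one]
    rwa [hs1, mul_one] at h3
  have e1 : w x = w (t ^ n) := by
    conv_lhs => rw [hx2]
    rw [hw.map_mul, hw', mul_zero, zero_mul, add_zero]
  rw [e1, hpow n, hxe, map_pow, ht, mul_inv_rev, map_mul, map_mul, hs1, hs2, mul_one, one_mul]
end C8

end Fermat.Agent.S56.Flat.Irr
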