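/-
S56 / FLAT / IRR, node IRR-C0: the additive character `chr p ζ : k → μ_p`.   Owner: helper206.
-/
import Fermat.Agent.S56.Flat.Irr.Defs2

set_option autoImplicit false

namespace Fermat.Agent.S56.Flat.Irr

open Fermat.Agent.Lib.InertiaField
open Fermat.Agent.S53 (M2)

variable {A : ValuationSubring Qb} {p : ℕ} {ϖ : Qb}
variable {k : Type} [Field k] {H : Type} [Group H] {f : H →* GQ} {s : GQ →* M2 k}

/-! ## IRR-C0 (file `Chr.lean`): the additive character `chr p ζ : k → μ_p` -/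
section C0
variable [CharP k p] {ζ : Qb}

theorem chr_zero : chr p ζ (0 : k) = 1 := by
  unfold chr
  rw [map_zero, ZMod.val_zero, pow_zero]

theorem chr_add (hp : p.Prime) (hζ : ζ ^ p = 1) (y y' : k) :
    chr p ζ (y + y') = chr p ζ y * chr p ζ y' := by
  have : NeZero p := ⟨hp.ne_zero⟩
  unfold chr
  rw [map_add, ZMod.val_add, ← pow_eq_pow_mod _ hζ, pow_add]

theorem chr_pow (hζ : ζ ^ p = 1) (y : k) : chr p ζ y ^ p = 1 := by
  unfold chr
  rw [← pow_mul, mul_comm, pow_mul, hζ, one_pow]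

theorem chr_ne_zero (hp : p.Prime) (hζ : ζ ^ p = 1) (y : k) : chr p ζ y ≠ 0 := by
  refine pow_ne_zero _ fun h => ?_
  rw [h, zero_pow hp.ne_zero] at hζ
  exact zero_ne_one hζ

theorem chr_neg (hp : p.Prime) (hζ : ζ ^ p = 1) (y : k) : chr p ζ (-y) = (chr p ζ y)⁻¹ := by
  apply eq_inv_of_mul_eq_one_left
  rw [← chr_add hp hζ, neg_add_cancel, chr_zero]

theorem chr_sub (hp : p.Prime) (hζ : ζ ^ p = 1) (y y' : k) :
    chr p ζ (y - y') = chr p ζ y / chr p ζ y' := by
  rw [sub_eq_add_neg, chr_add hp hζ, chr_neg hp hζ, div_eq_mul_inv]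

theorem chr_natCast_mul (hp : p.Prime) (hζ : ζ ^ p = 1) (n : ℕ) (y : k) :
    chr p ζ ((n : k) * y) = chr p ζ y ^ n := by
  induction n with
  | zero => rw [Nat.cast_zero, zero_mul, chr_zero, pow_zero]
  | succ n ih => rw [Nat.cast_succ, add_mul, one_mul, chr_add hp hζ, ih, pow_succ]

theorem chr_pow_left (n : ℕ) (y : k) : chr p (ζ ^ n) y = chr p ζ y ^ n := by
  unfold chr
  rw [← pow_mul, ← pow_mul, mul_comm]

theorem apply_chr (g : GQ) (y : k) : g (chr p ζ y) = chr p (g ζ) y := by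
  unfold chr
  rw [map_pow]

theorem eq_zero_of_chr_eq_one [Finite k] (hp : p.Prime) (hζ : ζ ^ p = 1) (hζ1 : ζ ≠ 1) {y : k}
    (h : ∀ z : k, chr p ζ (z * y) = 1) : y = 0 := by
  have : Fact p.Prime := ⟨hp⟩
  have hord : orderOf ζ = p := orderOf_eq_prime hζ hζ1
  have htr0 : ∀ z : k, trp p k (z * y) = 0 := by
    intro z
    have h1 := h z
    unfold chr at h1
    rw [← orderOf_dvd_iff_pow_eq_one, hord] at h1
    exact (ZMod.val_eq_zero _).1 (Nat.eq_zero_of_dvd_of_lt h1 (ZMod.val_lt _))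
  letI := ZMod.algebra k p
  have htr := (traceForm_nondegenerate (ZMod p) k).1 y
  simp_rw [Algebra.traceForm_apply] at htr
  refine htr fun b => ?_
  rw [mul_comm]
  exact htr0 b

end C0

end Fermat.Agent.S56.Flat.Irr
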