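/-
S56 / FLAT / IRR (architect helper78), task IRR-T2 (helper234): `K0(ϖ)` is a field, stable under the
decomposition group.
-/
import Fermat.Agent.S56.Flat.Irr.Defs
import Fermat.Agent.S56.Flat.Irr.Tame1

set_option autoImplicit false

namespace Fermat.Agent.S56.Flat.Irr

open Fermat.Agent.Lib.InertiaField

variable {A : ValuationSubring Qb} {p : ℕ} {ϖ : Qb}

/-! ## IRR-T2 (file `Tame2.lean`): `K0(ϖ)` is a field, stable under the decomposition group -/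
section T2

theorem InK.zero : InK A ϖ 0 := fun σ _ _ => map_zero σ
theorem InK.one : InK A ϖ 1 := fun σ _ _ => map_one σ
theorem InK.natCast (n : ℕ) : InK A ϖ (n : Qb) := fun σ _ _ => map_natCast σ n
theorem InK.add {a b : Qb} (ha : InK A ϖ a) (hb : InK A ϖ b) : InK A ϖ (a + b) :=
  fun σ hσ h => by rw [map_add, ha σ hσ h, hb σ hσ h]
theorem InK.sub {a b : Qb} (ha : InK A ϖ a) (hb : InK A ϖ b) : InK A ϖ (a - b) :=
  fun σ hσ h => by rw [map_sub, ha σ hσ h, hb σ hσ h]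
theorem InK.neg {a : Qb} (ha : InK A ϖ a) : InK A ϖ (-a) :=
  fun σ hσ h => by rw [map_neg, ha σ hσ h]
theorem InK.mul {a b : Qb} (ha : InK A ϖ a) (hb : InK A ϖ b) : InK A ϖ (a * b) :=
  fun σ hσ h => by rw [map_mul, ha σ hσ h, hb σ hσ h]
theorem InK.inv {a : Qb} (ha : InK A ϖ a) : InK A ϖ a⁻¹ :=
  fun σ hσ h => by rw [map_inv₀, ha σ hσ h]
theorem InK.div {a b : Qb} (ha : InK A ϖ a) (hb : InK A ϖ b) : InK A ϖ (a / b) :=
  fun σ hσ h => by rw [map_div₀, ha σ hσ h, hb σ hσ h]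
theorem InK.pow {a : Qb} (ha : InK A ϖ a) (n : ℕ) : InK A ϖ (a ^ n) :=
  fun σ hσ h => by rw [map_pow, ha σ hσ h]
theorem InK.zpow {a : Qb} (ha : InK A ϖ a) (n : ℤ) : InK A ϖ (a ^ n) :=
  fun σ hσ h => by rw [map_zpow₀, ha σ hσ h]
theorem InK.aeval_int {a : Qb} (ha : InK A ϖ a) (T : Polynomial ℤ) :
    InK A ϖ (Polynomial.aeval a T) := by
  intro σ hσ h
  rw [Polynomial.aeval_eq_sum_range, map_sum]
  refine Finset.sum_congr rfl fun i _ => ?_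
  rw [zsmul_eq_mul, map_mul, map_intCast, map_pow, ha σ hσ h]
theorem aeval_int_mem {a : Qb} (ha : a ∈ A) (T : Polynomial ℤ) : Polynomial.aeval a T ∈ A := by
  rw [Polynomial.aeval_eq_sum_range]
  exact sum_mem fun i _ => zsmul_mem (pow_mem ha i) _
theorem inK_self : InK A ϖ ϖ := fun _ _ h => h
theorem inK_of_mem_K0 {a : Qb} (ha : a ∈ K0 A) : InK A ϖ a :=
  fun σ hσ _ => (mem_K0_iff A a).1 ha σ hσ
/-- conjugation by the decomposition group preserves "inertia and fixes `ϖ`" -/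
theorem Unif.conj_fix (h : Unif A p ϖ) {g σ : GQ} (hg : g ∈ A.decompositionSubgroup ℚ)
    (hσ : σ ∈ Iner A) (hσϖ : σ ϖ = ϖ) : g * σ * g⁻¹ ∈ Iner A ∧ (g * σ * g⁻¹) ϖ = ϖ := by
  refine ⟨conj_mem_inertia A hg hσ, ?_⟩
  have h1 : σ (g⁻¹ ϖ) = g⁻¹ ϖ := by
    rw [h.apply_eq g⁻¹, map_mul, hσϖ, (mem_K0_iff A _).1 (h.xi_mem_K0 g⁻¹) σ hσ]
  rw [AlgEquiv.mul_apply, AlgEquiv.mul_apply, h1]
  exact AlgEquiv.apply_symm_apply g ϖ
theorem Unif.inK_apply (h : Unif A p ϖ) {g : GQ} (hg : g ∈ A.decompositionSubgroup ℚ) {a : Qb}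
    (ha : InK A ϖ a) : InK A ϖ (g a) := by
  intro σ hσ hσϖ
  obtain ⟨h1, h2⟩ := h.conj_fix (inv_mem hg) hσ hσϖ
  have h3 := ha _ h1 h2
  rw [inv_inv, AlgEquiv.mul_apply, AlgEquiv.mul_apply] at h3
  have h4 := congrArg g h3
  rw [show g (g⁻¹ (σ (g a))) = σ (g a) from AlgEquiv.apply_symm_apply g _] at h4
  exact h4

end T2

end Fermat.Agent.S56.Flat.Irr
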