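/-
S56 / FLAT / IRR (architect helper78), task IRR-C3 (proved by helper11): formal properties of the
Kummer generators.
-/
import Fermat.Agent.S56.Flat.Irr.Defs2
import Fermat.Agent.S56.Flat.Irr.Chr
import Fermat.Agent.S56.Flat.Irr.MCoc
import Fermat.Agent.S56.Flat.Irr.Tame2

set_option autoImplicit false

namespace Fermat.Agent.S56.Flat.Irr

open Fermat.Agent.Lib.InertiaField
open Fermat.Agent.S53 (M2)

variable {A : ValuationSubring Qb} {p : ℕ} {ϖ : Qb}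
variable {k : Type} [Field k] {H : Type} [Group H] {f : H →* GQ} {s : GQ →* M2 k}

/-! ## IRR-C3 (file `GenBasic.lean`): formal properties of the Kummer generators
Every `σ ∈ Iner A` is `f x` (`hf.surj`; `Iner A ≤ A.decompositionSubgroup ℚ`).
`Gen.apply`: for `x` in `I'` pick `y` with `f y = g⁻¹`; `y x y⁻¹` is in `I'` (`Unif.conj_fix`),
`f x (g α) = g (f (y x y⁻¹) α)`; `g (chr ζ t) = chr (ζ ^ n) t = chr ζ (n t)`. -/
section C3
variable [CharP k p] {ζ : Qb} {u u' : H → M2 k} {i j : Fin 2}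
theorem Gen.ne_zero {z : k} {α : Qb} (hα : Gen A p ϖ ζ f u i j z α) : α ≠ 0 := hα.1
theorem Gen.mul (hp : p.Prime) (hζ : ζ ^ p = 1) {z z' : k} {α α' : Qb}
    (hα : Gen A p ϖ ζ f u i j z α) (hα' : Gen A p ϖ ζ f u i j z' α') :
    Gen A p ϖ ζ f u i j (z + z') (α * α') := by
  refine ⟨mul_ne_zero hα.1 hα'.1, fun x hx hxϖ => ?_⟩
  rw [map_mul, hα.2 x hx hxϖ, hα'.2 x hx hxϖ, add_mul, chr_add hp hζ]
  ring
theorem Gen.pow_inK (hf : IsLocMap A f) (hζ : ζ ^ p = 1) {z : k} {α : Qb}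
    (hα : Gen A p ϖ ζ f u i j z α) : InK A ϖ (α ^ p) := by
  intro σ hσ hσϖ
  obtain ⟨x, rfl⟩ := hf.surj σ (inertia_le_decomposition A hσ)
  rw [map_pow, hα.2 x hσ hσϖ, mul_pow, chr_pow hζ, one_mul]
theorem Gen.div_inK (hp : p.Prime) (hf : IsLocMap A f) (hζ : ζ ^ p = 1) {z : k} {α α' : Qb}
    (hα : Gen A p ϖ ζ f u i j z α) (hα' : Gen A p ϖ ζ f u i j z α') : InK A ϖ (α / α') := by
  intro σ hσ hσϖ
  obtain ⟨x, rfl⟩ := hf.surj σ (inertia_le_decomposition A hσ)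
  rw [map_div₀, hα.2 x hσ hσϖ, hα'.2 x hσ hσϖ, mul_div_mul_left _ _ (chr_ne_zero hp hζ _)]
theorem Gen.mul_inK {z : k} {α b : Qb} (hα : Gen A p ϖ ζ f u i j z α) (hb : InK A ϖ b)
    (hb0 : b ≠ 0) : Gen A p ϖ ζ f u i j z (α * b) := by
  refine ⟨mul_ne_zero hα.1 hb0, fun x hx hxϖ => ?_⟩
  rw [map_mul, hα.2 x hx hxϖ, hb (f x) hx hxϖ, mul_assoc]
theorem Gen.div_sub (hp : p.Prime) (hζ : ζ ^ p = 1) {z : k} {α α' : Qb}
    (hα : Gen A p ϖ ζ f u i j z α) (hα' : Gen A p ϖ ζ f u' i j z α') :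
    Gen A p ϖ ζ f (fun x => u x - u' x) i j z (α / α') := by
  refine ⟨div_ne_zero hα.1 hα'.1, fun x hx hxϖ => ?_⟩
  have e : (fun x => u x - u' x) x i j = u x i j - u' x i j := rfl
  rw [map_div₀, hα.2 x hx hxϖ, hα'.2 x hx hxϖ, e, mul_sub, chr_sub hp hζ, mul_div_mul_comm]
theorem Gen.apply (h : Unif A p ϖ) (hf : IsLocMap A f) (hζ : ζ ^ p = 1) {g : GQ}
    (hg : g ∈ A.decompositionSubgroup ℚ) {n : ℕ} (hn : g ζ = ζ ^ n) {c₀ : k}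
    (hc : ∀ y x, f y = g⁻¹ → f x ∈ Iner A → f x ϖ = ϖ → u (y * x * y⁻¹) i j = c₀ * u x i j)
    {z : k} {α : Qb} (hα : Gen A p ϖ ζ f u i j z α) :
    Gen A p ϖ ζ f u i j ((n : k) * c₀ * z) (g α) := by
  refine ⟨(map_ne_zero g).2 hα.1, fun x hx hxϖ => ?_⟩
  obtain ⟨y, hy⟩ := hf.surj g⁻¹ (inv_mem hg)
  have hfy : f (y * x * y⁻¹) = g⁻¹ * f x * g⁻¹⁻¹ := by
    rw [map_mul, map_mul, map_inv, hy]
  obtain ⟨h1, h2⟩ := h.conj_fix (inv_mem hg) hx hxϖ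
  rw [← hfy] at h1 h2
  have h3 := hα.2 (y * x * y⁻¹) h1 h2
  rw [hc y x hy hx hxϖ, hfy, inv_inv, AlgEquiv.mul_apply, AlgEquiv.mul_apply] at h3
  have h4 : g (g⁻¹ (f x (g α))) = f x (g α) := g.apply_symm_apply _
  rw [← h4, h3, map_mul, apply_chr, hn, chr_pow_left, ← chr_natCast_mul h.prime hζ]
  congr 2
  ring
/-- if all the generators lie in `K0(ϖ)` the entry vanishes on `I'` (`eq_zero_of_chr_eq_one`) -/
theorem entry_eq_zero_of_inK [Finite k] (hp : p.Prime) (hζ : ζ ^ p = 1) (hζ1 : ζ ≠ 1)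
    (hex : ∀ z, ∃ α, Gen A p ϖ ζ f u i j z α)
    (hK : ∀ z α, Gen A p ϖ ζ f u i j z α → InK A ϖ α) :
    ∀ x, f x ∈ Iner A → f x ϖ = ϖ → u x i j = 0 := by
  intro x hx hxϖ
  refine eq_zero_of_chr_eq_one hp hζ hζ1 fun z => ?_
  obtain ⟨α, hα⟩ := hex z
  have h1 := hα.2 x hx hxϖ
  rw [hK z α hα (f x) hx hxϖ] at h1
  exact (mul_right_cancel₀ hα.1 (by rw [one_mul]; exact h1)).symm
end C3

end Fermat.Agent.S56.Flat.Irr
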