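/-
S56 / FLAT / IRR (architect helper78), task IRR-T5 (helper244): the cyclotomic character on inertia
is `xi ^ (p + 1)` modulo the maximal ideal; `μ_p ⊆ K0(ϖ)`; `val (ζ - 1) ^ (p - 1) = val p`.
-/
import Fermat.Agent.S56.Flat.Irr.Defs
import Fermat.Agent.S56.Flat.Irr.Tame2

set_option autoImplicit false

namespace Fermat.Agent.S56.Flat.Irr

open Fermat.Agent.Lib.InertiaField

variable {A : ValuationSubring Qb} {p : ℕ} {ϖ : Qb}

/-! ## IRR-T5 (file `Cyc.lean`): the cyclotomic character on inertia is `xi ^ (p + 1)`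

`λ = ζ - 1`, `val λ ^ (p - 1) = val p`, so `x = λ / ϖ ^ (p + 1)` is a unit; `σ x ≡ x` and
`σ λ / λ = 1 + ζ + ... + ζ ^ (n - 1) ≡ n`. -/
section T5

theorem Cyc.isPrimitiveRoot (hp : p.Prime) {ζ : Qb} (hζ : ζ ^ p = 1) (hζ1 : ζ ≠ 1) :
    IsPrimitiveRoot ζ p := by
  have := Fact.mk hp
  have h := orderOf_eq_prime hζ hζ1
  rw [← h]
  exact IsPrimitiveRoot.orderOf ζ

theorem Cyc.mem_of_pow_eq_one (A : ValuationSubring Qb) {μ : Qb} {n : ℕ} (hn : n ≠ 0)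
    (hμ : μ ^ n = 1) : μ ∈ A := by
  rw [← A.valuation_le_one_iff]
  exact (Hensel.valuation_eq_one_of_pow A hn (by rw [hμ, map_one])).le

/-- `1 - μ` divides `1 - ν` when `ν` is a power of `μ`. -/
theorem Cyc.val_one_sub_le (A : ValuationSubring Qb) (hp : p ≠ 0) {μ ν : Qb}
    (hμ : IsPrimitiveRoot μ p) (hν : ν ^ p = 1) :
    A.valuation (1 - ν) ≤ A.valuation (1 - μ) := by
  have : NeZero p := ⟨hp⟩
  obtain ⟨i, -, rfl⟩ := hμ.eq_pow_of_pow_eq_one hν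
  have h1 : 1 - μ ^ i = (∑ j ∈ Finset.range i, μ ^ j) * (1 - μ) := by
    have := geom_sum_mul μ i
    linear_combination this
  have hμP : μ ∈ A := Cyc.mem_of_pow_eq_one A hp hμ.pow_eq_one
  have h2 : (∑ j ∈ Finset.range i, μ ^ j) ∈ A := sum_mem fun j _ => pow_mem hμP j
  rw [h1, map_mul]
  exact mul_le_of_le_one_left' ((A.valuation_le_one_iff _).2 h2)

theorem Cyc.val_natCast_eq (A : ValuationSubring Qb) (hp : p.Prime) {ζ : Qb}
    (hζ : IsPrimitiveRoot ζ p) : A.valuation (p : Qb) = A.valuation (1 - ζ) ^ (p - 1) := by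
  have : Fact p.Prime := ⟨hp⟩
  have : NeZero p := ⟨hp.ne_zero⟩
  have h1 : (p : Qb) = ∏ μ ∈ primitiveRoots p Qb, (1 - μ) := by
    have h2 := congrArg (Polynomial.eval 1) (Polynomial.cyclotomic_eq_prod_X_sub_primitiveRoots hζ)
    rw [Polynomial.eval_one_cyclotomic_prime, Polynomial.eval_prod] at h2
    simpa using h2
  rw [h1, map_prod]
  have h3 : ∀ μ ∈ primitiveRoots p Qb, A.valuation (1 - μ) = A.valuation (1 - ζ) := by
    intro μ hμ
    have hμ' : IsPrimitiveRoot μ p := (mem_primitiveRoots hp.pos).1 hμ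
    exact le_antisymm (Cyc.val_one_sub_le A hp.ne_zero hζ hμ'.pow_eq_one)
      (Cyc.val_one_sub_le A hp.ne_zero hμ' hζ.pow_eq_one)
  rw [Finset.prod_congr rfl h3, Finset.prod_const, hζ.card_primitiveRoots, Nat.totient_prime hp]

/-- `1 + ζ + ⋯ + ζ ^ (c - 1) ≡ c mod (ζ - 1)`. -/
theorem Cyc.geom_sum_sub (A : ValuationSubring Qb) {ζ : Qb} (hζ : ζ ∈ A) (c : ℕ) :
    ∃ R ∈ A, (∑ i ∈ Finset.range c, ζ ^ i) - c = (ζ - 1) * R := by
  induction c with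
  | zero => exact ⟨0, A.zero_mem, by simp⟩
  | succ c ih =>
    obtain ⟨R, hR, h⟩ := ih
    refine ⟨R + ∑ i ∈ Finset.range c, ζ ^ i, A.add_mem _ _ hR (sum_mem fun j _ => pow_mem hζ j), ?_⟩
    rw [Finset.sum_range_succ]
    have h2 := geom_sum_mul ζ c
    push_cast
    linear_combination h - h2

theorem val_zeta_sub_one_pow (hp : p.Prime) (hA : A.LiesOverPrime p) {ζ : Qb} (hζ : ζ ^ p = 1)
    (hζ1 : ζ ≠ 1) : A.valuation (ζ - 1) ^ (p - 1) = A.valuation (p : Qb) := by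
  rw [Cyc.val_natCast_eq A hp (Cyc.isPrimitiveRoot hp hζ hζ1), Valuation.map_sub_swap]

theorem Cyc.val_zeta_sub_one (h : Unif A p ϖ) {ζ : Qb} (hζ : ζ ^ p = 1) (hζ1 : ζ ≠ 1) :
    A.valuation (ζ - 1) = A.valuation ϖ ^ (p + 1) := by
  have hp1 : p - 1 ≠ 0 := by
    have := h.three_le
    omega
  have he : p ^ 2 - 1 = (p + 1) * (p - 1) := by
    have := Nat.sq_sub_sq p 1
    simpa using this
  have h1 : A.valuation (ζ - 1) ^ (p - 1) = (A.valuation ϖ ^ (p + 1)) ^ (p - 1) := by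
    rw [val_zeta_sub_one_pow h.prime h.lies hζ hζ1, ← h.val_pow, ← pow_mul, he]
  exact (pow_left_inj₀ zero_le zero_le hp1).1 h1

theorem Unif.natCast_sub_xi_pow_mem (h : Unif A p ϖ) {σ : GQ} (hσ : σ ∈ Iner A) {ζ : Qb}
    (hζ : ζ ^ p = 1) (hζ1 : ζ ≠ 1) {n : ℕ} (hn : σ ζ = ζ ^ n) :
    (n : Qb) - xi ϖ σ ^ (p + 1) ∈ A.nonunits := by
  have hl0 : ζ - 1 ≠ 0 := sub_ne_zero.2 hζ1
  have hϖ0 := h.ne_zero
  have hval := Cyc.val_zeta_sub_one h hζ hζ1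
  have hv0 : A.valuation ϖ ^ (p + 1) ≠ 0 := pow_ne_zero _ h.val_ne_zero
  have hξ0 : xi ϖ σ ≠ 0 := by
    intro h0
    have := h.val_xi σ
    rw [h0, map_zero] at this
    exact zero_ne_one this
  have hζA : ζ ∈ A := Cyc.mem_of_pow_eq_one A h.prime.ne_zero hζ
  -- the unit `x`
  have hxv : A.valuation ((ζ - 1) / ϖ ^ (p + 1)) = 1 := by
    rw [map_div₀, map_pow, hval, div_self hv0]
  have hx : (ζ - 1) / ϖ ^ (p + 1) ∈ A := (A.valuation_le_one_iff _).1 hxv.le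
  have h1 := apply_sub_mem_nonunits A hσ hx
  have hS := geom_sum_mul ζ n
  have h2 : (∑ i ∈ Finset.range n, ζ ^ i) - xi ϖ σ ^ (p + 1) =
      (σ ((ζ - 1) / ϖ ^ (p + 1)) - (ζ - 1) / ϖ ^ (p + 1)) *
        (xi ϖ σ ^ (p + 1) / ((ζ - 1) / ϖ ^ (p + 1))) := by
    rw [map_div₀, map_sub, map_one, map_pow, hn, h.apply_eq σ, ← hS, mul_pow]
    field_simp
  have h3 : xi ϖ σ ^ (p + 1) / ((ζ - 1) / ϖ ^ (p + 1)) ∈ A := by
    rw [← A.valuation_le_one_iff, map_div₀, hxv, map_pow, h.val_xi σ, one_pow, div_one]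
  have h4 : (∑ i ∈ Finset.range n, ζ ^ i) - xi ϖ σ ^ (p + 1) ∈ A.nonunits := by
    rw [h2]
    exact Unram.mul_mem_nonunits h1 h3
  obtain ⟨R, hR, h5⟩ := Cyc.geom_sum_sub A hζA n
  have h6 : ζ - 1 ∈ A.nonunits := by
    rw [ValuationSubring.mem_nonunits_iff, hval]
    exact pow_lt_one₀ zero_le h.val_lt_one (Nat.succ_ne_zero p)
  have h7 : (∑ i ∈ Finset.range n, ζ ^ i) - n ∈ A.nonunits := by
    rw [h5]
    exact Unram.mul_mem_nonunits h6 hR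
  have h8 : (n : Qb) - xi ϖ σ ^ (p + 1) =
      ((∑ i ∈ Finset.range n, ζ ^ i) - xi ϖ σ ^ (p + 1)) +
        -((∑ i ∈ Finset.range n, ζ ^ i) - n) := by ring
  rw [h8]
  exact Hensel.nonunits_add A h4 (Hensel.nonunits_neg A h7)

theorem Unif.inK_zeta (h : Unif A p ϖ) {ζ : Qb} (hζ : ζ ^ p = 1) : InK A ϖ ζ := by
  intro σ hσ hσϖ
  by_cases hζ1 : ζ = 1
  · rw [hζ1, map_one]
  have hprim := Cyc.isPrimitiveRoot h.prime hζ hζ1
  have : NeZero p := ⟨h.prime.ne_zero⟩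
  obtain ⟨n, hnp, hn⟩ := hprim.eq_pow_of_pow_eq_one (ξ := σ ζ) (by rw [← map_pow, hζ, map_one])
  have h1 := h.natCast_sub_xi_pow_mem hσ hζ hζ1 hn.symm
  rw [(h.xi_eq_one_iff σ).2 hσϖ, one_pow] at h1
  have h2 : (p : ℤ) ∣ (n : ℤ) - 1 := by
    by_contra hnd
    have h3 := Unram.valuation_intCast_eq_one h.prime h.lies hnd
    rw [ValuationSubring.mem_nonunits_iff] at h1
    push_cast at h3
    rw [h3] at h1
    exact lt_irrefl _ h1
  have h3 : (n : ℤ) - 1 = 0 := by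
    apply Int.eq_zero_of_abs_lt_dvd h2
    have := h.three_le
    rw [abs_lt]
    constructor <;> omega
  have h4 : n = 1 := by omega
  rw [← hn, h4, pow_one]

end T5

end Fermat.Agent.S56.Flat.Irr
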