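/-
S56 / FLAT / IRR (architect helper78), task IRR-K (proof: helper205):
existence of Kummer generators (Hilbert 90).
-/
import Fermat.Agent.S56.Flat.Irr.Defs
import Fermat.Agent.S56.Flat.Irr.Cyc
import Fermat.Agent.S55.Arith.Hilbert90Core

set_option autoImplicit false

namespace Fermat.Agent.S56.Flat.Irr

open Fermat.Agent.Lib.InertiaField

variable {A : ValuationSubring Qb} {p : ℕ} {ϖ : Qb}

/-! ## IRR-K (file `Kummer.lean`): existence of Kummer generators (Hilbert 90)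

`S55.hilbert90_crossed` for `β x = Kx.mk0 (χ x)`; `f x` fixes the values of `χ` by `inK_zeta`. -/
section K

theorem Unif.exists_kummer (h : Unif A p ϖ) {H : Type} [Group H] (f : H →* GQ)
    (hf : ∀ x, f x ∈ Iner A ∧ f x ϖ = ϖ) (χ : H → Qb) (hχp : ∀ x, χ x ^ p = 1)
    (hχmul : ∀ x y, χ (x * y) = χ x * χ y)
    (hlev : ∃ N ∈ Fermat.Agent.S55.lvlAll.carrier, ∀ n, f n ∈ N → χ n = 1) :
    ∃ α : Qb, α ≠ 0 ∧ ∀ x, f x α = χ x * α := by
  have hne : ∀ x, χ x ≠ 0 := by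
    intro x h0
    have := hχp x
    rw [h0, zero_pow h.prime.ne_zero] at this
    exact zero_ne_one this
  have hfix : ∀ x y, f x (χ y) = χ y := fun x y => h.inK_zeta (hχp y) (f x) (hf x).1 (hf x).2
  obtain ⟨N, hN, hNχ⟩ := hlev
  obtain ⟨a, ha⟩ := Fermat.Agent.S55.hilbert90_crossed f
    (fun x => Fermat.Agent.S55.Kx.mk0 (χ x) (hne x))
    (fun x y => by
      apply Fermat.Agent.S55.Kx.val_injective
      rw [Fermat.Agent.S55.Kx.val_add, Fermat.Agent.S55.Kx.val_smul,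
        Fermat.Agent.S55.Kx.val_mk0, Fermat.Agent.S55.Kx.val_mk0, Fermat.Agent.S55.Kx.val_mk0,
        hχmul, hfix])
    ⟨N, hN, fun x n hn => by
      apply Fermat.Agent.S55.Kx.val_injective
      rw [Fermat.Agent.S55.Kx.val_mk0, Fermat.Agent.S55.Kx.val_mk0, hχmul, hNχ n hn, mul_one]⟩
  refine ⟨a.val, Fermat.Agent.S55.Kx.val_ne_zero a, fun x => ?_⟩
  have h1 := congrArg Fermat.Agent.S55.Kx.val (ha x)
  rw [Fermat.Agent.S55.Kx.val_mk0, Fermat.Agent.S55.Kx.val_sub, Fermat.Agent.S55.Kx.val_smul] at h1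
  rw [h1, mul_assoc, inv_mul_cancel₀ (Fermat.Agent.S55.Kx.val_ne_zero a), mul_one]

end K

end Fermat.Agent.S56.Flat.Irr
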