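/-
S56 / FLAT / IRR (architect helper78), task IRR-C2: consequences of the normal form `Shape`.
-/
import Fermat.Agent.S56.Flat.Irr.Defs2
import Fermat.Agent.S56.Flat.Irr.Tame2
import Fermat.Agent.S56.Flat.Irr.Cyc

set_option autoImplicit false
set_option linter.unusedSectionVars false

namespace Fermat.Agent.S56.Flat.Irr

open Fermat.Agent.Lib.InertiaField
open Fermat.Agent.S53 (M2)

variable {A : ValuationSubring Qb} {p : ℕ} {ϖ : Qb}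
variable {k : Type} [Field k] {H : Type} [Group H] {f : H →* GQ} {s : GQ →* M2 k}

/-! ## IRR-C2 (file `ShapeBasic.lean`): consequences of the normal form -/
section C2
variable (h : Unif A p ϖ) (Sh : Shape A p ϖ s)
include h

theorem Shape.rs_xi_pow (g : GQ) : rs A (xi ϖ g) ^ (p ^ 2 - 1) = 1 := by
  rw [← rs_pow (h.xi_mem g), h.xi_pow, rs_one]

theorem Shape.θ_pow {σ : GQ} (hσ : σ ∈ Iner A) : Sh.θ σ ^ (p ^ 2 - 1) = 1 := by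
  apply Sh.jj.injective
  rw [map_pow, Sh.jj_θ σ hσ, Shape.rs_xi_pow h, map_one]

theorem Shape.θ_ne_zero {σ : GQ} (hσ : σ ∈ Iner A) : Sh.θ σ ≠ 0 := by
  intro h0
  have h1 := Sh.θ_pow h hσ
  rw [h0, zero_pow (Tame1.exp_ne_zero h)] at h1
  exact zero_ne_one h1

theorem Shape.θ_eq_one {σ : GQ} (hσ : σ ∈ Iner A) (hϖ : σ ϖ = ϖ) : Sh.θ σ = 1 := by
  apply Sh.jj.injective
  rw [Sh.jj_θ σ hσ, (h.rs_xi_eq_one_iff σ).2 hϖ, map_one]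

include Sh in
theorem Shape.s_eq_one {σ : GQ} (hσ : σ ∈ Iner A) (hϖ : σ ϖ = ϖ) : s σ = 1 := by
  rw [Sh.diag σ hσ, Sh.θ_eq_one h hσ hϖ, one_pow]
  exact Matrix.one_fin_two.symm

include Sh in
theorem Shape.fix_of_s_eq_one {σ : GQ} (hσ : σ ∈ Iner A) (hs : s σ = 1) : σ ϖ = ϖ := by
  have h1 : Sh.θ σ = 1 := by
    have h2 := congrFun (congrFun (Sh.diag σ hσ) 0) 0
    rw [hs] at h2
    simpa using h2.symm
  rw [← h.rs_xi_eq_one_iff, ← Sh.jj_θ σ hσ, h1, map_one]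

theorem Shape.θ_inv {σ : GQ} (hσ : σ ∈ Iner A) : Sh.θ σ⁻¹ = (Sh.θ σ)⁻¹ := by
  have h1 : s σ⁻¹ * s σ = 1 := by rw [← map_mul, inv_mul_cancel, map_one]
  rw [Sh.diag σ hσ, Sh.diag σ⁻¹ (inv_mem hσ)] at h1
  have h2 := congrFun (congrFun h1 0) 0
  simp [Matrix.mul_apply, Fin.sum_univ_two] at h2
  exact eq_inv_of_mul_eq_one_left h2

/-- the cyclotomic character on inertia is `θ ^ (p + 1)` (`Unif.natCast_sub_xi_pow_mem`) -/
theorem Shape.natCast_eq {σ : GQ} (hσ : σ ∈ Iner A) {ζ : Qb} (hζ : ζ ^ p = 1) (hζ1 : ζ ≠ 1)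
    {n : ℕ} (hn : σ ζ = ζ ^ n) : (n : k) = Sh.θ σ ^ (p + 1) := by
  apply Sh.jj.injective
  rw [map_natCast, map_pow, Sh.jj_θ σ hσ, ← rs_pow (h.xi_mem σ), ← rs_natCast,
    rs_eq_iff (natCast_mem A n) (pow_mem (h.xi_mem σ) _)]
  exact h.natCast_sub_xi_pow_mem hσ hζ hζ1 hn

theorem Shape.conj_inertia_01 {σ : GQ} (hσ : σ ∈ Iner A) (m : M2 k) :
    (s σ⁻¹ * m * s σ⁻¹⁻¹) 0 1 = Sh.θ σ ^ (p - 1) * m 0 1 := by
  have h0 := Sh.θ_ne_zero h hσ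
  have hp : p = (p - 1) + 1 := by
    have := h.three_le
    omega
  rw [inv_inv, Sh.diag σ hσ, Sh.diag σ⁻¹ (inv_mem hσ), Sh.θ_inv h hσ]
  simp only [Matrix.mul_apply, Fin.sum_univ_two, Matrix.of_apply, Matrix.cons_val', Matrix.cons_val_zero,
    Matrix.cons_val_one, Matrix.cons_val_fin_one, mul_zero, zero_mul, add_zero, zero_add]
  have e : Sh.θ σ ^ p = Sh.θ σ ^ (p - 1) * Sh.θ σ := by
    rw [← pow_succ, ← hp]
  rw [e]
  field_simp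

include Sh in
theorem Shape.conj_inertia_00 {σ : GQ} (hσ : σ ∈ Iner A) (m : M2 k) :
    (s σ⁻¹ * m * s σ⁻¹⁻¹) 0 0 = m 0 0 := by
  have h0 := Sh.θ_ne_zero h hσ
  rw [inv_inv, Sh.diag σ hσ, Sh.diag σ⁻¹ (inv_mem hσ), Sh.θ_inv h hσ]
  simp only [Matrix.mul_apply, Fin.sum_univ_two, Matrix.of_apply, Matrix.cons_val', Matrix.cons_val_zero,
    Matrix.cons_val_one, Matrix.cons_val_fin_one, mul_zero, zero_mul, add_zero]
  field_simp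

omit h in
theorem Shape.frob_mul_inv : s Sh.φ * s Sh.φ⁻¹ = 1 := by
  rw [← map_mul, mul_inv_cancel, map_one]

omit h in
theorem Shape.frob_entries :
    Sh.x₀ * s Sh.φ⁻¹ 1 0 = 1 ∧ Sh.x₀ * s Sh.φ⁻¹ 1 1 = 0 ∧ Sh.y₀ * s Sh.φ⁻¹ 0 0 = 0 ∧
      Sh.y₀ * s Sh.φ⁻¹ 0 1 = 1 := by
  have h1 := Sh.frob_mul_inv
  rw [Sh.anti] at h1
  have h00 := congrFun (congrFun h1 0) 0
  have h01 := congrFun (congrFun h1 0) 1
  have h10 := congrFun (congrFun h1 1) 0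
  have h11 := congrFun (congrFun h1 1) 1
  simp [Matrix.mul_apply, Fin.sum_univ_two] at h00 h01 h10 h11
  exact ⟨h00, by rcases h01 with h | h <;> simp [h], by rcases h10 with h | h <;> simp [h], h11⟩

theorem Shape.x₀_ne_zero : Sh.x₀ ≠ 0 := by
  intro h0
  have h1 := Sh.frob_entries.1
  rw [h0, zero_mul] at h1
  exact zero_ne_one h1

theorem Shape.y₀_ne_zero : Sh.y₀ ≠ 0 := by
  intro h0
  have h1 := Sh.frob_entries.2.2.2
  rw [h0, zero_mul] at h1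
  exact zero_ne_one h1

theorem Shape.conj_frob_01 (m : M2 k) :
    (s Sh.φ * m * s Sh.φ⁻¹) 0 1 = Sh.x₀ * m 1 0 * Sh.y₀⁻¹ := by
  obtain ⟨-, h11, -, h01⟩ := Sh.frob_entries
  have e11 : s Sh.φ⁻¹ 1 1 = 0 := (mul_eq_zero.1 h11).resolve_left (Sh.x₀_ne_zero h)
  have e01 : s Sh.φ⁻¹ 0 1 = Sh.y₀⁻¹ := eq_inv_of_mul_eq_one_right h01
  rw [Sh.anti]
  simp only [Matrix.mul_apply, Fin.sum_univ_two, Matrix.of_apply, Matrix.cons_val', Matrix.cons_val_zero,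
    Matrix.cons_val_one, Matrix.cons_val_fin_one, mul_zero, zero_mul, add_zero, zero_add, e11, e01]

theorem Shape.conj_frob_sq (m : M2 k) :
    s (Sh.φ * Sh.φ)⁻¹ * m * s (Sh.φ * Sh.φ)⁻¹⁻¹ = m := by
  have h1 : s (Sh.φ * Sh.φ) = (Sh.x₀ * Sh.y₀) • (1 : M2 k) := by
    rw [map_mul, Sh.anti]
    ext i j
    fin_cases i <;> fin_cases j <;> simp [Matrix.mul_apply, Fin.sum_univ_two, mul_comm]
  have h2 : m * s (Sh.φ * Sh.φ) = s (Sh.φ * Sh.φ) * m := by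
    rw [h1, mul_smul_comm, smul_mul_assoc, mul_one, one_mul]
  rw [inv_inv, mul_assoc, h2, ← mul_assoc, ← map_mul, inv_mul_cancel, map_one, one_mul]

theorem Shape.g₀_pow : Sh.g₀ ^ (p ^ 2) = Sh.g₀ := by
  have h1 := Sh.θ_pow h Sh.τ₀_mem
  have hp : 1 ≤ p ^ 2 := Nat.one_le_pow _ _ h.prime.pos
  have e : 2 * p * p ^ 2 = (p ^ 2 - 1) * (2 * p) + 2 * p := by
    obtain ⟨c, hc⟩ : ∃ c, p ^ 2 = c + 1 := ⟨p ^ 2 - 1, by omega⟩
    rw [hc, Nat.add_sub_cancel]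
    ring
  rw [Shape.g₀, ← pow_mul, e, pow_add, pow_mul, h1, one_pow, one_mul]

/-- `θ τ₀` has order `p² - 1`, which does not divide `2 (p - 1)` -/
theorem Shape.g₀_ne : Sh.g₀ ^ p ≠ Sh.g₀ := by
  intro he
  have h3 := h.three_le
  have h0 := Sh.θ_ne_zero h Sh.τ₀_mem
  obtain ⟨c, hc⟩ : ∃ c, p = c + 1 := ⟨p - 1, by omega⟩
  have e : 2 * p * p = 2 * p * c + 2 * p := by rw [hc]; ring
  rw [Shape.g₀, ← pow_mul, e, pow_add] at he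
  have h1 : Sh.θ Sh.τ₀ ^ (2 * p * c) = 1 :=
    mul_right_cancel₀ (pow_ne_zero (2 * p) h0) (by rw [he, one_mul])
  have h2 := orderOf_dvd_of_pow_eq_one h1
  rw [Sh.τ₀_order] at h2
  have e2 : p ^ 2 - 1 = (p + 1) * c := by
    have : p ^ 2 = (p + 1) * c + 1 := by rw [hc]; ring
    omega
  rw [e2] at h2
  have hc0 : 0 < c := by omega
  have h4 : p + 1 ∣ 2 * p := Nat.dvd_of_mul_dvd_mul_right hc0 h2
  have h5 : Nat.Coprime (p + 1) p := by simp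
  have h6 : p + 1 ∣ 2 := h5.dvd_of_dvd_mul_right h4
  have h7 := Nat.le_of_dvd (by norm_num) h6
  omega

/-- `jj g₀ ^ p = rs (xi τ₀) ^ (p² + 1)` -/
theorem Shape.jj_g₀_pow : Sh.jj Sh.g₀ ^ p = rs A (xi ϖ Sh.τ₀) ^ (p ^ 2 + 1) := by
  have h1 := Shape.rs_xi_pow h Sh.τ₀
  have hp : 1 ≤ p ^ 2 := Nat.one_le_pow _ _ h.prime.pos
  have e : 2 * p * p = (p ^ 2 - 1) + (p ^ 2 + 1) := by
    obtain ⟨c, hc⟩ : ∃ c, p ^ 2 = c + 1 := ⟨p ^ 2 - 1, by omega⟩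
    have : 2 * p * p = 2 * p ^ 2 := by ring
    rw [this, hc, Nat.add_sub_cancel]
    ring
  rw [Shape.g₀, map_pow, Sh.jj_θ _ Sh.τ₀_mem, ← pow_mul, e, pow_add, h1, one_mul]

end C2

end Fermat.Agent.S56.Flat.Irr
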