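/-
S56 / FLAT / IRR (architect helper78), task IRR-T4: the value group of `K0(ϖ)` is generated by
`val ϖ` (norm argument).
-/
import Fermat.Agent.S56.Flat.Irr.Defs
import Fermat.Agent.S56.Flat.Irr.TameSurj

set_option autoImplicit false

namespace Fermat.Agent.S56.Flat.Irr

open Fermat.Agent.Lib.InertiaField

variable {A : ValuationSubring Qb} {p : ℕ} {ϖ : Qb}

/-! ## IRR-T4 (file `ValGroup.lean`): the value group of `K0(ϖ)` is generated by `val ϖ`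

`N a := ∏_{ξ ^ e = 1} σ_ξ a` (`σ_ξ` from T3) is fixed by `Iner A`, so it lies in `K0 A` and
`val (N a) = val a ^ e` is a power of `val p = val ϖ ^ e` (`exists_zpow_mul_unit`). -/
section T4

/-- two elements of the inertia group which agree on `ϖ` agree on `K0(ϖ)` -/
theorem ValGroup.apply_eq_of_apply_eq {σ τ : GQ} (hσ : σ ∈ Iner A) (hτ : τ ∈ Iner A)
    (hh : σ ϖ = τ ϖ) {a : Qb} (ha : InK A ϖ a) : σ a = τ a := by
  have h1 : τ⁻¹ * σ ∈ Iner A := mul_mem (inv_mem hτ) hσ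
  have h2 : (τ⁻¹ * σ) ϖ = ϖ := by
    rw [AlgEquiv.mul_apply, hh]
    exact τ.symm_apply_apply ϖ
  have h3 := ha _ h1 h2
  rw [AlgEquiv.mul_apply] at h3
  have h4 := congrArg τ h3
  rwa [show τ (τ⁻¹ (σ a)) = σ a from τ.apply_symm_apply _] at h4

theorem ValGroup.e_pos (h : Unif A p ϖ) : 0 < p ^ 2 - 1 := by
  have h3 := h.three_le
  have : 9 ≤ p ^ 2 := by nlinarith
  omega

theorem ValGroup.card_roots (h : Unif A p ϖ) :
    (Polynomial.nthRootsFinset (p ^ 2 - 1) (1 : Qb)).card = p ^ 2 - 1 := by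
  have he := ValGroup.e_pos h
  have : NeZero ((p ^ 2 - 1 : ℕ) : ℚ) := ⟨by exact_mod_cast he.ne'⟩
  obtain ⟨ζ, hζ⟩ := HasEnoughRootsOfUnity.exists_primitiveRoot Qb (p ^ 2 - 1)
  exact hζ.card_nthRootsFinset

/-- the norm from `K0(ϖ)` to `K0` -/
theorem ValGroup.exists_norm (h : Unif A p ϖ) {a : Qb} (ha : InK A ϖ a) (ha0 : a ≠ 0) :
    ∃ N : Qb, N ∈ K0 A ∧ N ≠ 0 ∧ A.valuation N = A.valuation a ^ (p ^ 2 - 1) := by
  classical
  have he := ValGroup.e_pos h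
  choose! s hs1 hs2 using
    fun (ξ : Qb) (hξ : ξ ^ (p ^ 2 - 1) = 1) => h.exists_inertia_apply_eq hξ
  refine ⟨∏ ξ ∈ Polynomial.nthRootsFinset (p ^ 2 - 1) (1 : Qb), s ξ a, ?_, ?_, ?_⟩
  · rw [mem_K0_iff]
    intro τ hτ
    rw [map_prod]
    have hx : xi ϖ τ ^ (p ^ 2 - 1) = 1 := h.xi_pow τ
    have hx0 : xi ϖ τ ≠ 0 := by
      intro h0
      rw [h0, zero_pow he.ne'] at hx
      exact zero_ne_one hx
    refine Finset.prod_bij (fun ξ _ => ξ * xi ϖ τ) ?_ ?_ ?_ ?_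
    · intro ξ hξ
      rw [Polynomial.mem_nthRootsFinset he] at hξ ⊢
      rw [mul_pow, hξ, hx, one_mul]
    · intro ξ _ ξ' _ hh
      exact mul_right_cancel₀ hx0 hh
    · intro ξ hξ
      rw [Polynomial.mem_nthRootsFinset he] at hξ
      refine ⟨ξ * (xi ϖ τ)⁻¹, ?_, ?_⟩
      · rw [Polynomial.mem_nthRootsFinset he, mul_pow, inv_pow, hξ, hx, inv_one, one_mul]
      · rw [mul_assoc, inv_mul_cancel₀ hx0, mul_one]
    · intro ξ hξ
      rw [Polynomial.mem_nthRootsFinset he] at hξ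
      have hξ' : (ξ * xi ϖ τ) ^ (p ^ 2 - 1) = 1 := by rw [mul_pow, hξ, hx, one_mul]
      have hξK : ξ ∈ K0 A := rootOfUnity_mem_K0 A p h.prime h.lies h.not_dvd hξ
      have h1 : (τ * s ξ) a = s (ξ * xi ϖ τ) a := by
        refine ValGroup.apply_eq_of_apply_eq (mul_mem hτ (hs1 ξ hξ)) (hs1 _ hξ') ?_ ha
        rw [AlgEquiv.mul_apply, hs2 ξ hξ, hs2 _ hξ', map_mul, (mem_K0_iff A ξ).1 hξK τ hτ,
          h.apply_eq τ, mul_assoc]
      exact h1
  · rw [Finset.prod_ne_zero_iff]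
    intro ξ _
    exact (map_ne_zero _).2 ha0
  · rw [map_prod]
    rw [Finset.prod_congr rfl (g := fun _ => A.valuation a)]
    · rw [Finset.prod_const, ValGroup.card_roots h]
    · intro ξ hξ
      rw [Polynomial.mem_nthRootsFinset he] at hξ
      exact val_apply (inertia_le_decomposition A (hs1 ξ hξ)) a

theorem Unif.exists_val_eq_zpow (h : Unif A p ϖ) {a : Qb} (ha : InK A ϖ a) (ha0 : a ≠ 0) :
    ∃ j : ℤ, A.valuation a = A.valuation ϖ ^ j := by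
  obtain ⟨N, hN, hN0, hNv⟩ := ValGroup.exists_norm h ha ha0
  obtain ⟨k, u, -, hu, hu', rfl⟩ := exists_zpow_mul_unit A p h.prime h.lies hN hN0
  have hu1 : A.valuation u = 1 := by
    have h1 : A.valuation u ≤ 1 := (A.valuation_le_one_iff u).2 hu
    have h2 : A.valuation u⁻¹ ≤ 1 := (A.valuation_le_one_iff _).2 hu'
    have hu0 : u ≠ 0 := by
      rintro rfl
      simp at hN0
    have hv0 : A.valuation u ≠ 0 := (map_ne_zero _).2 hu0
    rw [map_inv₀] at h2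
    exact le_antisymm h1 ((inv_le_one₀ (zero_lt_iff.2 hv0)).1 h2)
  refine ⟨k, ?_⟩
  have h3 : A.valuation a ^ (p ^ 2 - 1) = A.valuation (ϖ ^ k) ^ (p ^ 2 - 1) := by
    rw [← hNv, map_mul, hu1, mul_one, map_zpow₀, map_zpow₀, ← h.val_pow, ← zpow_natCast,
      ← zpow_natCast, ← zpow_mul, ← zpow_mul, mul_comm]
  have h4 := val_eq_of_pow_eq (ValGroup.e_pos h).ne' h3
  rw [h4, map_zpow₀]

theorem Unif.val_le_of_mem_nonunits (h : Unif A p ϖ) {a : Qb} (ha : InK A ϖ a)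
    (ha' : a ∈ A.nonunits) : A.valuation a ≤ A.valuation ϖ := by
  by_cases ha0 : a = 0
  · rw [ha0, map_zero]
    exact zero_le
  obtain ⟨j, hj⟩ := h.exists_val_eq_zpow ha ha0
  rw [ValuationSubring.mem_nonunits_iff] at ha'
  have hv0 : 0 < A.valuation ϖ := zero_lt_iff.2 h.val_ne_zero
  have hj1 : 1 ≤ j := by
    by_contra hcon
    have hj0 : j ≤ 0 := by omega
    have : 1 ≤ A.valuation ϖ ^ j := by
      obtain ⟨n, rfl⟩ : ∃ n : ℕ, j = -n := ⟨(-j).toNat, by omega⟩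
      rw [zpow_neg, zpow_natCast]
      exact (one_le_inv₀ (pow_pos hv0 n)).2 (pow_le_one₀ zero_le h.val_lt_one.le)
    rw [hj] at ha'
    exact absurd ha' (not_lt.2 this)
  obtain ⟨n, rfl⟩ : ∃ n : ℕ, j = n + 1 := ⟨(j - 1).toNat, by omega⟩
  rw [hj]
  have : A.valuation ϖ ^ ((n : ℤ) + 1) = A.valuation ϖ ^ (n + 1) := by
    rw [← zpow_natCast]; push_cast; rfl
  rw [this, pow_succ]
  exact mul_le_of_le_one_left' (pow_le_one₀ zero_le h.val_lt_one.le)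

theorem Unif.exists_eq_mul_pow (h : Unif A p ϖ) {a : Qb} (ha : InK A ϖ a) (ha0 : a ≠ 0)
    (ha' : a ∈ A.nonunits) :
    ∃ (i : ℕ) (y : Qb), 1 ≤ i ∧ InK A ϖ y ∧ A.valuation y = 1 ∧ a = y * ϖ ^ i := by
  obtain ⟨j, hj⟩ := h.exists_val_eq_zpow ha ha0
  rw [ValuationSubring.mem_nonunits_iff] at ha'
  have hv0 : 0 < A.valuation ϖ := zero_lt_iff.2 h.val_ne_zero
  have hj1 : 1 ≤ j := by
    by_contra hcon
    have hj0 : j ≤ 0 := by omega
    have : 1 ≤ A.valuation ϖ ^ j := by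
      obtain ⟨n, rfl⟩ : ∃ n : ℕ, j = -n := ⟨(-j).toNat, by omega⟩
      rw [zpow_neg, zpow_natCast]
      exact (one_le_inv₀ (pow_pos hv0 n)).2 (pow_le_one₀ zero_le h.val_lt_one.le)
    rw [hj] at ha'
    exact absurd ha' (not_lt.2 this)
  obtain ⟨n, rfl⟩ : ∃ n : ℕ, j = n := ⟨j.toNat, by omega⟩
  have hϖ : ϖ ^ n ≠ 0 := pow_ne_zero _ h.ne_zero
  refine ⟨n, a / ϖ ^ n, by omega, ha.div (inK_self.pow n), ?_, ?_⟩
  · rw [map_div₀, hj, zpow_natCast, map_pow]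
    exact div_self (pow_ne_zero _ h.val_ne_zero)
  · rw [div_mul_cancel₀ _ hϖ]

end T4

end Fermat.Agent.S56.Flat.Irr
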