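/-
S56 / FLAT / IRR (architect helper78), task IRR-U0 (helper292): the unit filtration `UU A ϖ j` of
`K0(ϖ)` and the leading coefficient `lc A ϖ j`: group laws, additivity, kernel.
-/
import Fermat.Agent.S56.Flat.Irr.Defs
import Fermat.Agent.S56.Flat.Irr.ValGroup

set_option autoImplicit false

namespace Fermat.Agent.S56.Flat.Irr

open Fermat.Agent.Lib.InertiaField

variable {A : ValuationSubring Qb} {p : ℕ} {ϖ : Qb}

/-! ## IRR-U0 (file `UU.lean`): the unit filtration and the leading coefficient -/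
section U0

theorem Unif.UU_val_pow_pos (h : Unif A p ϖ) (j : ℕ) : 0 < A.valuation ϖ ^ j :=
  zero_lt_iff.2 (pow_ne_zero _ h.val_ne_zero)

theorem Unif.UU_val_pow_lt_one (h : Unif A p ϖ) {j : ℕ} (hj : 1 ≤ j) : A.valuation ϖ ^ j < 1 :=
  pow_lt_one₀ zero_le h.val_lt_one (by omega)

theorem Unif.UU_sub_one_lt (h : Unif A p ϖ) {j : ℕ} (hj : 1 ≤ j) {a : Qb} (ha : a ∈ UU A ϖ j) :
    A.valuation (a - 1) < 1 :=
  lt_of_le_of_lt ha.2 (h.UU_val_pow_lt_one hj)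

theorem UU_anti {j j' : ℕ} (h : Unif A p ϖ) (hjj : j ≤ j') : UU A ϖ j' ⊆ UU A ϖ j := by
  intro a ha
  exact ⟨ha.1, ha.2.trans (pow_le_pow_of_le_one zero_le h.val_lt_one.le hjj)⟩

theorem one_mem_UU (j : ℕ) : (1 : Qb) ∈ UU A ϖ j := by
  refine ⟨InK.one, ?_⟩
  rw [sub_self, map_zero]
  exact zero_le

theorem Unif.UU_val (h : Unif A p ϖ) {j : ℕ} (hj : 1 ≤ j) {a : Qb} (ha : a ∈ UU A ϖ j) :
    A.valuation a = 1 := by
  have h1 := A.valuation.map_one_add_of_lt (h.UU_sub_one_lt hj ha)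
  rwa [add_sub_cancel] at h1

theorem Unif.UU_ne_zero (h : Unif A p ϖ) {j : ℕ} (hj : 1 ≤ j) {a : Qb} (ha : a ∈ UU A ϖ j) :
    a ≠ 0 := by
  intro h0
  have h1 := h.UU_val hj ha
  rw [h0, map_zero] at h1
  exact zero_ne_one h1

theorem Unif.UU_mul (h : Unif A p ϖ) {j : ℕ} (hj : 1 ≤ j) {a b : Qb} (ha : a ∈ UU A ϖ j)
    (hb : b ∈ UU A ϖ j) : a * b ∈ UU A ϖ j := by
  refine ⟨ha.1.mul hb.1, ?_⟩
  have e : a * b - 1 = (a - 1) * b + (b - 1) := by ring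
  rw [e]
  refine (A.valuation.map_add _ _).trans (max_le ?_ hb.2)
  rw [map_mul, h.UU_val hj hb, mul_one]
  exact ha.2

theorem Unif.UU_inv (h : Unif A p ϖ) {j : ℕ} (hj : 1 ≤ j) {a : Qb} (ha : a ∈ UU A ϖ j) :
    a⁻¹ ∈ UU A ϖ j := by
  refine ⟨ha.1.inv, ?_⟩
  have ha0 := h.UU_ne_zero hj ha
  have e : a⁻¹ - 1 = -((a - 1) * a⁻¹) := by field_simp; ring
  rw [e, Valuation.map_neg, map_mul, map_inv₀, h.UU_val hj ha, inv_one, mul_one]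
  exact ha.2

theorem Unif.UU_div (h : Unif A p ϖ) {j : ℕ} (hj : 1 ≤ j) {a b : Qb} (ha : a ∈ UU A ϖ j)
    (hb : b ∈ UU A ϖ j) : a / b ∈ UU A ϖ j := by
  rw [div_eq_mul_inv]
  exact h.UU_mul hj ha (h.UU_inv hj hb)

theorem Unif.div_mem_of_mem_UU (h : Unif A p ϖ) {j : ℕ} {a : Qb} (ha : a ∈ UU A ϖ j) :
    (a - 1) / ϖ ^ j ∈ A := by
  rw [← A.valuation_le_one_iff, map_div₀, map_pow, div_le_one₀ (h.UU_val_pow_pos j)]
  exact ha.2

theorem Unif.lc_one (h : Unif A p ϖ) (j : ℕ) : lc A ϖ j 1 = 0 := by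
  rw [lc, sub_self, zero_div, rs_zero]

theorem Unif.lc_mul (h : Unif A p ϖ) {j : ℕ} (hj : 1 ≤ j) {a b : Qb} (ha : a ∈ UU A ϖ j)
    (hb : b ∈ UU A ϖ j) : lc A ϖ j (a * b) = lc A ϖ j a + lc A ϖ j b := by
  have hx := h.div_mem_of_mem_UU ha
  have hy := h.div_mem_of_mem_UU hb
  have hb1 : b - 1 ∈ A.nonunits := A.mem_nonunits_iff.2 (h.UU_sub_one_lt hj hb)
  have hb1' : b - 1 ∈ A := A.nonunits_subset hb1
  have e : (a * b - 1) / ϖ ^ j =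
      (a - 1) / ϖ ^ j + (b - 1) / ϖ ^ j + (a - 1) / ϖ ^ j * (b - 1) := by
    have := pow_ne_zero j h.ne_zero
    field_simp
    ring
  rw [lc, lc, lc, e, rs_add (A.add_mem _ _ hx hy) (A.mul_mem _ _ hx hb1'), rs_add hx hy,
    rs_mul hx hb1', (rs_eq_zero_iff hb1').2 hb1, mul_zero, add_zero]

theorem Unif.lc_inv (h : Unif A p ϖ) {j : ℕ} (hj : 1 ≤ j) {a : Qb} (ha : a ∈ UU A ϖ j) :
    lc A ϖ j a⁻¹ = - lc A ϖ j a := by
  have h1 := h.lc_mul hj ha (h.UU_inv hj ha)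
  rw [mul_inv_cancel₀ (h.UU_ne_zero hj ha), h.lc_one] at h1
  exact (neg_eq_of_add_eq_zero_right h1.symm).symm

theorem Unif.lc_div (h : Unif A p ϖ) {j : ℕ} (hj : 1 ≤ j) {a b : Qb} (ha : a ∈ UU A ϖ j)
    (hb : b ∈ UU A ϖ j) : lc A ϖ j (a / b) = lc A ϖ j a - lc A ϖ j b := by
  rw [div_eq_mul_inv, h.lc_mul hj ha (h.UU_inv hj hb), h.lc_inv hj hb, sub_eq_add_neg]

/-- uses T4 (`val_le_of_mem_nonunits`) -/
theorem Unif.lc_eq_zero_iff (h : Unif A p ϖ) {j : ℕ} {a : Qb} (ha : a ∈ UU A ϖ j) :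
    lc A ϖ j a = 0 ↔ a ∈ UU A ϖ (j + 1) := by
  have hx := h.div_mem_of_mem_UU ha
  have hxK : InK A ϖ ((a - 1) / ϖ ^ j) := (ha.1.sub InK.one).div (inK_self.pow j)
  have hpos := h.UU_val_pow_pos (A := A) j
  rw [lc, rs_eq_zero_iff hx]
  constructor
  · intro hn
    refine ⟨ha.1, ?_⟩
    have h1 := h.val_le_of_mem_nonunits hxK hn
    rw [map_div₀, map_pow, div_le_iff₀ hpos] at h1
    rw [pow_succ']
    exact h1
  · intro ha'
    rw [A.mem_nonunits_iff, map_div₀, map_pow, div_lt_one₀ hpos]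
    refine lt_of_le_of_lt ha'.2 ?_
    rw [pow_succ']
    exact mul_lt_of_lt_one_left hpos h.val_lt_one

/-- `1 + y ϖ ^ j` -/
theorem Unif.one_add_mem_UU (h : Unif A p ϖ) {j : ℕ} {y : Qb} (hy : InK A ϖ y) (hyA : y ∈ A) :
    1 + y * ϖ ^ j ∈ UU A ϖ j ∧ lc A ϖ j (1 + y * ϖ ^ j) = rs A y := by
  refine ⟨⟨InK.one.add (hy.mul (inK_self.pow j)), ?_⟩, ?_⟩
  · rw [add_sub_cancel_left, map_mul, map_pow]
    exact mul_le_of_le_one_left zero_le ((A.valuation_le_one_iff y).2 hyA)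
  · rw [lc, add_sub_cancel_left, mul_div_assoc, div_self (pow_ne_zero j h.ne_zero), mul_one]

end U0

end Fermat.Agent.S56.Flat.Irr
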