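/-
S56 / FLAT / IRR (architect helper78), task IRR-C9: Fontaine's bound for the Kummer families of a flat
cocycle: Hilbert 90 (`Unif.exists_kummer`) + RAM (`FlatLoc.kummer_level`) give `Level (p ^ 2 - 1)`.
(helper245, task 3164)
-/
import Fermat.Agent.S56.Flat.Irr.Defs2
import Fermat.Agent.S56.Flat.Irr.GenBasic
import Fermat.Agent.S56.Flat.Irr.ShapeBasic
import Fermat.Agent.S56.Flat.Irr.Kummer
import Fermat.Agent.S56.Flat.Irr.UU
import Fermat.Agent.S56.Flat.Export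

set_option autoImplicit false

namespace Fermat.Agent.S56.Flat.Irr

open Fermat.Agent.Lib.InertiaField
open Fermat.Agent.S53 (M2)

variable {A : ValuationSubring Qb} {p : ℕ} {ϖ : Qb}
variable {k : Type} [Field k] {H : Type} [Group H] {f : H →* GQ} {s : GQ →* M2 k}

/-- `I' = {x | f x ∈ Iner A, f x ϖ = ϖ}` as a subgroup of `H`. -/
def flatKC_sub (A : ValuationSubring Qb) (ϖ : Qb) (f : H →* GQ) : Subgroup H where
  carrier := {x | f x ∈ Iner A ∧ f x ϖ = ϖ}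
  mul_mem' := by
    rintro x y ⟨hx1, hx2⟩ ⟨hy1, hy2⟩
    refine ⟨by rw [map_mul]; exact mul_mem hx1 hy1, ?_⟩
    rw [map_mul, AlgEquiv.mul_apply, hy2, hx2]
  one_mem' := ⟨by rw [map_one]; exact one_mem _, by rw [map_one]; rfl⟩
  inv_mem' := by
    rintro x ⟨hx1, hx2⟩
    refine ⟨by rw [map_inv]; exact inv_mem hx1, ?_⟩
    rw [map_inv]
    have h1 : (f x)⁻¹ (f x ϖ) = ϖ := by
      rw [← AlgEquiv.mul_apply, inv_mul_cancel]; rfl
    rwa [hx2] at h1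

section C9
variable [CharP k p] {u : H → M2 k}

/-- Hilbert 90: every character of the family has a Kummer generator. -/
theorem flatKC_exists_gen (h : Unif A p ϖ) (hs1 : ∀ σ ∈ Iner A, σ ϖ = ϖ → s σ = 1)
    {ζ : Qb} (hζ : ζ ^ p = 1) (hco : IsMCoc f s u) (i j : Fin 2) (z : k) :
    ∃ α, Gen A p ϖ ζ f u i j z α := by
  obtain ⟨α, hα0, hα⟩ := h.exists_kummer (f.comp (flatKC_sub A ϖ f).subtype) (fun x => x.2)
    (fun x => chr p ζ (z * u x i j)) (fun x => chr_pow hζ _)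
    (fun x y => by
      have e : u ((x * y : flatKC_sub A ϖ f) : H) = u x + u y :=
        hco.map_mul_of_eq_one (hs1 _ x.2.1 x.2.2) y
      rw [e, Matrix.add_apply, mul_add, chr_add h.prime hζ])
    (by
      obtain ⟨N, hN, hNu⟩ := hco.level
      refine ⟨N, hN, fun n hn => ?_⟩
      rw [hNu n hn, Matrix.zero_apply, mul_zero, chr_zero])
  exact ⟨α, hα0, fun x hx1 hx2 => hα ⟨x, hx1, hx2⟩⟩

theorem level_of_flatData (h : Unif A p ϖ) (hf : IsLocMap A f)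
    (hs1 : ∀ σ ∈ Iner A, σ ϖ = ϖ → s σ = 1) (hs2 : ∀ σ ∈ Iner A, s σ = 1 → σ ϖ = ϖ)
    {ζ : Qb} (hζ : ζ ^ p = 1) (hu : FlatData A p f s u) (i j : Fin 2) :
    Level A p ϖ (Gen A p ϖ ζ f u i j) (p ^ 2 - 1) := by
  obtain ⟨hco, W, iW1, iW2, hfin, hpW, hflat, htriv⟩ := hu
  intro z
  obtain ⟨α, hGen⟩ := flatKC_exists_gen h hs1 hζ hco i j z
  have hα0 : α ≠ 0 := hGen.ne_zero
  have ha : InK A ϖ (α ^ p) := hGen.pow_inK hf hζ
  have hfixϖ : ∀ σ : ↥(Iner A), ActsTriv W σ → σ.1 ϖ = ϖ := fun σ hσ =>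
    hs2 σ.1 σ.2 (htriv σ hσ).1
  have hfixα : ∀ σ : ↥(Iner A), ActsTriv W σ → σ.1 α = α := by
    intro σ hσ
    obtain ⟨x, hx⟩ := hf.surj σ.1 (inertia_le_decomposition A σ.2)
    have h1 := hGen.2 x (by rw [hx]; exact σ.2) (by rw [hx]; exact hfixϖ σ hσ)
    rw [(htriv σ hσ).2 x hx, Matrix.zero_apply, mul_zero, chr_zero, one_mul, hx] at h1
    exact h1
  have hpe : (p - 1) ∣ p ^ 2 - 1 := by simpa using Nat.sub_dvd_pow_sub_pow p 1 2
  obtain ⟨b, hb0, hb, hval⟩ := hflat.kummer_level h.prime h.odd h.lies hpW (p ^ 2 - 1) h.not_dvd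
    hpe ϖ h.pow (α ^ p) α (pow_ne_zero _ hα0) (fun σ hσ => ha σ.1 σ.2 hσ) rfl hfixϖ hfixα
  have hGen' : Gen A p ϖ ζ f u i j z (α * b) :=
    hGen.mul_inK (fun σ hσ hσϖ => hb ⟨σ, hσ⟩ hσϖ) hb0
  refine ⟨α * b, hGen', hGen'.pow_inK hf hζ, ?_⟩
  rw [mul_pow, h.val_pow]
  exact hval

omit [CharP k p] in
theorem flatKC_s_eq_one (h : Unif A p ϖ) (Sh : Shape A p ϖ s) {σ : GQ} (hσ : σ ∈ Iner A)
    (hϖ : σ ϖ = ϖ) : s σ = 1 := by
  have h1 : Sh.θ σ = 1 := by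
    apply Sh.jj.injective
    rw [Sh.jj_θ σ hσ, map_one, h.rs_xi_eq_one_iff]
    exact hϖ
  rw [Sh.diag σ hσ, h1, one_pow]
  exact Matrix.one_fin_two.symm

omit [CharP k p] in
theorem flatKC_fix_of_s_eq_one (h : Unif A p ϖ) (Sh : Shape A p ϖ s) {σ : GQ} (hσ : σ ∈ Iner A)
    (hs : s σ = 1) : σ ϖ = ϖ := by
  have h1 : Sh.θ σ = 1 := by
    have h2 := congrFun (congrFun (Sh.diag σ hσ) 0) 0
    rw [hs] at h2
    simpa using h2.symm
  rw [← h.rs_xi_eq_one_iff, ← Sh.jj_θ σ hσ, h1, map_one]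

theorem KC_of_flatData (h : Unif A p ϖ) (Sh : Shape A p ϖ s) (hf : IsLocMap A f)
    (hu : FlatData A p f s u) : KC A p ϖ Sh.ζ f u :=
  ⟨level_of_flatData h hf (fun _ hσ hϖ => flatKC_s_eq_one h Sh hσ hϖ)
      (fun _ hσ hs => flatKC_fix_of_s_eq_one h Sh hσ hs) Sh.ζ_pow hu 0 1,
    level_of_flatData h hf (fun _ hσ hϖ => flatKC_s_eq_one h Sh hσ hϖ)
      (fun _ hσ hs => flatKC_fix_of_s_eq_one h Sh hσ hs) Sh.ζ_pow hu 0 0⟩

end C9

end Fermat.Agent.S56.Flat.Irr
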