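/-
S56 / FLAT / IRR (architect helper78), task IRR-C4 (proved by helper249):
the two Kummer families, and the action of `φ²`.
-/
import Fermat.Agent.S56.Flat.Irr.Defs2
import Fermat.Agent.S56.Flat.Irr.GenBasic
import Fermat.Agent.S56.Flat.Irr.ShapeBasic

set_option autoImplicit false

namespace Fermat.Agent.S56.Flat.Irr

open Fermat.Agent.Lib.InertiaField
open Fermat.Agent.S53 (M2)

variable {A : ValuationSubring Qb} {p : ℕ} {ϖ : Qb}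
variable {k : Type} [Field k] {H : Type} [Group H] {f : H →* GQ} {s : GQ →* M2 k}

section C4
variable [CharP k p] {u : H → M2 k}

/-- the formal fields of `KFam`. -/
private theorem kfamGen_mk (h : Unif A p ϖ) (Sh : Shape A p ϖ s) (hf : IsLocMap A f) (i j : Fin 2)
    (m : GQ → k)
    (hs : ∀ τ ∈ Iner A, ∀ z α, Gen A p ϖ Sh.ζ f u i j z α →
      Gen A p ϖ Sh.ζ f u i j (m τ * z) (τ α)) :
    KFam A p ϖ m (Gen A p ϖ Sh.ζ f u i j) where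
  ne_zero := fun _ _ hα => hα.ne_zero
  mul := fun _ _ _ _ hα hα' => hα.mul h.prime Sh.ζ_pow hα'
  pow_inK := fun _ _ hα => hα.pow_inK hf Sh.ζ_pow
  div_inK := fun _ _ _ hα hα' => hα.div_inK h.prime hf Sh.ζ_pow hα'
  mul_inK := fun _ _ _ hα hb hb0 => hα.mul_inK hb hb0
  smul := hs

omit [CharP k p] in
/-- every Galois conjugate of `ζ` is a power of `ζ`. -/
private theorem kfamGen_exists_pow (h : Unif A p ϖ) (Sh : Shape A p ϖ s) (τ : GQ) :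
    ∃ n : ℕ, τ Sh.ζ = Sh.ζ ^ n := by
  haveI : Fact p.Prime := ⟨h.prime⟩
  have hprim : IsPrimitiveRoot Sh.ζ p := by
    have := IsPrimitiveRoot.orderOf Sh.ζ
    rwa [orderOf_eq_prime Sh.ζ_pow Sh.ζ_ne] at this
  have h1 : (τ Sh.ζ) ^ p = 1 := by rw [← map_pow, Sh.ζ_pow, map_one]
  obtain ⟨n, -, hn⟩ := hprim.eq_pow_of_pow_eq_one h1
  exact ⟨n, hn.symm⟩

omit [CharP k p] in
/-- local copy of `Shape.s_eq_one` (with the hypothesis `Sh`). -/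
private theorem kfamGen_s_eq_one (h : Unif A p ϖ) (Sh : Shape A p ϖ s) {σ : GQ} (hσ : σ ∈ Iner A)
    (hϖ : σ ϖ = ϖ) : s σ = 1 := by
  rw [Sh.diag σ hσ, Sh.θ_eq_one h hσ hϖ, one_pow]
  exact Matrix.one_fin_two.symm

omit [CharP k p] in
/-- local copy of `Shape.conj_inertia_00` (with the hypothesis `Sh`). -/
private theorem kfamGen_conj_00 (h : Unif A p ϖ) (Sh : Shape A p ϖ s) {σ : GQ} (hσ : σ ∈ Iner A)
    (m : M2 k) : (s σ⁻¹ * m * s σ⁻¹⁻¹) 0 0 = m 0 0 := by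
  rw [inv_inv, Sh.diag σ hσ, Sh.diag σ⁻¹ (inv_mem hσ), Sh.θ_inv h hσ]
  have h0 := Sh.θ_ne_zero h hσ
  simp only [Matrix.mul_apply, Fin.sum_univ_two, Matrix.of_apply, Matrix.cons_val_zero,
    Matrix.cons_val_one, Matrix.cons_val', Matrix.cons_val_fin_one]
  field_simp
  ring

theorem kfam_u (h : Unif A p ϖ) (Sh : Shape A p ϖ s) (hf : IsLocMap A f) (hu : IsMCoc f s u) :
    KFam A p ϖ (fun τ => Sh.θ τ ^ (2 * p)) (Gen A p ϖ Sh.ζ f u 0 1) := by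
  refine kfamGen_mk h Sh hf 0 1 _ ?_
  intro τ hτ z α hα
  obtain ⟨n, hn⟩ := kfamGen_exists_pow h Sh τ
  have hc : ∀ y x, f y = τ⁻¹ → f x ∈ Iner A → f x ϖ = ϖ →
      u (y * x * y⁻¹) 0 1 = Sh.θ τ ^ (p - 1) * u x 0 1 := by
    intro y x hy hx hxϖ
    rw [hu.map_conj y (kfamGen_s_eq_one h Sh hx hxϖ), hy]
    exact Sh.conj_inertia_01 h hτ (u x)
  have h1 := hα.apply h hf Sh.ζ_pow (inertia_le_decomposition A hτ) hn hc
  have h2 : (n : k) * Sh.θ τ ^ (p - 1) = Sh.θ τ ^ (2 * p) := by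
    rw [Sh.natCast_eq h hτ Sh.ζ_pow Sh.ζ_ne hn, ← pow_add]
    congr 1
    have := h.prime.pos
    omega
  rw [h2] at h1
  exact h1

theorem kfam_h (h : Unif A p ϖ) (Sh : Shape A p ϖ s) (hf : IsLocMap A f) (hu : IsMCoc f s u) :
    KFam A p ϖ (fun τ => Sh.θ τ ^ (p + 1)) (Gen A p ϖ Sh.ζ f u 0 0) := by
  refine kfamGen_mk h Sh hf 0 0 _ ?_
  intro τ hτ z α hα
  obtain ⟨n, hn⟩ := kfamGen_exists_pow h Sh τ
  have hc : ∀ y x, f y = τ⁻¹ → f x ∈ Iner A → f x ϖ = ϖ →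
      u (y * x * y⁻¹) 0 0 = 1 * u x 0 0 := by
    intro y x hy hx hxϖ
    rw [hu.map_conj y (kfamGen_s_eq_one h Sh hx hxϖ), hy, one_mul]
    exact kfamGen_conj_00 h Sh hτ (u x)
  have h1 := hα.apply h hf Sh.ζ_pow (inertia_le_decomposition A hτ) hn hc
  rw [mul_one, Sh.natCast_eq h hτ Sh.ζ_pow Sh.ζ_ne hn] at h1
  exact h1

theorem gen_frob_sq (h : Unif A p ϖ) (Sh : Shape A p ϖ s) (hf : IsLocMap A f) (hu : IsMCoc f s u)
    {z : k} {α : Qb} (hα : Gen A p ϖ Sh.ζ f u 0 1 z α) :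
    Gen A p ϖ Sh.ζ f u 0 1 ((Sh.nψ : k) * z) ((Sh.φ * Sh.φ) α) := by
  have hφ : Sh.φ ∈ A.decompositionSubgroup ℚ := Sh.frob.mem_decompositionSubgroup
  have hc : ∀ y x, f y = (Sh.φ * Sh.φ)⁻¹ → f x ∈ Iner A → f x ϖ = ϖ →
      u (y * x * y⁻¹) 0 1 = 1 * u x 0 1 := by
    intro y x hy hx hxϖ
    rw [hu.map_conj y (kfamGen_s_eq_one h Sh hx hxϖ), hy, one_mul, Sh.conj_frob_sq h (u x)]
  have h1 := hα.apply h hf Sh.ζ_pow (mul_mem hφ hφ) Sh.nψ_spec hc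
  rw [mul_one] at h1
  exact h1

end C4

end Fermat.Agent.S56.Flat.Irr
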