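/-
S56 / FLAT / IRR (architect helper78), task IRR-G (owner helper191): Galois action on `UU j` and on
the leading coefficients.
-/
import Fermat.Agent.S56.Flat.Irr.Defs
import Fermat.Agent.S56.Flat.Irr.UU

set_option autoImplicit false

namespace Fermat.Agent.S56.Flat.Irr

open Fermat.Agent.Lib.InertiaField

variable {A : ValuationSubring Qb} {p : ℕ} {ϖ : Qb}

/-! ## IRR-G (file `GalLc.lean`): Galois action on the leading coefficients -/
section G

theorem Unif.apply_mem_UU (h : Unif A p ϖ) {g : GQ} (hg : g ∈ A.decompositionSubgroup ℚ) {j : ℕ}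
    {a : Qb} (ha : a ∈ UU A ϖ j) : g a ∈ UU A ϖ j := by
  refine ⟨h.inK_apply hg ha.1, ?_⟩
  have : g a - 1 = g (a - 1) := by rw [map_sub, map_one]
  rw [this, val_apply hg]
  exact ha.2

/-- the common computation -/
theorem Unif.galLc_aux (h : Unif A p ϖ) {g : GQ} (hg : g ∈ A.decompositionSubgroup ℚ) {j : ℕ}
    {a : Qb} (ha : a ∈ UU A ϖ j) :
    lc A ϖ j (g a) = rs A (xi ϖ g) ^ j * rs A (g ((a - 1) / ϖ ^ j)) := by
  have hb : (a - 1) / ϖ ^ j ∈ A := h.div_mem_of_mem_UU ha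
  have hgb : g ((a - 1) / ϖ ^ j) ∈ A := by
    rw [← A.valuation_le_one_iff, val_apply hg, A.valuation_le_one_iff]
    exact hb
  have hϖ : ϖ ^ j ≠ 0 := pow_ne_zero _ h.ne_zero
  have e : (g a - 1) / ϖ ^ j = xi ϖ g ^ j * g ((a - 1) / ϖ ^ j) := by
    rw [map_div₀, map_sub, map_one, map_pow, h.apply_eq g, mul_pow]
    have hx : xi ϖ g ^ j ≠ 0 := by
      apply pow_ne_zero
      intro h0
      have := h.val_xi (A := A) g
      rw [h0, map_zero] at this
      exact zero_ne_one this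
    field_simp
  rw [lc, e, rs_mul (pow_mem (h.xi_mem g) j) hgb, rs_pow (h.xi_mem g)]

theorem Unif.lc_inertia (h : Unif A p ϖ) {τ : GQ} (hτ : τ ∈ Iner A) {j : ℕ} {a : Qb}
    (ha : a ∈ UU A ϖ j) : lc A ϖ j (τ a) = rs A (xi ϖ τ) ^ j * lc A ϖ j a := by
  rw [h.galLc_aux (inertia_le_decomposition A hτ) ha, rs_inertia hτ (h.div_mem_of_mem_UU ha), lc]

theorem Unif.lc_actsAsPow (h : Unif A p ϖ) {ψ : GQ} {N : ℕ} (hψ : ActsAsPow A ψ N) {j : ℕ} {a : Qb}
    (ha : a ∈ UU A ϖ j) : lc A ϖ j (ψ a) = rs A (xi ϖ ψ) ^ j * lc A ϖ j a ^ N := by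
  rw [h.galLc_aux hψ.1 ha, rs_actsAsPow hψ (h.div_mem_of_mem_UU ha), lc]

end G

end Fermat.Agent.S56.Flat.Irr
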