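/-
S56 / FLAT / IRR (architect helper78), task IRR-U1 (proof: helper61).
`(1 + x) ^ p = 1 + x ^ p + p x + p x ^ 2 T(x)` with `T ∈ ℤ[X]`.
-/
import Fermat.Agent.S56.Flat.Irr.Defs

set_option autoImplicit false

namespace Fermat.Agent.S56.Flat.Irr

open Fermat.Agent.Lib.InertiaField

variable {A : ValuationSubring Qb} {p : ℕ} {ϖ : Qb}

/-! ## IRR-U1 (file `Binom.lean`): `(1 + x) ^ p = 1 + x ^ p + p x + p x ^ 2 T(x)` -/
section U1

theorem exists_binom_poly (hp : p.Prime) (hp2 : p ≠ 2) :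
    ∃ T : Polynomial ℤ, ∀ x : Qb,
      (1 + x) ^ p = 1 + x ^ p + (p : Qb) * x + (p : Qb) * x ^ 2 * Polynomial.aeval x T := by
  have h3 : 3 ≤ p := by
    have := hp.two_le
    omega
  obtain ⟨q, rfl⟩ : ∃ q, p = q + 3 := ⟨p - 3, by omega⟩
  have hdvd : ∀ k ∈ Finset.range (q + 1), (q + 3) ∣ (q + 3).choose (k + 2) := fun k hk =>
    hp.dvd_choose_self (by omega) (by have := Finset.mem_range.1 hk; omega)
  refine ⟨∑ k ∈ Finset.range (q + 1),
    Polynomial.C ((((q + 3).choose (k + 2) / (q + 3) : ℕ) : ℤ)) * Polynomial.X ^ k, fun x => ?_⟩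
  have hsum : ∑ k ∈ Finset.range (q + 1), x ^ (k + 2) * (((q + 3).choose (k + 2) : ℕ) : Qb) =
      ((q + 3 : ℕ) : Qb) * x ^ 2 * Polynomial.aeval x (∑ k ∈ Finset.range (q + 1),
        Polynomial.C ((((q + 3).choose (k + 2) / (q + 3) : ℕ) : ℤ)) * Polynomial.X ^ k) := by
    rw [map_sum, Finset.mul_sum]
    refine Finset.sum_congr rfl fun k hk => ?_
    obtain ⟨c, hc⟩ := hdvd k hk
    rw [hc, Nat.mul_div_cancel_left _ (by omega : 0 < q + 3), map_mul, map_pow,
      Polynomial.aeval_X, Polynomial.aeval_C]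
    simp only [Nat.cast_mul, eq_intCast, Int.cast_natCast]
    ring
  rw [← hsum, add_comm 1 x, add_pow, Finset.sum_range_succ, Finset.sum_range_succ',
    Finset.sum_range_succ']
  simp only [one_pow, mul_one, pow_zero, Nat.choose_zero_right, Nat.cast_one, zero_add, pow_one,
    Nat.choose_one_right, Nat.choose_self]
  ring

end U1

end Fermat.Agent.S56.Flat.Irr
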