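/-
S56 / FLAT / IRR (architect helper78), task IRR-U2: `p`-th powers of elements of `K0(ϖ)` have no
leading term at a level `j` prime to `p`, `j < p ^ 2 + p`.
-/
import Fermat.Agent.S56.Flat.Irr.Defs
import Fermat.Agent.S56.Flat.Irr.UU
import Fermat.Agent.S56.Flat.Irr.Binom

set_option autoImplicit false

namespace Fermat.Agent.S56.Flat.Irr

open Fermat.Agent.Lib.InertiaField

variable {A : ValuationSubring Qb} {p : ℕ} {ϖ : Qb}

/-! ## IRR-U2 (file `PowLevel.lean`): `p`-th powers have no leading term at a level prime to `p`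

`b` is a unit; `b ^ p ≡ 1` forces `b ≡ 1` (characteristic `p`); `b = 1 + y ϖ ^ i`, `y` a
unit (T4).  By U1 `b ^ p - 1 = y ^ p ϖ ^ (p i) + p y ϖ ^ i + ...`, `val p = val ϖ ^ (p ^ 2 - 1)`:
exact level `p i` if `i < p + 1`, level `≥ p ^ 2 + p` if `i ≥ p + 1`. -/
section U2

private theorem PowLevel.val_pow_anti (h : Unif A p ϖ) {m n : ℕ} (hmn : m ≤ n) :
    A.valuation ϖ ^ n ≤ A.valuation ϖ ^ m :=
  pow_le_pow_right_of_le_one' h.val_lt_one.le hmn

private theorem PowLevel.val_pow_lt (h : Unif A p ϖ) {m n : ℕ} (hmn : m < n) :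
    A.valuation ϖ ^ n < A.valuation ϖ ^ m :=
  pow_lt_pow_right_of_lt_one₀ (zero_lt_iff.2 h.val_ne_zero) h.val_lt_one hmn

/-- the terms divisible by `p` -/
private theorem PowLevel.val_tail (h : Unif A p ϖ) {y : Qb} (hy : A.valuation y = 1) (i : ℕ)
    (T : Polynomial ℤ) :
    A.valuation ((p : Qb) * (y * ϖ ^ i) +
      (p : Qb) * (y * ϖ ^ i) ^ 2 * Polynomial.aeval (y * ϖ ^ i) T) ≤
        A.valuation ϖ ^ (p ^ 2 - 1 + i) := by
  set x := y * ϖ ^ i with hx
  have hxv : A.valuation x = A.valuation ϖ ^ i := by rw [hx, map_mul, hy, one_mul, map_pow]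
  have hxA : x ∈ A := by
    rw [← A.valuation_le_one_iff, hxv]; exact pow_le_one' h.val_lt_one.le i
  have hu : 1 + x * Polynomial.aeval x T ∈ A :=
    A.add_mem _ _ A.one_mem (A.mul_mem _ _ hxA (aeval_int_mem hxA T))
  have he : (p : Qb) * x + (p : Qb) * x ^ 2 * Polynomial.aeval x T =
      (p : Qb) * x * (1 + x * Polynomial.aeval x T) := by ring
  rw [he, map_mul, map_mul, hxv, ← h.val_pow, ← pow_add]
  exact mul_le_of_le_one_right' ((A.valuation_le_one_iff _).2 hu)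

private theorem PowLevel.arith1 {p i : ℕ} (hp : 3 ≤ p) (hi : i ≤ p) :
    p * i + 1 ≤ p ^ 2 - 1 + i := by
  obtain ⟨d, rfl⟩ := Nat.exists_eq_add_of_le hi
  have h1 : 1 ≤ (i + d) ^ 2 := Nat.one_le_pow _ _ (by omega)
  have h2 : (i + d) * i + 2 ≤ (i + d) ^ 2 + i := by
    rcases Nat.eq_zero_or_pos d with rfl | hd
    · nlinarith
    · nlinarith
  omega

private theorem PowLevel.arith2 {p i : ℕ} (hp : 3 ≤ p) (hi : p + 1 ≤ i) :
    p ^ 2 + p ≤ p * i ∧ p ^ 2 + p ≤ p ^ 2 - 1 + i := by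
  have h1 : 1 ≤ p ^ 2 := Nat.one_le_pow _ _ (by omega)
  refine ⟨by nlinarith, by omega⟩

set_option linter.unusedVariables false in
theorem Unif.pow_mem_UU_succ (h : Unif A p ϖ) {b : Qb} (hb : InK A ϖ b) (hb0 : b ≠ 0) {j : ℕ}
    (hj1 : 1 ≤ j) (hj : b ^ p ∈ UU A ϖ j) (hpj : ¬ p ∣ j) (hlt : j < p ^ 2 + p) :
    b ^ p ∈ UU A ϖ (j + 1) := by
  have hp0 : p ≠ 0 := h.prime.ne_zero
  -- `b` is a unit
  have hbv : A.valuation b = 1 := by
    have h1 := h.UU_val hj1 hj
    rw [map_pow] at h1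
    exact (pow_eq_one_iff.1 h1).resolve_right hp0
  have hbA : b ∈ A := (A.valuation_le_one_iff _).1 hbv.le
  -- `b ≡ 1`
  have hb1 : b - 1 ∈ A.nonunits := by
    have := charP_kb h.prime h.lies
    have := Fact.mk h.prime
    rw [← rs_eq_iff hbA A.one_mem, rs_one]
    have h2 : rs A (b ^ p) = 1 := by
      rw [← rs_one (A := A), rs_eq_iff (A.pow_mem hbA p) A.one_mem,
        ValuationSubring.mem_nonunits_iff]
      exact lt_of_le_of_lt hj.2 (pow_lt_one' h.val_lt_one (by omega))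
    rw [rs_pow hbA] at h2
    have h3 : (rs A b - 1) ^ p = 0 := by rw [sub_pow_char, h2, one_pow, sub_self]
    exact sub_eq_zero.1 ((pow_eq_zero_iff hp0).1 h3)
  by_cases hb1' : b = 1
  · rw [hb1', one_pow]; exact one_mem_UU _
  obtain ⟨i, y, hi1, hyK, hyv, hy⟩ :=
    h.exists_eq_mul_pow (hb.sub InK.one) (sub_ne_zero.2 hb1') hb1
  obtain ⟨T, hT⟩ := exists_binom_poly h.prime h.odd
  have hbp : b ^ p - 1 = (y * ϖ ^ i) ^ p + ((p : Qb) * (y * ϖ ^ i) +
      (p : Qb) * (y * ϖ ^ i) ^ 2 * Polynomial.aeval (y * ϖ ^ i) T) := by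
    have hb' : b = 1 + y * ϖ ^ i := by rw [← hy]; ring
    rw [hb', hT]; ring
  have htail := PowLevel.val_tail h hyv i T
  have hlead : A.valuation ((y * ϖ ^ i) ^ p) = A.valuation ϖ ^ (p * i) := by
    rw [map_pow, map_mul, hyv, one_mul, map_pow, ← pow_mul, mul_comm]
  refine ⟨hj.1, ?_⟩
  have key : j + 1 ≤ p * i ∧ j + 1 ≤ p ^ 2 - 1 + i := by
    by_cases hi : p + 1 ≤ i
    · have := PowLevel.arith2 h.three_le hi
      omega
    · have hi' : i ≤ p := by omega
      have ha := PowLevel.arith1 h.three_le hi'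
      by_cases hij : j + 1 ≤ p * i
      · omega
      · exfalso
        have h1 : p * i + 1 ≤ j := by
          have : p * i ≠ j := fun he => hpj ⟨i, he.symm⟩
          omega
        have h2 : (y * ϖ ^ i) ^ p = (b ^ p - 1) - ((p : Qb) * (y * ϖ ^ i) +
            (p : Qb) * (y * ϖ ^ i) ^ 2 * Polynomial.aeval (y * ϖ ^ i) T) := by
          rw [hbp]; ring
        have h3 : A.valuation ((y * ϖ ^ i) ^ p) ≤ A.valuation ϖ ^ (p * i + 1) := by
          rw [h2]
          refine A.valuation.map_sub_le ?_ ?_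
          · exact hj.2.trans (PowLevel.val_pow_anti h h1)
          · exact htail.trans (PowLevel.val_pow_anti h ha)
        rw [hlead] at h3
        exact absurd h3 (not_le.2 (PowLevel.val_pow_lt h (Nat.lt_succ_self _)))
  rw [hbp]
  refine A.valuation.map_add_le ?_ ?_
  · rw [hlead]; exact PowLevel.val_pow_anti h key.1
  · exact htail.trans (PowLevel.val_pow_anti h key.2)

end U2

end Fermat.Agent.S56.Flat.Irr
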