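/-
S56 / FLAT / IRR (architect helper78), task IRR-U3: level `p ^ 2` is killed by `p`-th powers.
-/
import Fermat.Agent.S56.Flat.Irr.Defs
import Fermat.Agent.S56.Flat.Irr.UU
import Fermat.Agent.S56.Flat.Irr.Binom

set_option autoImplicit false

namespace Fermat.Agent.S56.Flat.Irr

open Fermat.Agent.Lib.InertiaField

variable {A : ValuationSubring Qb} {p : ℕ} {ϖ : Qb}

/-! ## IRR-U3 (file `RootPsq.lean`): level `p ^ 2` is killed by `p`-th powers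

`a = 1 + x ϖ ^ (p ^ 2) + ...`; take `y ∈ K0 A ∩ A` with `y ^ p ≡ - x` (the residue field is
algebraically closed, `exists_mem_K0_rs_eq`), `b = 1 + y ϖ ^ p`:
`b ^ p = 1 + y ^ p ϖ ^ (p ^ 2) + p y ϖ ^ p (...)` and `val (p ϖ ^ p) = val ϖ ^ (p ^ 2 + p - 1)`. -/
section U3

/-- `(1 + y ϖ ^ p) ^ p = 1 + (y ^ p + ϖ r) ϖ ^ (p ^ 2)` with `r ∈ A`. -/
theorem RootPsq_expand (h : Unif A p ϖ) {y : Qb} (hyA : y ∈ A) :
    ∃ r ∈ A, (1 + y * ϖ ^ p) ^ p = 1 + (y ^ p + ϖ * r) * ϖ ^ (p ^ 2) := by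
  obtain ⟨T, hT⟩ := exists_binom_poly (p := p) h.prime h.odd
  have h3 : 3 ≤ p := h.three_le
  have hϖA : ϖ ∈ A := h.mem
  have hxA : y * ϖ ^ p ∈ A := A.mul_mem _ _ hyA (pow_mem hϖA _)
  refine ⟨y * ϖ ^ (p - 2) + y ^ 2 * ϖ ^ (2 * p - 2) * Polynomial.aeval (y * ϖ ^ p) T, ?_, ?_⟩
  · exact A.add_mem _ _ (A.mul_mem _ _ hyA (pow_mem hϖA _))
      (A.mul_mem _ _ (A.mul_mem _ _ (pow_mem hyA _) (pow_mem hϖA _)) (aeval_int_mem hxA T))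
  · rw [hT, ← h.pow]
    have hsq : 1 ≤ p ^ 2 := Nat.one_le_pow _ _ (by omega)
    have e1 : (y * ϖ ^ p) ^ p = y ^ p * ϖ ^ (p ^ 2) := by
      rw [mul_pow, ← pow_mul, sq]
    have e2 : ϖ ^ (p ^ 2 - 1) * (y * ϖ ^ p) = ϖ * (y * ϖ ^ (p - 2)) * ϖ ^ (p ^ 2) := by
      have : ϖ ^ (p ^ 2 - 1) * ϖ ^ p = ϖ * ϖ ^ (p - 2) * ϖ ^ (p ^ 2) := by
        rw [← pow_add, ← pow_succ', ← pow_add]
        congr 1
        omega
      linear_combination y * this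
    have e3 : ϖ ^ (p ^ 2 - 1) * (y * ϖ ^ p) ^ 2 = ϖ * (y ^ 2 * ϖ ^ (2 * p - 2)) * ϖ ^ (p ^ 2) := by
      have : ϖ ^ (p ^ 2 - 1) * (ϖ ^ p) ^ 2 = ϖ * ϖ ^ (2 * p - 2) * ϖ ^ (p ^ 2) := by
        rw [← pow_mul, ← pow_add, ← pow_succ', ← pow_add]
        congr 1
        omega
      linear_combination y ^ 2 * this
    rw [e1, e2, e3]
    ring

theorem Unif.exists_mul_pow_mem_UU (h : Unif A p ϖ) {a : Qb} (ha : a ∈ UU A ϖ (p ^ 2)) :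
    ∃ b, b ≠ 0 ∧ InK A ϖ b ∧ a * b ^ p ∈ UU A ϖ (p ^ 2 + 1) := by
  have h3 : 3 ≤ p := h.three_le
  have hp1 : 1 ≤ p := by omega
  have hsq : 1 ≤ p ^ 2 := Nat.one_le_pow _ _ (by omega)
  haveI := isAlgClosed_residueField A
  obtain ⟨d, hd⟩ := IsAlgClosed.exists_pow_nat_eq (- lc A ϖ (p ^ 2) a) (n := p) (by omega)
  obtain ⟨y, hyK, hyA, hy⟩ := exists_mem_K0_rs_eq h.prime h.lies d
  have hyI : InK A ϖ y := inK_of_mem_K0 hyK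
  have hb := (h.one_add_mem_UU (j := p) hyI hyA).1
  obtain ⟨r, hrA, hexp⟩ := RootPsq_expand h hyA
  have hϖ0 : ϖ ^ (p ^ 2) ≠ 0 := pow_ne_zero _ h.ne_zero
  have hYA : y ^ p + ϖ * r ∈ A := A.add_mem _ _ (pow_mem hyA _) (A.mul_mem _ _ h.mem hrA)
  have hsub : (1 + y * ϖ ^ p) ^ p - 1 = (y ^ p + ϖ * r) * ϖ ^ (p ^ 2) := by
    rw [hexp]; ring
  have hbp : (1 + y * ϖ ^ p) ^ p ∈ UU A ϖ (p ^ 2) := by
    refine ⟨hb.1.pow p, ?_⟩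
    rw [hsub, map_mul, map_pow]
    exact mul_le_of_le_one_left' ((ValuationSubring.valuation_le_one_iff A _).2 hYA)
  have hlc : lc A ϖ (p ^ 2) ((1 + y * ϖ ^ p) ^ p) = - lc A ϖ (p ^ 2) a := by
    rw [lc, hsub, mul_div_assoc, div_self hϖ0, mul_one,
      rs_add (pow_mem hyA _) (A.mul_mem _ _ h.mem hrA), rs_pow hyA, hy, hd]
    have hz : rs A (ϖ * r) = 0 := by
      rw [rs_mul h.mem hrA, (rs_eq_zero_iff h.mem).2 h.mem_nonunits, zero_mul]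
    rw [hz, add_zero]
  refine ⟨1 + y * ϖ ^ p, h.UU_ne_zero hp1 hb, hb.1, ?_⟩
  have hmul := h.UU_mul hsq ha hbp
  rw [← h.lc_eq_zero_iff hmul, h.lc_mul hsq ha hbp, hlc, add_neg_cancel]

end U3

end Fermat.Agent.S56.Flat.Irr
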