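/-
S56 / FLAT / IRR (architect helper78), task IRR-U4 (proof helper298):
`U ^ (p ^ 2 + p)` consists of `p`-th powers of `K0(ϖ)`.

`G(Y) = ((1 + ϖ ^ (p + 1) Y) ^ p - a) / ϖ ^ (p ^ 2 + p)` is monic with coefficients in `A`, and
`G'(y) = (1 + ϖ ^ (p + 1) y) ^ (p - 1)` is a unit.  A root `y ∈ Qb` is integral over `A`, so `y ∈ A`;
for `σ ∈ Iner A` fixing `ϖ`, `σ y` is a root congruent to `y`, hence `σ y = y`.
-/
import Fermat.Agent.S56.Flat.Irr.Defs
import Fermat.Agent.S56.Flat.Irr.UU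
import Fermat.Agent.S56.Flat.Irr.Binom
import Fermat.Agent.Lib.InertiaField.Hensel

set_option autoImplicit false

namespace Fermat.Agent.S56.Flat.Irr

open Fermat.Agent.Lib.InertiaField Polynomial

variable {A : ValuationSubring Qb} {p : ℕ} {ϖ : Qb}

section U4

theorem RootTop_ne_zero (h : Unif A p ϖ) : ϖ ≠ 0 := by
  rintro rfl
  have h1 := h.pow
  have h2 : p ^ 2 - 1 ≠ 0 := by
    have := h.prime.two_le
    have h3 : 2 ^ 2 ≤ p ^ 2 := Nat.pow_le_pow_left this 2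
    omega
  rw [zero_pow h2] at h1
  exact (Nat.cast_ne_zero.2 h.prime.ne_zero) h1.symm

theorem RootTop_val_lt_one (h : Unif A p ϖ) : A.valuation ϖ < 1 := by
  by_contra hcon
  rw [not_lt] at hcon
  have h1 : A.valuation (p : Qb) < 1 := (A.mem_nonunits_iff).1 h.lies
  rw [← h.pow, map_pow] at h1
  exact absurd h1 (not_lt.2 (one_le_pow₀ hcon))

theorem RootTop_mem (h : Unif A p ϖ) : ϖ ∈ A :=
  (A.valuation_le_one_iff _).1 (RootTop_val_lt_one h).le

/-- `ϖ ^ (p ^ 2 - 1) * ϖ ^ (p + 1) = ϖ ^ (p ^ 2 + p)`. -/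
theorem RootTop_pow_mul (h : Unif A p ϖ) (k : ℕ) :
    (p : Qb) * (ϖ ^ (p + 1)) ^ (k + 1) = ϖ ^ (p ^ 2 + p) * ϖ ^ ((p + 1) * k) := by
  rw [← h.pow, ← pow_mul, ← pow_add, ← pow_add]
  congr 1
  obtain ⟨e, he⟩ : ∃ e, p ^ 2 = e + 1 := ⟨p ^ 2 - 1, by
    have := Nat.pos_of_ne_zero (pow_ne_zero 2 h.prime.ne_zero)
    omega⟩
  rw [he, Nat.add_sub_cancel]
  ring

/-- The polynomial `((1 + ϖ ^ (p + 1) Y) ^ p - a) / ϖ ^ (p ^ 2 + p)`. -/
noncomputable def RootTop_G (p : ℕ) (ϖ a : Qb) : Qb[X] :=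
  C (ϖ ^ (p ^ 2 + p))⁻¹ * ((1 + C (ϖ ^ (p + 1)) * X) ^ p - C a)

theorem RootTop_eval (p : ℕ) (ϖ a y : Qb) :
    (RootTop_G p ϖ a).eval y = (ϖ ^ (p ^ 2 + p))⁻¹ * ((1 + ϖ ^ (p + 1) * y) ^ p - a) := by
  simp [RootTop_G]

theorem RootTop_coeff (p : ℕ) (ϖ a : Qb) (k : ℕ) :
    (RootTop_G p ϖ a).coeff k =
      (ϖ ^ (p ^ 2 + p))⁻¹ * ((p.choose k : Qb) * (ϖ ^ (p + 1)) ^ k - if k = 0 then a else 0) := by
  have h1 : (1 + C (ϖ ^ (p + 1)) * X : Qb[X]) ^ p = ((1 + X) ^ p).comp (C (ϖ ^ (p + 1)) * X) := by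
    simp
  rw [RootTop_G, coeff_C_mul, coeff_sub, h1, comp_C_mul_X_coeff, coeff_one_add_X_pow, coeff_C]

theorem RootTop_coeff_self (h : Unif A p ϖ) (a : Qb) : (RootTop_G p ϖ a).coeff p = 1 := by
  rw [RootTop_coeff, if_neg h.prime.ne_zero, Nat.choose_self, Nat.cast_one, one_mul, sub_zero,
    ← pow_mul]
  have h1 : (p + 1) * p = p ^ 2 + p := by ring
  rw [h1]
  exact inv_mul_cancel₀ (pow_ne_zero _ (RootTop_ne_zero h))

theorem RootTop_coeff_of_lt (a : Qb) {k : ℕ} (hk : p < k) : (RootTop_G p ϖ a).coeff k = 0 := by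
  rw [RootTop_coeff, if_neg (by omega), Nat.choose_eq_zero_of_lt hk]
  simp

theorem RootTop_monic (h : Unif A p ϖ) (a : Qb) : (RootTop_G p ϖ a).Monic :=
  monic_of_natDegree_le_of_coeff_eq_one p
    (natDegree_le_iff_coeff_eq_zero.2 fun _ hN => RootTop_coeff_of_lt a hN)
    (RootTop_coeff_self h a)

theorem RootTop_coeff_mem (h : Unif A p ϖ) {a : Qb}
    (ha : A.valuation (a - 1) ≤ A.valuation ϖ ^ (p ^ 2 + p)) (k : ℕ) :
    (RootTop_G p ϖ a).coeff k ∈ A := by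
  have hϖ0 := RootTop_ne_zero h
  have hc0 : ϖ ^ (p ^ 2 + p) ≠ 0 := pow_ne_zero _ hϖ0
  rcases Nat.eq_zero_or_pos k with rfl | hk0
  · rw [RootTop_coeff, if_pos rfl, Nat.choose_zero_right, Nat.cast_one, pow_zero, one_mul,
      ← A.valuation_le_one_iff, map_mul, map_inv₀, Valuation.map_sub_swap, map_pow]
    have hv : 0 < A.valuation ϖ ^ (p ^ 2 + p) :=
      pow_pos (zero_lt_iff.2 ((_root_.map_ne_zero _).2 hϖ0)) _
    rw [inv_mul_le_iff₀ hv, mul_one]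
    exact ha
  rcases lt_trichotomy k p with hkp | rfl | hkp
  · obtain ⟨m, hm⟩ := h.prime.dvd_choose_self hk0.ne' hkp
    obtain ⟨k', rfl⟩ : ∃ k', k = k' + 1 := ⟨k - 1, by omega⟩
    rw [RootTop_coeff, if_neg (Nat.succ_ne_zero k'), sub_zero, hm, Nat.cast_mul,
      mul_right_comm, RootTop_pow_mul h, mul_assoc, inv_mul_cancel_left₀ hc0]
    exact A.mul_mem _ _ (A.pow_mem (RootTop_mem h) _) (natCast_mem A m)
  · rw [RootTop_coeff_self h]
    exact A.one_mem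
  · rw [RootTop_coeff_of_lt a hkp]
    exact A.zero_mem

theorem RootTop_derivative (h : Unif A p ϖ) (a y : Qb) :
    (RootTop_G p ϖ a).derivative.eval y = (1 + ϖ ^ (p + 1) * y) ^ (p - 1) := by
  have h1 : (RootTop_G p ϖ a).derivative.eval y =
      (ϖ ^ (p ^ 2 + p))⁻¹ * ((p : Qb) * (ϖ ^ (p + 1)) ^ (0 + 1)) *
        (1 + ϖ ^ (p + 1) * y) ^ (p - 1) := by
    simp [RootTop_G, derivative_pow]
    ring
  rw [h1, RootTop_pow_mul h, mul_zero, pow_zero, mul_one,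
    inv_mul_cancel₀ (pow_ne_zero _ (RootTop_ne_zero h)), one_mul]

theorem Unif.exists_pow_eq (h : Unif A p ϖ) {a : Qb} (ha : a ∈ UU A ϖ (p ^ 2 + p)) :
    ∃ b, b ≠ 0 ∧ InK A ϖ b ∧ b ^ p = a := by
  obtain ⟨haK, hav⟩ := ha
  have hϖ0 := RootTop_ne_zero h
  have hc0 : ϖ ^ (p ^ 2 + p) ≠ 0 := pow_ne_zero _ hϖ0
  have hmon := RootTop_monic h a
  have hcoef := RootTop_coeff_mem h hav
  -- a root
  have hdeg : (RootTop_G p ϖ a).degree ≠ 0 := by
    have h1 : (RootTop_G p ϖ a).natDegree = p :=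
      le_antisymm (natDegree_le_iff_coeff_eq_zero.2 fun _ hN => RootTop_coeff_of_lt a hN)
        (le_natDegree_of_ne_zero (by rw [RootTop_coeff_self h]; exact one_ne_zero))
    intro h0
    have h2 := natDegree_eq_of_degree_eq_some h0
    rw [h1] at h2
    exact h.prime.ne_zero h2
  obtain ⟨y, hy⟩ := IsAlgClosed.exists_root _ hdeg
  have hy' : (RootTop_G p ϖ a).eval y = 0 := hy
  -- the root is integral
  have hyA : y ∈ A := by
    obtain ⟨F, hF, hFm⟩ := Hensel.exists_lift A _ hmon hcoef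
    have hint : IsIntegral A y := by
      refine ⟨F, hFm, ?_⟩
      have h1 : (F.map A.subtype).eval y = 0 := by rw [hF]; exact hy'
      rwa [eval_map] at h1
    obtain ⟨z, hz⟩ := IsIntegrallyClosed.isIntegral_iff.1 hint
    rw [← hz]
    exact z.2
  have hdy : A.valuation (ϖ ^ (p + 1) * y) < 1 := by
    rw [map_mul, map_pow]
    have h1 : A.valuation ϖ ^ (p + 1) < 1 := pow_lt_one₀ zero_le (RootTop_val_lt_one h) (by omega)
    exact lt_of_le_of_lt (mul_le_of_le_one_right' ((A.valuation_le_one_iff _).2 hyA)) h1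
  have hb1 : A.valuation (1 + ϖ ^ (p + 1) * y) = 1 := Valuation.map_one_add_of_lt _ hdy
  -- the root is fixed
  have hfix : InK A ϖ y := by
    intro σ hσ hσϖ
    have hroot : (RootTop_G p ϖ a).eval (σ y) = 0 := by
      have h1 := congrArg σ hy'
      rw [RootTop_eval, map_zero] at h1
      simp only [map_mul, map_inv₀, map_pow, map_sub, map_add, map_one, hσϖ, haK σ hσ hσϖ] at h1
      rw [RootTop_eval]
      exact h1
    refine eq_of_roots_congr A _ hmon hcoef hyA ?_ hroot hy'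
      (apply_sub_mem_nonunits A hσ hyA) (by rw [sub_self]; exact Hensel.zero_mem_nonunits A)
    rw [RootTop_derivative h, A.mem_nonunits_iff, map_pow, hb1, one_pow]
    exact lt_irrefl _
  refine ⟨1 + ϖ ^ (p + 1) * y, ?_, ?_, ?_⟩
  · intro h0
    rw [h0, map_zero] at hb1
    exact zero_ne_one hb1
  · intro σ hσ hσϖ
    simp only [map_mul, map_pow, map_add, map_one, hσϖ, hfix σ hσ hσϖ]
  · rw [RootTop_eval] at hy'
    exact sub_eq_zero.1 ((mul_eq_zero.1 hy').resolve_left (inv_ne_zero hc0))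

end U4

end Fermat.Agent.S56.Flat.Irr
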