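/-
S56 / FLAT / IRR (architect helper78), task IRR-E1 (proofs: helper262): the leading coefficient
function of a family of Kummer generators: well defined, additive, equivariant; the levels `p ^ 2`
and `p ^ 2 + p`.
-/
import Fermat.Agent.S56.Flat.Irr.Defs
import Fermat.Agent.S56.Flat.Irr.PowLevel
import Fermat.Agent.S56.Flat.Irr.RootPsq
import Fermat.Agent.S56.Flat.Irr.RootTop
import Fermat.Agent.S56.Flat.Irr.GalLc
import Fermat.Agent.S56.Flat.Irr.Cyc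

set_option autoImplicit false

namespace Fermat.Agent.S56.Flat.Irr

open Fermat.Agent.Lib.InertiaField

variable {A : ValuationSubring Qb} {p : ℕ} {ϖ : Qb}

/-! ## IRR-E1 (file `Lead.lean`): the leading coefficient function of a family -/
section E1

variable {k : Type} [Field k] {m : GQ → k} {Gen : k → Qb → Prop}

theorem lead_inK_mul {a b : Qb} (ha : InK A ϖ a) (hb : InK A ϖ b) : InK A ϖ (a * b) := by
  intro σ hσ hϖ
  rw [map_mul, ha σ hσ hϖ, hb σ hσ hϖ]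

theorem KFam.lc_eq (h : Unif A p ϖ) (F : KFam A p ϖ m Gen) {j : ℕ} (hj1 : 1 ≤ j) (hpj : ¬ p ∣ j)
    (hlt : j < p ^ 2 + p) {z : k} {α α' : Qb} (hα : Gen z α) (hα' : Gen z α')
    (h1 : α ^ p ∈ UU A ϖ j) (h2 : α' ^ p ∈ UU A ϖ j) :
    lc A ϖ j (α ^ p) = lc A ϖ j (α' ^ p) := by
  have hb : InK A ϖ (α / α') := F.div_inK z α α' hα hα'
  have hb0 : α / α' ≠ 0 := div_ne_zero (F.ne_zero z α hα) (F.ne_zero z α' hα')
  have hbp : (α / α') ^ p ∈ UU A ϖ j := by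
    rw [div_pow]
    exact h.UU_div hj1 h1 h2
  have h3 : (α / α') ^ p ∈ UU A ϖ (j + 1) := h.pow_mem_UU_succ hb hb0 hj1 hbp hpj hlt
  have h4 : lc A ϖ j ((α / α') ^ p) = 0 := (h.lc_eq_zero_iff hbp).2 h3
  rw [div_pow, h.lc_div hj1 h1 h2] at h4
  exact sub_eq_zero.1 h4

theorem KFam.exists_lead (h : Unif A p ϖ) (F : KFam A p ϖ m Gen) {j : ℕ} (hj1 : 1 ≤ j)
    (hpj : ¬ p ∣ j) (hlt : j < p ^ 2 + p) (hL : Level A p ϖ Gen j) :
    ∃ x : k → kb A, (∀ z α, Gen z α → α ^ p ∈ UU A ϖ j → lc A ϖ j (α ^ p) = x z) ∧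
      (∀ z z', x (z + z') = x z + x z') ∧
      (∀ τ ∈ Iner A, ∀ z, x (m τ * z) = rs A (xi ϖ τ) ^ j * x z) := by
  choose a ha ha' using hL
  have key : ∀ z α, Gen z α → α ^ p ∈ UU A ϖ j → lc A ϖ j (α ^ p) = lc A ϖ j (a z ^ p) :=
    fun z α hα hα' => F.lc_eq h hj1 hpj hlt hα (ha z) hα' (ha' z)
  refine ⟨fun z => lc A ϖ j (a z ^ p), key, fun z z' => ?_, fun τ hτ z => ?_⟩
  · have h1 : Gen (z + z') (a z * a z') := F.mul z z' _ _ (ha z) (ha z')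
    have h2 : (a z * a z') ^ p ∈ UU A ϖ j := by
      rw [mul_pow]
      exact h.UU_mul hj1 (ha' z) (ha' z')
    change lc A ϖ j (a (z + z') ^ p) = lc A ϖ j (a z ^ p) + lc A ϖ j (a z' ^ p)
    rw [← key _ _ h1 h2, mul_pow, h.lc_mul hj1 (ha' z) (ha' z')]
  · have h1 : Gen (m τ * z) (τ (a z)) := F.smul τ hτ z _ (ha z)
    have h2 : (τ (a z)) ^ p ∈ UU A ϖ j := by
      rw [← map_pow]
      exact h.apply_mem_UU (inertia_le_decomposition A hτ) (ha' z)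
    change lc A ϖ j (a (m τ * z) ^ p) = rs A (xi ϖ τ) ^ j * lc A ϖ j (a z ^ p)
    rw [← key _ _ h1 h2, ← map_pow, h.lc_inertia hτ (ha' z)]

theorem KFam.level_succ_of_lead_zero (h : Unif A p ϖ) {j : ℕ} (hL : Level A p ϖ Gen j)
    (hx : ∀ z α, Gen z α → α ^ p ∈ UU A ϖ j → lc A ϖ j (α ^ p) = 0) :
    Level A p ϖ Gen (j + 1) := by
  intro z
  obtain ⟨α, hα, hα'⟩ := hL z
  exact ⟨α, hα, (h.lc_eq_zero_iff hα').1 (hx z α hα hα')⟩

theorem KFam.level_psq (h : Unif A p ϖ) (F : KFam A p ϖ m Gen) (hL : Level A p ϖ Gen (p ^ 2)) :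
    Level A p ϖ Gen (p ^ 2 + 1) := by
  intro z
  obtain ⟨α, hα, hα'⟩ := hL z
  obtain ⟨b, hb0, hb, hab⟩ := h.exists_mul_pow_mem_UU hα'
  refine ⟨α * b, F.mul_inK z α b hα hb hb0, ?_⟩
  rw [mul_pow]
  exact hab

theorem KFam.inK_of_level_top (h : Unif A p ϖ) (F : KFam A p ϖ m Gen)
    (hL : Level A p ϖ Gen (p ^ 2 + p)) : ∀ z α, Gen z α → InK A ϖ α := by
  intro z α hα
  obtain ⟨α₀, hα₀, hα₀'⟩ := hL z
  obtain ⟨b, hb0, hb, hbp⟩ := h.exists_pow_eq hα₀'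
  have hα₀0 : α₀ ≠ 0 := F.ne_zero z α₀ hα₀
  have hζ : (α₀ / b) ^ p = 1 := by
    rw [div_pow, hbp]
    exact div_self (pow_ne_zero _ hα₀0)
  have h1 : InK A ϖ (α₀ / b) := h.inK_zeta hζ
  have h2 : InK A ϖ α₀ := by
    have := lead_inK_mul h1 hb
    rwa [div_mul_cancel₀ _ hb0] at this
  have h3 : InK A ϖ (α / α₀) := F.div_inK z α α₀ hα hα₀
  have := lead_inK_mul h3 h2
  rwa [div_mul_cancel₀ _ hα₀0] at this

end E1

end Fermat.Agent.S56.Flat.Irr
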