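/-
S56 / FLAT / IRR (architect helper78), node IRR-L1 (task 2824, owner helper169):
an eigenvalue of a semilinear relation is a conjugate.
-/
import Fermat.Agent.S56.Flat.Irr.Defs

set_option autoImplicit false

namespace Fermat.Agent.S56.Flat.Irr

open Fermat.Agent.Lib.InertiaField

variable {A : ValuationSubring Qb} {p : ℕ} {ϖ : Qb}

/-! ## IRR-L1 (file `Semilin.lean`): an eigenvalue of a semilinear relation is a conjugate

`c₁ = g + g ^ p`, `c₀ = g ^ (p + 1)` satisfy `c ^ p = c`, hence are natural numbers `n₁, n₀` in `k`;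
`g ^ 2 + n₀ = n₁ g` gives `γ ^ 2 + n₀ = n₁ γ`, i.e. `(γ - j g)(γ - j g ^ p) = 0`. -/
section L1

theorem exists_natCast_eq_of_pow_eq {k : Type} [Field k] [CharP k p] (hp : p.Prime) {c : k}
    (hc : c ^ p = c) : ∃ n : ℕ, c = (n : k) := by
  have : Fact p.Prime := ⟨hp⟩
  have h1 : c ∈ (⊥ : Subfield k) := (Subfield.mem_bot_iff_pow_eq_self k p).2 hc
  rw [← ZMod.fieldRange_castHom_eq_bot p] at h1
  obtain ⟨z, rfl⟩ := h1
  refine ⟨z.val, ?_⟩
  conv_lhs => rw [← ZMod.natCast_zmod_val z]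
  rw [map_natCast]

theorem eq_of_semilinear {k K : Type} [Field k] [Field K] [CharP k p] (hp : p.Prime)
    (j : k →+* K) (x : k → K) (hadd : ∀ z z', x (z + z') = x z + x z') (g : k)
    (hg : g ^ (p ^ 2) = g) (γ : K) (hx : ∀ z, x (g * z) = γ * x z) (z₀ : k) (hz₀ : x z₀ ≠ 0) :
    γ = j g ∨ γ = j g ^ p := by
  have : Fact p.Prime := ⟨hp⟩
  have hgp : (g ^ p) ^ p = g := by rw [← pow_mul, ← pow_two, hg]
  obtain ⟨n₁, hn₁⟩ := exists_natCast_eq_of_pow_eq (p := p) hp (c := g + g ^ p) (by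
    rw [add_pow_char, hgp, add_comm])
  obtain ⟨n₀, hn₀⟩ := exists_natCast_eq_of_pow_eq (p := p) hp (c := g * g ^ p) (by
    rw [mul_pow, hgp, mul_comm])
  have hnat : ∀ (n : ℕ) (z : k), x ((n : k) * z) = (n : K) * x z := by
    intro n z
    have h := map_nsmul (AddMonoidHom.mk' x hadd) n z
    simpa [nsmul_eq_mul] using h
  have hrel : g * (g * z₀) + (n₀ : k) * z₀ = (n₁ : k) * (g * z₀) := by
    rw [← hn₀, ← hn₁]
    ring
  have h1 := congrArg x hrel
  rw [hadd, hx, hx, hnat, hnat, hx] at h1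
  have h2 : (γ * γ + (n₀ : K) - (n₁ : K) * γ) * x z₀ = 0 := by linear_combination h1
  have h3 : γ * γ + (n₀ : K) - (n₁ : K) * γ = 0 := (mul_eq_zero.1 h2).resolve_right hz₀
  have e1 : (n₁ : K) = j g + j g ^ p := by
    rw [← map_natCast j, ← hn₁, map_add, map_pow]
  have e0 : (n₀ : K) = j g * j g ^ p := by
    rw [← map_natCast j, ← hn₀, map_mul, map_pow]
  rw [e1, e0] at h3
  have h4 : (γ - j g) * (γ - j g ^ p) = 0 := by linear_combination h3
  rcases mul_eq_zero.1 h4 with h | h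
  · exact Or.inl (sub_eq_zero.1 h)
  · exact Or.inr (sub_eq_zero.1 h)

end L1

end Fermat.Agent.S56.Flat.Irr
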