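/-
S56 / FLAT / IRR (architect helper78), node IRR-L2 (task 2825, owner helper84):
a nonzero leading coefficient function forces a congruence.
-/
import Fermat.Agent.S56.Flat.Irr.Defs
import Fermat.Agent.S56.Flat.Irr.Semilin
import Fermat.Agent.S56.Flat.Irr.TameSurj

set_option autoImplicit false

namespace Fermat.Agent.S56.Flat.Irr

open Fermat.Agent.Lib.InertiaField

variable {A : ValuationSubring Qb} {p : ℕ} {ϖ : Qb}

/-! ## IRR-L2 (file `LeadCongr.lean`): a nonzero leading coefficient function forces a congruence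

Take `τ₀` from `exists_inertia_generator`, `t₀ = θ τ₀`, `g = t₀ ^ E` and apply `eq_of_semilinear`;
`jj t₀ = rs (xi τ₀)` has order `p ^ 2 - 1`. -/
section L2

/-- powers of a nonzero element of a field agree iff the exponents agree modulo the order -/
theorem leadCongr_modEq_of_pow_eq {K : Type} [Field K] {ρ : K} (hρ : ρ ≠ 0) {a b : ℕ}
    (hab : ρ ^ a = ρ ^ b) : a ≡ b [MOD orderOf ρ] := by
  have h1 : (Units.mk0 ρ hρ) ^ a = (Units.mk0 ρ hρ) ^ b := by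
    apply Units.ext
    simpa using hab
  have h2 := pow_eq_pow_iff_modEq.1 h1
  rwa [← orderOf_units, Units.val_mk0] at h2

theorem lead_eq_zero_or_modEq (h : Unif A p ϖ) {k : Type} [Field k] [CharP k p] (θ : GQ → k)
    (jj : k →+* kb A) (hθ : ∀ σ ∈ Iner A, jj (θ σ) = rs A (xi ϖ σ)) (E j : ℕ) (x : k → kb A)
    (hadd : ∀ z z', x (z + z') = x z + x z')
    (hx : ∀ τ ∈ Iner A, ∀ z, x (θ τ ^ E * z) = rs A (xi ϖ τ) ^ j * x z) :
    (∀ z, x z = 0) ∨ j ≡ E [MOD p ^ 2 - 1] ∨ j ≡ p * E [MOD p ^ 2 - 1] := by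
  by_cases hall : ∀ z, x z = 0
  · exact Or.inl hall
  right
  push Not at hall
  obtain ⟨z₀, hz₀⟩ := hall
  obtain ⟨τ₀, hτ₀, hord⟩ := h.exists_inertia_generator
  have hp2 : 2 ≤ p := h.prime.two_le
  have hM : 0 < p ^ 2 - 1 := by
    have : 2 ^ 2 ≤ p ^ 2 := Nat.pow_le_pow_left hp2 2
    omega
  have hρ1 : rs A (xi ϖ τ₀) ^ (p ^ 2 - 1) = 1 := by
    rw [← hord]; exact pow_orderOf_eq_one _
  have hρ0 : rs A (xi ϖ τ₀) ≠ 0 := by
    intro h0
    rw [h0, zero_pow hM.ne'] at hρ1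
    exact zero_ne_one hρ1
  have hρp : rs A (xi ϖ τ₀) ^ (p ^ 2) = rs A (xi ϖ τ₀) := by
    have : p ^ 2 = (p ^ 2 - 1) + 1 := by omega
    rw [this, pow_succ, hρ1, one_mul]
  have hjg : jj (θ τ₀ ^ E) = rs A (xi ϖ τ₀) ^ E := by rw [map_pow, hθ τ₀ hτ₀]
  have hg : (θ τ₀ ^ E) ^ (p ^ 2) = θ τ₀ ^ E := by
    apply jj.injective
    rw [map_pow, hjg, ← pow_mul, mul_comm, pow_mul, hρp]
  rcases eq_of_semilinear h.prime jj x hadd (θ τ₀ ^ E) hg (rs A (xi ϖ τ₀) ^ j) (hx τ₀ hτ₀) z₀ hz₀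
    with h1 | h1
  · left
    rw [hjg] at h1
    rw [← hord]
    exact leadCongr_modEq_of_pow_eq hρ0 h1
  · right
    rw [hjg, ← pow_mul, mul_comm] at h1
    rw [← hord]
    exact leadCongr_modEq_of_pow_eq hρ0 h1

/-- the window `[p ^ 2 - 1, p ^ 2 + p)` : the residue modulo `p ^ 2 - 1` -/
theorem leadCongr_window (hp3 : 3 ≤ p) {j r : ℕ} (h1 : p ^ 2 - 1 ≤ j) (h2 : j < p ^ 2 + p)
    (hr : r < p ^ 2 - 1) (h : j ≡ r [MOD p ^ 2 - 1]) : j = p ^ 2 - 1 + r ∧ r < p + 1 := by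
  have h9 : p * 3 ≤ p ^ 2 := by nlinarith
  obtain ⟨s, rfl⟩ := Nat.exists_eq_add_of_le h1
  have hs : s < p + 1 := by omega
  have hs' : s < p ^ 2 - 1 := by omega
  have h3 : s ≡ r [MOD p ^ 2 - 1] := by
    have : p ^ 2 - 1 + s ≡ s [MOD p ^ 2 - 1] := by
      simp [Nat.ModEq]
    exact this.symm.trans h
  have h4 : s = r := by
    have := h3
    rwa [Nat.ModEq, Nat.mod_eq_of_lt hs', Nat.mod_eq_of_lt hr] at this
  subst h4
  exact ⟨rfl, hs⟩

/-- `p ^ 2 ≡ 1` -/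
theorem leadCongr_sq_modEq (hp3 : 3 ≤ p) : p ^ 2 ≡ 1 [MOD p ^ 2 - 1] := by
  have h9 : p * 3 ≤ p ^ 2 := by nlinarith
  have : p ^ 2 = (p ^ 2 - 1) + 1 := by omega
  conv_lhs => rw [this]
  simp [Nat.ModEq]

theorem arith_u (hp3 : 3 ≤ p) {j : ℕ} (h1 : p ^ 2 - 1 ≤ j) (h2 : j < p ^ 2 + p)
    (h : j ≡ 2 * p [MOD p ^ 2 - 1] ∨ j ≡ p * (2 * p) [MOD p ^ 2 - 1]) : j = p ^ 2 + 1 := by
  have h9 : p * 3 ≤ p ^ 2 := by nlinarith
  rcases h with h | h
  · have := leadCongr_window hp3 h1 h2 (r := 2 * p) (by omega) h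
    omega
  · have h3 : p * (2 * p) ≡ 2 [MOD p ^ 2 - 1] := by
      have : p * (2 * p) = 2 * p ^ 2 := by ring
      rw [this]
      simpa using (leadCongr_sq_modEq hp3).mul_left 2
    have := leadCongr_window hp3 h1 h2 (r := 2) (by omega) (h.trans h3)
    omega

theorem arith_h (hp3 : 3 ≤ p) {j : ℕ} (h1 : p ^ 2 - 1 ≤ j) (h2 : j < p ^ 2 + p)
    (h : j ≡ p + 1 [MOD p ^ 2 - 1] ∨ j ≡ p * (p + 1) [MOD p ^ 2 - 1]) : False := by
  have h9 : p * 3 ≤ p ^ 2 := by nlinarith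
  rcases h with h | h
  · have := leadCongr_window hp3 h1 h2 (r := p + 1) (by omega) h
    omega
  · have h3 : p * (p + 1) ≡ p + 1 [MOD p ^ 2 - 1] := by
      have : p * (p + 1) = p ^ 2 + p := by ring
      rw [this, add_comm p 1]
      exact (leadCongr_sq_modEq hp3).add_right p
    have := leadCongr_window hp3 h1 h2 (r := p + 1) (by omega) (h.trans h3)
    omega

theorem arith_dvd (hp3 : 3 ≤ p) {j : ℕ} (h1 : p ^ 2 - 1 ≤ j) (h2 : j < p ^ 2 + p) (h : p ∣ j) :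
    j = p ^ 2 := by
  obtain ⟨m, rfl⟩ := h
  have hm1 : m < p + 1 := by
    by_contra hcon
    push Not at hcon
    have : p * (p + 1) ≤ p * m := Nat.mul_le_mul_left p hcon
    nlinarith
  have hm2 : p ≤ m := by
    by_contra hcon
    push Not at hcon
    have h3 : m + 1 ≤ p := hcon
    have h4 : p * (m + 1) ≤ p * p := Nat.mul_le_mul_left p h3
    have h5 : p ^ 2 = p * p := by ring
    have h6 : p * (m + 1) = p * m + p := by ring
    omega
  have : m = p := by omega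
  subst this
  ring

end L2

end Fermat.Agent.S56.Flat.Irr
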