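/-
S56 / FLAT / IRR (architect helper78), task IRR-E2 (helper276): raising the level of a family of
Kummer generators.
-/
import Fermat.Agent.S56.Flat.Irr.Defs
import Fermat.Agent.S56.Flat.Irr.Lead
import Fermat.Agent.S56.Flat.Irr.LeadCongr

set_option autoImplicit false

namespace Fermat.Agent.S56.Flat.Irr

open Fermat.Agent.Lib.InertiaField

variable {A : ValuationSubring Qb} {p : ℕ} {ϖ : Qb}

/-! ## IRR-E2 (file `LevelUp.lean`): raising the level -/
section E2

variable {k : Type} [Field k] [CharP k p] {Gen : k → Qb → Prop}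

theorem LevelUp_three_le (h : Unif A p ϖ) : 3 ≤ p := by
  have h2 := h.prime.two_le
  have h3 := h.odd
  omega

theorem KFam.level_succ (h : Unif A p ϖ) (θ : GQ → k) (jj : k →+* kb A)
    (hθ : ∀ σ ∈ Iner A, jj (θ σ) = rs A (xi ϖ σ)) (E : ℕ)
    (F : KFam A p ϖ (fun τ => θ τ ^ E) Gen) {j : ℕ} (h1 : p ^ 2 - 1 ≤ j) (h2 : j < p ^ 2 + p)
    (hne : ¬ (j ≡ E [MOD p ^ 2 - 1] ∨ j ≡ p * E [MOD p ^ 2 - 1])) (hL : Level A p ϖ Gen j) :
    Level A p ϖ Gen (j + 1) := by
  have hp3 : 3 ≤ p := LevelUp_three_le h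
  by_cases hpj : p ∣ j
  · have hj := arith_dvd hp3 h1 h2 hpj
    subst hj
    exact F.level_psq h hL
  · have hj1 : 1 ≤ j := by
      have h9 : 9 ≤ p ^ 2 := by nlinarith
      omega
    obtain ⟨x, hx1, hx2, hx3⟩ := F.exists_lead h hj1 hpj h2 hL
    rcases lead_eq_zero_or_modEq h θ jj hθ E j x hx2 hx3 with h0 | hc
    · exact KFam.level_succ_of_lead_zero h hL
        (fun z α hα hU => (hx1 z α hα hU).trans (h0 z))
    · exact absurd hc hne

/-- the family attached to the diagonal entry: all generators lie in `K0(ϖ)` -/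
theorem KFam.inK_of_h (h : Unif A p ϖ) (θ : GQ → k) (jj : k →+* kb A)
    (hθ : ∀ σ ∈ Iner A, jj (θ σ) = rs A (xi ϖ σ))
    (F : KFam A p ϖ (fun τ => θ τ ^ (p + 1)) Gen) (hL : Level A p ϖ Gen (p ^ 2 - 1)) :
    ∀ z α, Gen z α → InK A ϖ α := by
  have hp3 : 3 ≤ p := LevelUp_three_le h
  have key : ∀ j, p ^ 2 - 1 ≤ j → j ≤ p ^ 2 + p → Level A p ϖ Gen j := by
    intro j hj
    induction j, hj using Nat.le_induction with
    | base => intro _; exact hL
    | succ j hj ih =>
      intro hle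
      exact F.level_succ h θ jj hθ (p + 1) hj (by omega)
        (fun hc => arith_h hp3 hj (by omega) hc) (ih (by omega))
  exact F.inK_of_level_top h (key _ (by omega) le_rfl)

/-- the family attached to the upper right entry reaches the level `p ^ 2 + 1` -/
theorem KFam.level_u (h : Unif A p ϖ) (θ : GQ → k) (jj : k →+* kb A)
    (hθ : ∀ σ ∈ Iner A, jj (θ σ) = rs A (xi ϖ σ))
    (F : KFam A p ϖ (fun τ => θ τ ^ (2 * p)) Gen) (hL : Level A p ϖ Gen (p ^ 2 - 1)) :
    Level A p ϖ Gen (p ^ 2 + 1) := by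
  have hp3 : 3 ≤ p := LevelUp_three_le h
  have key : ∀ j, p ^ 2 - 1 ≤ j → j ≤ p ^ 2 + 1 → Level A p ϖ Gen j := by
    intro j hj
    induction j, hj using Nat.le_induction with
    | base => intro _; exact hL
    | succ j hj ih =>
      intro hle
      refine F.level_succ h θ jj hθ (2 * p) hj (by omega) (fun hc => ?_) (ih (by omega))
      have := arith_u hp3 hj (by omega) hc
      omega
  exact key _ (by omega) le_rfl

/-- ... and if the leading coefficients at that level vanish, all generators lie in `K0(ϖ)` -/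
theorem KFam.inK_of_u (h : Unif A p ϖ) (θ : GQ → k) (jj : k →+* kb A)
    (hθ : ∀ σ ∈ Iner A, jj (θ σ) = rs A (xi ϖ σ))
    (F : KFam A p ϖ (fun τ => θ τ ^ (2 * p)) Gen) (hL : Level A p ϖ Gen (p ^ 2 + 2)) :
    ∀ z α, Gen z α → InK A ϖ α := by
  have hp3 : 3 ≤ p := LevelUp_three_le h
  have key : ∀ j, p ^ 2 + 2 ≤ j → j ≤ p ^ 2 + p → Level A p ϖ Gen j := by
    intro j hj
    induction j, hj using Nat.le_induction with
    | base => intro _; exact hL
    | succ j hj ih =>
      intro hle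
      refine F.level_succ h θ jj hθ (2 * p) (by omega) (by omega) (fun hc => ?_) (ih (by omega))
      have := arith_u hp3 (by omega) (by omega) hc
      omega
  exact F.inK_of_level_top h (key _ (by omega) le_rfl)

end E2

end Fermat.Agent.S56.Flat.Irr
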