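/-
S56 / FLAT / IRR (architect helper78): task IRR-X, the semilinear count.
-/
import Fermat.Agent.S56.Flat.Irr.Defs

set_option autoImplicit false

namespace Fermat.Agent.S56.Flat.Irr

open Fermat.Agent.Lib.InertiaField

variable {A : ValuationSubring Qb} {p : ℕ} {ϖ : Qb}

/-! ## IRR-X (file `XCount.lean`): the semilinear count

`F = 𝔽_p(g₀) ⊆ k` has `p ^ 2` elements; `x (r z) = (jj r) ^ p * x z` for `r ∈ F`; `x` is determined
by its values on an `F`-basis of `k`, which are roots of `X ^ (p ^ 2) - C X`. -/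
section X

/-- the possible leading coefficient functions -/
def XSet (p : ℕ) (k K : Type) [Field k] [Field K] (g₀ : k) (γ₀ C : K) : Set (k → K) :=
  {x | (∀ z z', x (z + z') = x z + x z') ∧ (∀ z, x (g₀ * z) = γ₀ * x z) ∧
    ∀ z, x z ^ (p ^ 2) = C * x z}

theorem xcount_map_zero {k K : Type} [Field k] [Field K] {x : k → K}
    (hx : ∀ z z', x (z + z') = x z + x z') : x 0 = 0 := by
  have h := hx 0 0
  rw [add_zero] at h
  exact left_eq_add.1 h

theorem xcount_map_neg {k K : Type} [Field k] [Field K] {x : k → K}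
    (hx : ∀ z z', x (z + z') = x z + x z') (z : k) : x (-z) = - x z := by
  have h := hx (-z) z
  rw [neg_add_cancel, xcount_map_zero hx] at h
  exact eq_neg_of_add_eq_zero_left h.symm

theorem xcount_map_sum {k K ι : Type} [Field k] [Field K] {x : k → K}
    (hx : ∀ z z', x (z + z') = x z + x z') (s : Finset ι) (f : ι → k) :
    x (∑ i ∈ s, f i) = ∑ i ∈ s, x (f i) := by
  classical
  induction s using Finset.induction_on with
  | empty => simpa using xcount_map_zero hx
  | insert a s ha ih => rw [Finset.sum_insert ha, Finset.sum_insert ha, hx, ih]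

/-- the subfield of the `r` such that all the `x ∈ S` are `σ`-semilinear with respect to `r`. -/
def xcountField {k K : Type} [Field k] [Field K] (σ : k →+* K) (S : Set (k → K))
    (hS : ∀ x ∈ S, ∀ z z', x (z + z') = x z + x z') : Subfield k where
  carrier := {r | ∀ x ∈ S, ∀ z, x (r * z) = σ r * x z}
  mul_mem' := by
    intro a b ha hb x hx z
    rw [mul_assoc, ha x hx, hb x hx, map_mul, mul_assoc]
  one_mem' := by
    intro x _ z
    rw [one_mul, map_one, one_mul]
  add_mem' := by
    intro a b ha hb x hx z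
    rw [add_mul, hS x hx, ha x hx, hb x hx, map_add, add_mul]
  zero_mem' := by
    intro x hx z
    rw [zero_mul, map_zero, zero_mul, xcount_map_zero (hS x hx)]
  neg_mem' := by
    intro a ha x hx z
    rw [neg_mul, xcount_map_neg (hS x hx), ha x hx, map_neg, neg_mul]
  inv_mem' := by
    intro a ha x hx z
    rcases eq_or_ne a 0 with rfl | ha0
    · rw [inv_zero, zero_mul, map_zero, zero_mul, xcount_map_zero (hS x hx)]
    · have h := ha x hx (a⁻¹ * z)
      rw [mul_inv_cancel_left₀ ha0] at h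
      rw [h, map_inv₀, inv_mul_cancel_left₀ ((map_ne_zero σ).2 ha0)]

theorem xcount_card_roots_le {K : Type} [Field K] {n : ℕ} (hn : 1 < n) (C : K) :
    {v : K | v ^ n = C * v}.Finite ∧ Nat.card {v : K | v ^ n = C * v} ≤ n := by
  classical
  obtain ⟨P, hP⟩ : ∃ P : Polynomial K, P = Polynomial.X ^ n - Polynomial.C C * Polynomial.X :=
    ⟨_, rfl⟩
  have hP0 : P ≠ 0 := by
    intro h
    have h1 := congrArg (fun Q : Polynomial K => Q.coeff n) h
    simp only [hP, Polynomial.coeff_sub, Polynomial.coeff_X_pow, if_true, Polynomial.coeff_C_mul,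
      Polynomial.coeff_X, Polynomial.coeff_zero] at h1
    rw [if_neg (by omega), mul_zero, sub_zero] at h1
    exact one_ne_zero h1
  have hdeg : P.natDegree ≤ n := by
    rw [hP]
    refine (Polynomial.natDegree_sub_le _ _).trans (max_le (Polynomial.natDegree_X_pow_le n) ?_)
    exact ((Polynomial.natDegree_C_mul_le _ _).trans Polynomial.natDegree_X_le).trans hn.le
  have heq : {v : K | v ^ n = C * v} = (P.roots.toFinset : Set K) := by
    ext v
    rw [Finset.mem_coe, Multiset.mem_toFinset, Polynomial.mem_roots hP0, Polynomial.IsRoot.def, hP,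
      Polynomial.eval_sub, Polynomial.eval_pow, Polynomial.eval_X, Polynomial.eval_mul,
      Polynomial.eval_C, Polynomial.eval_X, sub_eq_zero]
    exact Iff.rfl
  rw [heq]
  refine ⟨Finset.finite_toSet _, ?_⟩
  rw [Nat.card_coe_set_eq, Set.ncard_coe_finset]
  exact (Multiset.toFinset_card_le _).trans ((Polynomial.card_roots' P).trans hdeg)

theorem card_XSet_le {k K : Type} [Field k] [Finite k] [CharP k p] [Field K] [CharP K p]
    (hp : p.Prime) (jj : k →+* K) (g₀ : k) (hg : g₀ ^ (p ^ 2) = g₀) (hg' : g₀ ^ p ≠ g₀) (C : K) :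
    (XSet p k K g₀ (jj g₀ ^ p) C).Finite ∧
      Nat.card ↥(XSet p k K g₀ (jj g₀ ^ p) C) ≤ Nat.card k := by
  classical
  have : Fact p.Prime := ⟨hp⟩
  obtain ⟨σ, hσ⟩ : ∃ σ : k →+* K, σ = (frobenius K p).comp jj := ⟨_, rfl⟩
  have hσg : σ g₀ = jj g₀ ^ p := by rw [hσ]; rfl
  obtain ⟨S, hS⟩ : ∃ S : Set (k → K), S = XSet p k K g₀ (jj g₀ ^ p) C := ⟨_, rfl⟩
  rw [← hS]
  have hadd : ∀ x ∈ S, ∀ z z', x (z + z') = x z + x z' := fun x hx => by
    rw [hS] at hx
    exact hx.1
  obtain ⟨F, hF⟩ : ∃ F : Subfield k, F = xcountField σ S hadd := ⟨_, rfl⟩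
  have hFmem : ∀ r ∈ F, ∀ x ∈ S, ∀ z, x (r * z) = σ r * x z := fun r hr => by
    rw [hF] at hr
    exact hr
  have hgF : g₀ ∈ F := by
    rw [hF]
    intro x hx z
    rw [hS] at hx
    rw [hσg]
    exact hx.2.1 z
  -- `F` has at least `p ^ 2` elements
  have hcardF : p ^ 2 ≤ Nat.card F := by
    have : Fintype F := Fintype.ofFinite F
    have : CharP F p := (RingHom.charP_iff F.subtype F.subtype.injective p).2 inferInstance
    obtain ⟨n, -, hn⟩ := FiniteField.card F p
    rw [Nat.card_eq_fintype_card, hn]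
    apply Nat.pow_le_pow_right hp.pos
    by_contra hlt
    have hn1 : (n : ℕ) = 1 := by
      have := n.pos
      omega
    rw [hn1, pow_one] at hn
    have h1 := FiniteField.pow_card (⟨g₀, hgF⟩ : F)
    rw [hn] at h1
    exact hg' (congrArg Subtype.val h1)
  -- the values
  obtain ⟨hVfin, hVcard⟩ := xcount_card_roots_le (K := K) (n := p ^ 2)
    (Nat.one_lt_pow two_ne_zero hp.one_lt) C
  have : Finite {v : K | v ^ (p ^ 2) = C * v} := hVfin
  have hpow : ∀ x ∈ S, ∀ z, x z ^ (p ^ 2) = C * x z := fun x hx => by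
    rw [hS] at hx
    exact hx.2.2
  let b := Module.finBasis F k
  let Φ : S → (Fin (Module.finrank F k) → {v : K | v ^ (p ^ 2) = C * v}) := fun x i =>
    ⟨x.1 (b i), hpow x.1 x.2 (b i)⟩
  have hΦ : Function.Injective Φ := by
    intro x x' h
    apply Subtype.ext
    funext z
    have hz := b.sum_repr z
    have key : ∀ y : S, y.1 z = ∑ i, σ (b.repr z i : k) * y.1 (b i) := by
      intro y
      conv_lhs => rw [← hz]
      rw [xcount_map_sum (hadd y.1 y.2)]
      refine Finset.sum_congr rfl fun i _ => ?_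
      rw [Subfield.smul_def, smul_eq_mul, hFmem _ (b.repr z i).2 y.1 y.2]
    rw [key x, key x']
    refine Finset.sum_congr rfl fun i _ => ?_
    have hi := congrArg Subtype.val (congrFun h i)
    have hi' : x.1 (b i) = x'.1 (b i) := hi
    rw [hi']
  have hfin : Finite S := Finite.of_injective Φ hΦ
  refine ⟨Set.toFinite S, ?_⟩
  calc Nat.card S ≤ Nat.card (Fin (Module.finrank F k) → {v : K | v ^ (p ^ 2) = C * v}) :=
        Nat.card_le_card_of_injective Φ hΦ
    _ = Nat.card {v : K | v ^ (p ^ 2) = C * v} ^ Module.finrank F k := by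
        rw [Nat.card_fun, Nat.card_eq_fintype_card (α := Fin _), Fintype.card_fin]
    _ ≤ Nat.card F ^ Module.finrank F k := Nat.pow_le_pow_left (hVcard.trans hcardF) _
    _ = Nat.card k := (Module.natCard_eq_pow_finrank (K := F) (V := k)).symm

end X

end Fermat.Agent.S56.Flat.Irr
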