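/-
S56 / FLAT / IRR (architect helper78), task IRR-C5 (owner helper181): the leading coefficient
function of a `KC` cocycle lies in `XSet`.
-/
import Fermat.Agent.S56.Flat.Irr.Defs2
import Fermat.Agent.S56.Flat.Irr.KFamGen
import Fermat.Agent.S56.Flat.Irr.LevelUp
import Fermat.Agent.S56.Flat.Irr.XCount

set_option autoImplicit false

namespace Fermat.Agent.S56.Flat.Irr

open Fermat.Agent.Lib.InertiaField
open Fermat.Agent.S53 (M2)

variable {A : ValuationSubring Qb} {p : ℕ} {ϖ : Qb}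
variable {k : Type} [Field k] {H : Type} [Group H] {f : H →* GQ} {s : GQ →* M2 k}

/-! ## IRR-C5 (file `LeadX.lean`): the leading coefficient function lies in `XSet` -/
section C5

/-- an additive function commutes with multiplication by natural numbers -/
theorem leadX_map_natCast_mul {K : Type} [Field K] {x : k → K}
    (hx : ∀ z z', x (z + z') = x z + x z') (n : ℕ) (z : k) :
    x ((n : k) * z) = (n : K) * x z := by
  induction n with
  | zero =>
    have h0 : x 0 = 0 := by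
      have h := hx 0 0
      rw [add_zero] at h
      exact left_eq_add.1 h
    rw [Nat.cast_zero, Nat.cast_zero, zero_mul, zero_mul, h0]
  | succ n ih => rw [Nat.cast_succ, Nat.cast_succ, add_mul, add_mul, one_mul, one_mul, hx, ih]

theorem Unif.leadX_rs_xi_ne_zero (h : Unif A p ϖ) (g : GQ) : rs A (xi ϖ g) ≠ 0 := by
  intro h0
  rw [rs_eq_zero_iff (h.xi_mem g), ValuationSubring.mem_nonunits_iff, h.val_xi g] at h0
  exact lt_irrefl _ h0

variable [CharP k p] {u : H → M2 k}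
theorem exists_LC (h : Unif A p ϖ) (Sh : Shape A p ϖ s) (hf : IsLocMap A f) (hu : IsMCoc f s u)
    (hK : KC A p ϖ Sh.ζ f u) :
    ∃ x ∈ XSet p k (kb A) Sh.g₀ (Sh.jj Sh.g₀ ^ p) Sh.C, LC A p ϖ Sh.ζ f u x := by
  have F := kfam_u h Sh hf hu
  have hL : Level A p ϖ (Gen A p ϖ Sh.ζ f u 0 1) (p ^ 2 + 1) :=
    F.level_u h Sh.θ Sh.jj Sh.jj_θ hK.1
  have hp3 : 3 ≤ p := LevelUp_three_le h
  have hnd : ¬ p ∣ p ^ 2 + 1 := by
    intro hd
    have h1 : p ∣ 1 := (Nat.dvd_add_right (dvd_pow_self p two_ne_zero)).1 hd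
    have := Nat.le_of_dvd one_pos h1
    omega
  obtain ⟨x, hx1, hx2, hx3⟩ := F.exists_lead h (j := p ^ 2 + 1) (by omega) hnd (by omega) hL
  refine ⟨x, ⟨hx2, fun z => ?_, fun z => ?_⟩, hx1⟩
  · rw [Sh.jj_g₀_pow h]
    exact hx3 Sh.τ₀ Sh.τ₀_mem z
  · obtain ⟨α, hα, hα'⟩ := hL z
    have hψ : ActsAsPow A (Sh.φ * Sh.φ) (p ^ 2) := actsAsPow_sq Sh.frob
    have hg := gen_frob_sq h Sh hf hu hα
    have hmem : ((Sh.φ * Sh.φ) α) ^ p ∈ UU A ϖ (p ^ 2 + 1) := by
      rw [← map_pow]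
      exact h.apply_mem_UU hψ.1 hα'
    have e1 := hx1 _ _ hg hmem
    rw [← map_pow, h.lc_actsAsPow hψ hα', hx1 z α hα hα', leadX_map_natCast_mul hx2] at e1
    have hunit : rs A (xi ϖ (Sh.φ * Sh.φ)) ^ (p ^ 2 + 1) ≠ 0 :=
      pow_ne_zero _ (h.leadX_rs_xi_ne_zero _)
    rw [Shape.C, mul_right_comm, ← e1, mul_right_comm, mul_inv_cancel₀ hunit, one_mul]
end C5

end Fermat.Agent.S56.Flat.Irr
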