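/-
S56 / FLAT / IRR (architect helper78, proofs helper161), task IRR-C6:
equal leading coefficient functions imply that the cocycles are equal on `I'`.
-/
import Fermat.Agent.S56.Flat.Irr.Defs2
import Fermat.Agent.S56.Flat.Irr.KFamGen
import Fermat.Agent.S56.Flat.Irr.LevelUp

set_option autoImplicit false

namespace Fermat.Agent.S56.Flat.Irr

open Fermat.Agent.Lib.InertiaField
open Fermat.Agent.S53 (M2)

variable {A : ValuationSubring Qb} {p : ℕ} {ϖ : Qb}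
variable {k : Type} [Field k] {H : Type} [Group H] {f : H →* GQ} {s : GQ →* M2 k}

section C6
variable [CharP k p] [Finite k] {u u' w : H → M2 k}

theorem entry00_eq_zero (h : Unif A p ϖ) (Sh : Shape A p ϖ s) (hf : IsLocMap A f)
    (hu : IsMCoc f s u) (hK : KC A p ϖ Sh.ζ f u) :
    ∀ x, f x ∈ Iner A → f x ϖ = ϖ → u x 0 0 = 0 := by
  have F := kfam_h h Sh hf hu
  have hin := KFam.inK_of_h h Sh.θ Sh.jj Sh.jj_θ F hK.2
  exact entry_eq_zero_of_inK h.prime Sh.ζ_pow Sh.ζ_ne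
    (fun z => (hK.2 z).imp fun α hα => hα.1) hin

theorem entry01_eq (h : Unif A p ϖ) (Sh : Shape A p ϖ s) (hf : IsLocMap A f)
    (hu : IsMCoc f s u) (hu' : IsMCoc f s u') (hK : KC A p ϖ Sh.ζ f u) (hK' : KC A p ϖ Sh.ζ f u')
    {x : k → kb A} (hx : LC A p ϖ Sh.ζ f u x) (hx' : LC A p ϖ Sh.ζ f u' x) :
    ∀ y, f y ∈ Iner A → f y ϖ = ϖ → u y 0 1 = u' y 0 1 := by
  have hw : IsMCoc f s (fun x => u x - u' x) := hu.sub hu'
  have F := kfam_u h Sh hf hu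
  have F' := kfam_u h Sh hf hu'
  have Fw := kfam_u h Sh hf hw
  have L := KFam.level_u h Sh.θ Sh.jj Sh.jj_θ F hK.1
  have L' := KFam.level_u h Sh.θ Sh.jj Sh.jj_θ F' hK'.1
  have hj1 : 1 ≤ p ^ 2 + 1 := by omega
  have Lw : Level A p ϖ (Gen A p ϖ Sh.ζ f (fun x => u x - u' x) 0 1) (p ^ 2 + 2) := by
    intro z
    obtain ⟨α, hα, hαU⟩ := L z
    obtain ⟨α', hα', hαU'⟩ := L' z
    refine ⟨α / α', hα.div_sub h.prime Sh.ζ_pow hα', ?_⟩
    rw [div_pow]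
    have hU := h.UU_div hj1 hαU hαU'
    exact (h.lc_eq_zero_iff hU).1
      (by rw [h.lc_div hj1 hαU hαU', hx z α hα hαU, hx' z α' hα' hαU', sub_self])
  have hin := KFam.inK_of_u h Sh.θ Sh.jj Sh.jj_θ Fw Lw
  have h0 := entry_eq_zero_of_inK h.prime Sh.ζ_pow Sh.ζ_ne
    (fun z => (Lw z).imp fun α hα => hα.1) hin
  intro y hy hyϖ
  have h1 : (u y - u' y) 0 1 = 0 := h0 y hy hyϖ
  rw [Matrix.sub_apply] at h1
  exact sub_eq_zero.1 h1

theorem entry10_eq_zero (h : Unif A p ϖ) (Sh : Shape A p ϖ s) (hf : IsLocMap A f)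
    (hw : IsMCoc f s w) (h01 : ∀ x, f x ∈ Iner A → f x ϖ = ϖ → w x 0 1 = 0) :
    ∀ x, f x ∈ Iner A → f x ϖ = ϖ → w x 1 0 = 0 := by
  intro x hx hxϖ
  have hφ : Sh.φ ∈ A.decompositionSubgroup ℚ := Sh.frob.mem_decompositionSubgroup
  obtain ⟨y, hy⟩ := hf.surj Sh.φ hφ
  have hc := h.conj_fix hφ hx hxϖ
  have hfc : f (y * x * y⁻¹) = Sh.φ * f x * Sh.φ⁻¹ := by
    rw [map_mul, map_mul, map_inv, hy]
  have h1 := h01 (y * x * y⁻¹) (by rw [hfc]; exact hc.1) (by rw [hfc]; exact hc.2)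
  have hs1 : s (f x) = 1 := by
    rw [Sh.diag _ hx, Sh.θ_eq_one h hx hxϖ, one_pow]
    exact Matrix.one_fin_two.symm
  rw [hw.map_conj y hs1, hy, Sh.conj_frob_01 h] at h1
  have hx0 := Sh.x₀_ne_zero h
  have hy0 := inv_ne_zero (Sh.y₀_ne_zero h)
  rcases mul_eq_zero.1 h1 with h2 | h2
  · exact (mul_eq_zero.1 h2).resolve_left hx0
  · exact absurd h2 hy0

theorem sub_eq_zero_of_LC (h : Unif A p ϖ) (Sh : Shape A p ϖ s) (hf : IsLocMap A f)
    (hu : IsMCoc f s u) (hu' : IsMCoc f s u') (hK : KC A p ϖ Sh.ζ f u) (hK' : KC A p ϖ Sh.ζ f u')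
    {x : k → kb A} (hx : LC A p ϖ Sh.ζ f u x) (hx' : LC A p ϖ Sh.ζ f u' x) :
    ∀ y, f y ∈ Iner A → f y ϖ = ϖ → u y - u' y = 0 := by
  have hw : IsMCoc f s (fun x => u x - u' x) := hu.sub hu'
  have e01 := entry01_eq h Sh hf hu hu' hK hK' hx hx'
  have e10 := entry10_eq_zero h Sh hf hw (fun x hx hxϖ => by
    rw [Matrix.sub_apply, e01 x hx hxϖ, sub_self])
  intro y hy hyϖ
  have a00 := entry00_eq_zero h Sh hf hu hK y hy hyϖ
  have b00 := entry00_eq_zero h Sh hf hu' hK' y hy hyϖ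
  ext i j
  fin_cases i <;> fin_cases j
  · change (u y - u' y) 0 0 = 0
    rw [Matrix.sub_apply, a00, b00, sub_self]
  · change (u y - u' y) 0 1 = 0
    rw [Matrix.sub_apply, e01 y hy hyϖ, sub_self]
  · exact e10 y hy hyϖ
  · change (u y - u' y) 1 1 = 0
    rw [Matrix.sub_apply, hu.entry11, hu'.entry11, a00, b00, sub_self]

end C6

end Fermat.Agent.S56.Flat.Irr
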