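/-
S56 / FLAT / IRR (architect helper78), task IRR-C10: the count, for `s` in normal form
(assembly of C5, C6, C8, C9, X).
-/
import Fermat.Agent.S56.Flat.Irr.Defs2
import Fermat.Agent.S56.Flat.Irr.LeadX
import Fermat.Agent.S56.Flat.Irr.Zero
import Fermat.Agent.S56.Flat.Irr.Cob
import Fermat.Agent.S56.Flat.Irr.FlatKC
import Fermat.Agent.S56.Flat.Irr.XCount

set_option autoImplicit false
set_option linter.unusedSectionVars false

namespace Fermat.Agent.S56.Flat.Irr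

open Fermat.Agent.Lib.InertiaField
open Fermat.Agent.S53 (M2)

variable {A : ValuationSubring Qb} {p : ℕ} {ϖ : Qb}
variable {k : Type} [Field k] {H : Type} [Group H] {f : H →* GQ} {s : GQ →* M2 k}

/-- `s = 1` on the elements of inertia fixing `ϖ` -/
private theorem core_s_eq_one (h : Unif A p ϖ) (Sh : Shape A p ϖ s) {σ : GQ} (hσ : σ ∈ Iner A)
    (hϖ : σ ϖ = ϖ) : s σ = 1 := by
  rw [Sh.diag σ hσ, Sh.θ_eq_one h hσ hϖ, one_pow]
  exact Matrix.one_fin_two.symm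

section C10
variable [CharP k p] [Finite k]
theorem countFor_of_shape (h : Unif A p ϖ) (Sh : Shape A p ϖ s) (hf : IsLocMap A f) :
    CountFor A f s (fun u => IsMCoc f s u ∧ KC A p ϖ Sh.ζ f u) := by
  have : CharP (kb A) p := charP_kb h.prime h.lies
  obtain ⟨hfin, hcard⟩ :=
    card_XSet_le h.prime Sh.jj Sh.g₀ (Sh.g₀_pow h) (Sh.g₀_ne h) Sh.C
  have hex : ∀ u : {u : H → M2 k // IsMCoc f s u ∧ KC A p ϖ Sh.ζ f u},
      ∃ x ∈ XSet p k (kb A) Sh.g₀ (Sh.jj Sh.g₀ ^ p) Sh.C, LC A p ϖ Sh.ζ f u.1 x :=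
    fun u => exists_LC h Sh hf u.2.1 u.2.2
  choose X hX hLC using hex
  refine ⟨↥(XSet p k (kb A) Sh.g₀ (Sh.jj Sh.g₀ ^ p) Sh.C), hfin.to_subtype,
    fun u => ⟨X u, hX u⟩, hcard, ?_⟩
  intro u u' huu'
  have hXX : X u = X u' := congrArg Subtype.val huu'
  have h0 := sub_eq_zero_of_LC h Sh hf u.2.1 u'.2.1 u.2.2 u'.2.2 (hLC u) (hXX ▸ hLC u')
  exact exists_cob h hf (fun σ hσ hϖ => core_s_eq_one h Sh hσ hϖ) (u.2.1.sub u'.2.1) h0
theorem CountFor.mono {Pr Pr' : (H → M2 k) → Prop} (hPr : ∀ u, Pr' u → Pr u)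
    (hc : CountFor A f s Pr) : CountFor A f s Pr' := by
  obtain ⟨T, hT, Φ, hcard, hΦ⟩ := hc
  exact ⟨T, hT, fun u => Φ ⟨u.1, hPr _ u.2⟩, hcard, fun u u' huu' => hΦ _ _ huu'⟩
theorem countCore_of_shape (h : Unif A p ϖ) (Sh : Shape A p ϖ s) (hf : IsLocMap A f) :
    CountCore A p f s :=
  CountFor.mono (fun _ hu => ⟨hu.1, KC_of_flatData h Sh hf hu⟩) (countFor_of_shape h Sh hf)
end C10

end Fermat.Agent.S56.Flat.Irr
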