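/-
S56 / FLAT / IRR (architect helper78), task IRR-S8 (helper229): a common eigenbasis for the
commuting family `s (Iner A)`.
-/
import Fermat.Agent.S56.Flat.Irr.Defs3
import Fermat.Agent.S56.Flat.Irr.NoLine
import Fermat.Agent.S56.Flat.Irr.LinAlg
import Fermat.Agent.S56.Flat.Irr.LinAlgEig

set_option autoImplicit false

namespace Fermat.Agent.S56.Flat.Irr

open Fermat.Agent.Lib.InertiaField Polynomial
open Fermat.Agent.S53 (M2)

variable {A : ValuationSubring Qb} {p : ℕ} {ϖ c : Qb}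
variable {k : Type} [Field k] {s : GQ →* M2 k} {φ : GQ}

/-- A matrix commuting with a matrix with two distinct eigenvalues preserves its eigenlines. -/
theorem Indep.eigen_of_commute {M N : M2 k} {v₁ v₂ : Fin 2 → k} (h : Indep v₁ v₂) {α β : k}
    (hαβ : α ≠ β) (h₁ : M.mulVec v₁ = α • v₁) (h₂ : M.mulVec v₂ = β • v₂)
    (hc : M * N = N * M) : ∃ a : k, N.mulVec v₁ = a • v₁ := by
  obtain ⟨a, b, hab⟩ := h.exists_coord (N.mulVec v₁)
  have e1 : M.mulVec (N.mulVec v₁) = α • N.mulVec v₁ := by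
    rw [Matrix.mulVec_mulVec, hc, ← Matrix.mulVec_mulVec, h₁, Matrix.mulVec_smul]
  have e2 : M.mulVec (N.mulVec v₁) = (a * α) • v₁ + (b * β) • v₂ := by
    rw [hab, Matrix.mulVec_add, Matrix.mulVec_smul, Matrix.mulVec_smul, h₁, h₂, smul_smul,
      smul_smul]
  have e3 : (0 : k) • v₁ + (b * (β - α)) • v₂ = 0 := by
    have e4 : (a * α) • v₁ + (b * β) • v₂ = (α * a) • v₁ + (α * b) • v₂ := by
      rw [← e2, e1, hab, smul_add, smul_smul, smul_smul]
    have e5 : (b * β) • v₂ = (α * b) • v₂ := by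
      rw [mul_comm a α] at e4
      exact add_left_cancel e4
    rw [zero_smul, zero_add, mul_sub, sub_smul, e5, mul_comm b α, sub_self]
  have hb : b = 0 := by
    rcases mul_eq_zero.1 (h _ _ e3).2 with hb | hb
    · exact hb
    · exact absurd (sub_eq_zero.1 hb).symm hαβ
  exact ⟨a, by rw [hab, hb, zero_smul, add_zero]⟩

/-- Uniqueness of the eigenvalue. -/
theorem Indep.smul_left_cancel {v₁ v₂ : Fin 2 → k} (h : Indep v₁ v₂) {a b : k}
    (hab : a • v₁ = b • v₁) : a = b := by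
  have : (a - b) • v₁ + (0 : k) • v₂ = 0 := by
    rw [sub_smul, hab, sub_self, zero_smul, add_zero]
  exact sub_eq_zero.1 (h _ _ this).1

section S8
theorem exists_eigen (h : IrrHyp A p s φ)
    (hcomm : ∀ σ ∈ Iner A, ∀ τ ∈ Iner A, s σ * s τ = s τ * s σ) :
    ∃ (v₁ v₂ : Fin 2 → k) (θ₁ θ₂ : GQ → k), Indep v₁ v₂ ∧
      (∀ σ ∈ Iner A, (s σ).mulVec v₁ = θ₁ σ • v₁) ∧ (∀ σ ∈ Iner A, (s σ).mulVec v₂ = θ₂ σ • v₂) ∧
      ∃ σ₁ ∈ Iner A, θ₁ σ₁ ≠ θ₂ σ₁ := by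
  classical
  obtain ⟨σ₁, hσ₁, hns⟩ := h.exists_not_scalar
  obtain ⟨α, β, hch⟩ := h.split σ₁
  by_cases hαβ : α = β
  · exfalso
    subst hαβ
    obtain ⟨v, hv0, hv⟩ := exists_eigenvector hch
    have hI : ∀ σ ∈ Iner A, ∃ a : k, (s σ).mulVec v = a • v := by
      intro σ hσ
      refine eigenvector_unique hch hns hv0 hv (c := α) ?_
      rw [Matrix.mulVec_mulVec, hcomm σ₁ hσ₁ σ hσ, ← Matrix.mulVec_mulVec, hv,
        Matrix.mulVec_smul]
    have hφD : φ ∈ A.decompositionSubgroup ℚ := h.frob.mem_decompositionSubgroup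
    have hconj : φ⁻¹ * σ₁ * φ ∈ Iner A := by
      have := conj_mem_inertia (A := A) (inv_mem hφD) hσ₁
      rwa [inv_inv] at this
    obtain ⟨a, ha⟩ := hI _ hconj
    have hφ : ∃ a' : k, (s φ).mulVec v = a' • v := by
      refine eigenvector_unique hch hns hv0 hv (c := a) ?_
      have e : s σ₁ * s φ = s φ * s (φ⁻¹ * σ₁ * φ) := by
        rw [← map_mul, ← map_mul]
        congr 1
        group
      rw [Matrix.mulVec_mulVec, e, ← Matrix.mulVec_mulVec, ha, Matrix.mulVec_smul]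
    exact h.noLine' ⟨v, hv0, hφ, hI⟩
  · obtain ⟨v₁, v₂, hind, h1, h2⟩ := exists_eigenbasis hch hαβ
    have H1 : ∀ σ ∈ Iner A, ∃ a : k, (s σ).mulVec v₁ = a • v₁ := fun σ hσ =>
      hind.eigen_of_commute hαβ h1 h2 (hcomm σ₁ hσ₁ σ hσ)
    have H2 : ∀ σ ∈ Iner A, ∃ a : k, (s σ).mulVec v₂ = a • v₂ := fun σ hσ =>
      hind.symm.eigen_of_commute (Ne.symm hαβ) h2 h1 (hcomm σ₁ hσ₁ σ hσ)
    let θ₁ : GQ → k := fun σ => if hσ : σ ∈ Iner A then (H1 σ hσ).choose else 0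
    let θ₂ : GQ → k := fun σ => if hσ : σ ∈ Iner A then (H2 σ hσ).choose else 0
    have T1 : ∀ σ ∈ Iner A, (s σ).mulVec v₁ = θ₁ σ • v₁ := by
      intro σ hσ
      have : θ₁ σ = (H1 σ hσ).choose := dif_pos hσ
      rw [this]
      exact (H1 σ hσ).choose_spec
    have T2 : ∀ σ ∈ Iner A, (s σ).mulVec v₂ = θ₂ σ • v₂ := by
      intro σ hσ
      have : θ₂ σ = (H2 σ hσ).choose := dif_pos hσ
      rw [this]
      exact (H2 σ hσ).choose_spec
    refine ⟨v₁, v₂, θ₁, θ₂, hind, T1, T2, σ₁, hσ₁, ?_⟩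
    have e1 : θ₁ σ₁ = α := hind.smul_left_cancel ((T1 σ₁ hσ₁).symm.trans h1)
    have e2 : θ₂ σ₁ = β := hind.symm.smul_left_cancel ((T2 σ₁ hσ₁).symm.trans h2)
    rw [e1, e2]
    exact hαβ
end S8

end Fermat.Agent.S56.Flat.Irr
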