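/-
S56 / FLAT / IRR (architect helper78), task IRR-S9: the Frobenius swaps the two eigenlines of inertia.
-/
import Fermat.Agent.S56.Flat.Irr.Defs3
import Fermat.Agent.S56.Flat.Irr.Eigen

set_option autoImplicit false

namespace Fermat.Agent.S56.Flat.Irr

open Fermat.Agent.Lib.InertiaField Polynomial
open Fermat.Agent.S53 (M2)

variable {A : ValuationSubring Qb} {p : ℕ} {ϖ c : Qb}
variable {k : Type} [Field k] {s : GQ →* M2 k} {φ : GQ}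

/-- `s φ` maps an eigenvector of inertia to an eigenvector of `s σ`, `σ` in inertia. -/
private theorem EigFrob_eigen (hφ : φ ∈ A.decompositionSubgroup ℚ) {v : Fin 2 → k} {θ : GQ → k}
    (hv : ∀ σ ∈ Iner A, (s σ).mulVec v = θ σ • v) {σ : GQ} (hσ : σ ∈ Iner A) :
    (s σ).mulVec ((s φ).mulVec v) = θ (φ⁻¹ * σ * φ) • (s φ).mulVec v := by
  have hmem : φ⁻¹ * σ * φ ∈ Iner A := by
    have h := conj_mem_inertia A (inv_mem hφ) hσ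
    rwa [inv_inv] at h
  have h1 : s σ * s φ = s φ * s (φ⁻¹ * σ * φ) := by
    rw [← map_mul, ← map_mul]
    congr 1
    group
  rw [Matrix.mulVec_mulVec, h1, ← Matrix.mulVec_mulVec, hv _ hmem, Matrix.mulVec_smul]

theorem exists_eig (h : IrrHyp A p s φ)
    (hcomm : ∀ σ ∈ Iner A, ∀ τ ∈ Iner A, s σ * s τ = s τ * s σ) :
    ∃ (v₁ v₂ : Fin 2 → k) (θ₁ θ₂ : GQ → k) (x₀ y₀ : k), Eig A s φ v₁ v₂ θ₁ θ₂ x₀ y₀ := by
  obtain ⟨v₁, v₂, θ₁, θ₂, hind, h₁, h₂, σ₁, hσ₁, hne⟩ := exists_eigen h hcomm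
  have hφ : φ ∈ A.decompositionSubgroup ℚ := h.frob.mem_decompositionSubgroup
  have e₁ := hind.eigenvector_mem hne (h₁ σ₁ hσ₁) (h₂ σ₁ hσ₁) (EigFrob_eigen hφ h₁ hσ₁)
  have e₂ := hind.eigenvector_mem hne (h₁ σ₁ hσ₁) (h₂ σ₁ hσ₁) (EigFrob_eigen hφ h₂ hσ₁)
  have f₁ : ∃ b : k, (s φ).mulVec v₁ = b • v₂ := by
    rcases e₁ with ⟨a, ha⟩ | hb
    · exact absurd ⟨v₁, hind.ne_zero_left, ⟨a, ha⟩, fun τ hτ => ⟨θ₁ τ, h₁ τ hτ⟩⟩ h.noLine'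
    · exact hb
  have f₂ : ∃ a : k, (s φ).mulVec v₂ = a • v₁ := by
    rcases e₂ with ha | ⟨b, hb⟩
    · exact ha
    · exact absurd ⟨v₂, hind.ne_zero_right, ⟨b, hb⟩, fun τ hτ => ⟨θ₂ τ, h₂ τ hτ⟩⟩ h.noLine'
  obtain ⟨y₀, hy₀⟩ := f₁
  obtain ⟨x₀, hx₀⟩ := f₂
  exact ⟨v₁, v₂, θ₁, θ₂, x₀, y₀, hind, h₁, h₂, hy₀, hx₀⟩

end Fermat.Agent.S56.Flat.Irr
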