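/-
S56 / FLAT / IRR (architect helper78), task IRR-S10: API of `Eig`.
-/
import Fermat.Agent.S56.Flat.Irr.Defs3
import Fermat.Agent.S56.Flat.Irr.ChiConseq
import Fermat.Agent.S56.Flat.Irr.LinAlg

set_option autoImplicit false

namespace Fermat.Agent.S56.Flat.Irr

open Fermat.Agent.Lib.InertiaField Polynomial
open Fermat.Agent.S53 (M2)

variable {A : ValuationSubring Qb} {p : ℕ} {ϖ c : Qb}
variable {k : Type} [Field k] {s : GQ →* M2 k} {φ : GQ}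

/-! ## IRR-S10 (file `EigRel.lean`): `θ₂ = θ₁ ^ p`, `θ₁ = θ₂ ^ p`
`x₀ ≠ 0` since `s φ` is invertible and `v₂ ≠ 0`.  `s (φ σ φ⁻¹) (s φ v₂) = s φ (s σ v₂)`, i.e.
`x₀ • s (φ σ φ⁻¹) v₁ = (θ₂ σ * x₀) • v₁`, and `s (φ σ φ⁻¹) = s σ ^ p` (`ChiHyp.frob_conj`) acts on `v₁`
by `θ₁ σ ^ p`. -/
section S10
variable {v₁ v₂ : Fin 2 → k} {θ₁ θ₂ : GQ → k} {x₀ y₀ : k}

theorem EigRel.eq_zero_of_mulVec_eq_zero (g : GQ) {v : Fin 2 → k} (h : (s g).mulVec v = 0) :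
    v = 0 := by
  have h1 : (s g⁻¹).mulVec ((s g).mulVec v) = v := by
    rw [Matrix.mulVec_mulVec, ← map_mul, inv_mul_cancel, map_one, Matrix.one_mulVec]
  rw [← h1, h, Matrix.mulVec_zero]

theorem EigRel.eq_of_smul_eq {v : Fin 2 → k} (hv : v ≠ 0) {a b : k} (h : a • v = b • v) : a = b :=
  smul_left_injective k hv h

theorem Eig.swap (E : Eig A s φ v₁ v₂ θ₁ θ₂ x₀ y₀) : Eig A s φ v₂ v₁ θ₂ θ₁ y₀ x₀ :=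
  ⟨E.indep.symm, E.eig₂, E.eig₁, E.frob₂, E.frob₁⟩

theorem Eig.x₀_ne_zero (E : Eig A s φ v₁ v₂ θ₁ θ₂ x₀ y₀) : x₀ ≠ 0 := by
  intro h0
  have h1 := E.frob₂
  rw [h0, zero_smul] at h1
  exact E.indep.ne_zero_right (EigRel.eq_zero_of_mulVec_eq_zero φ h1)

theorem Eig.y₀_ne_zero (E : Eig A s φ v₁ v₂ θ₁ θ₂ x₀ y₀) : y₀ ≠ 0 := E.swap.x₀_ne_zero

theorem Eig.θ₁_ne_zero (E : Eig A s φ v₁ v₂ θ₁ θ₂ x₀ y₀) {σ : GQ} (hσ : σ ∈ Iner A) :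
    θ₁ σ ≠ 0 := by
  intro h0
  have h1 := E.eig₁ σ hσ
  rw [h0, zero_smul] at h1
  exact E.indep.ne_zero_left (EigRel.eq_zero_of_mulVec_eq_zero σ h1)

theorem Eig.θ₁_mul (E : Eig A s φ v₁ v₂ θ₁ θ₂ x₀ y₀) {σ τ : GQ} (hσ : σ ∈ Iner A)
    (hτ : τ ∈ Iner A) : θ₁ (σ * τ) = θ₁ σ * θ₁ τ := by
  apply EigRel.eq_of_smul_eq E.indep.ne_zero_left
  rw [← E.eig₁ _ (mul_mem hσ hτ), map_mul, ← Matrix.mulVec_mulVec, E.eig₁ τ hτ,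
    Matrix.mulVec_smul, E.eig₁ σ hσ, smul_smul, mul_comm]

theorem Eig.pow_mulVec (E : Eig A s φ v₁ v₂ θ₁ θ₂ x₀ y₀) {σ : GQ} (hσ : σ ∈ Iner A) (n : ℕ) :
    (s σ ^ n).mulVec v₁ = θ₁ σ ^ n • v₁ := by
  induction n with
  | zero => rw [pow_zero, pow_zero, Matrix.one_mulVec, one_smul]
  | succ n ih =>
    rw [pow_succ, ← Matrix.mulVec_mulVec, E.eig₁ σ hσ, Matrix.mulVec_smul, ih, smul_smul,
      pow_succ, mul_comm]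

theorem Eig.θ₂_eq (E : Eig A s φ v₁ v₂ θ₁ θ₂ x₀ y₀) (hp : p.Prime) (C : ChiHyp A p s c)
    (hφ : A.IsFrobeniusAt φ p) : ∀ σ ∈ Iner A, θ₂ σ = θ₁ σ ^ p := by
  intro σ hσ
  have h1 : s (φ * σ * φ⁻¹) * s φ = s φ * s σ := by
    rw [← map_mul, ← map_mul, inv_mul_cancel_right]
  have h2 : (s (φ * σ * φ⁻¹) * s φ).mulVec v₂ = (x₀ * θ₁ σ ^ p) • v₁ := by
    rw [← Matrix.mulVec_mulVec, E.frob₂, Matrix.mulVec_smul, C.frob_conj hp hφ σ hσ,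
      E.pow_mulVec hσ, smul_smul]
  have h3 : (s φ * s σ).mulVec v₂ = (x₀ * θ₂ σ) • v₁ := by
    rw [← Matrix.mulVec_mulVec, E.eig₂ σ hσ, Matrix.mulVec_smul, E.frob₂, smul_smul, mul_comm]
  rw [h1, h3] at h2
  exact mul_left_cancel₀ E.x₀_ne_zero (EigRel.eq_of_smul_eq E.indep.ne_zero_left h2)

theorem Eig.θ₁_eq (E : Eig A s φ v₁ v₂ θ₁ θ₂ x₀ y₀) (hp : p.Prime) (C : ChiHyp A p s c)
    (hφ : A.IsFrobeniusAt φ p) : ∀ σ ∈ Iner A, θ₁ σ = θ₂ σ ^ p := E.swap.θ₂_eq hp C hφ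

theorem Eig.θ₁_pow (E : Eig A s φ v₁ v₂ θ₁ θ₂ x₀ y₀) (hp : p.Prime) (C : ChiHyp A p s c)
    (hφ : A.IsFrobeniusAt φ p) : ∀ σ ∈ Iner A, θ₁ σ ^ (p ^ 2 - 1) = 1 := by
  intro σ hσ
  have h1 : θ₁ σ ^ (p ^ 2) = θ₁ σ := by
    conv_rhs => rw [E.θ₁_eq hp C hφ σ hσ, E.θ₂_eq hp C hφ σ hσ]
    rw [← pow_mul, sq]
  have h2 : 1 ≤ p ^ 2 := Nat.one_le_pow _ _ hp.pos
  have h3 : θ₁ σ ^ (p ^ 2 - 1) * θ₁ σ = 1 * θ₁ σ := by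
    rw [← pow_succ, Nat.sub_add_cancel h2, h1, one_mul]
  exact mul_right_cancel₀ (E.θ₁_ne_zero hσ) h3
end S10

end Fermat.Agent.S56.Flat.Irr
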