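/-
S56 / FLAT / IRR (architect helper78), task IRR-S11 (helper277): `chi A c = j₀ ∘ θ₁` or `j₀ ∘ θ₂`.
-/
import Fermat.Agent.S56.Flat.Irr.Defs3
import Fermat.Agent.S56.Flat.Irr.EigRel
import Fermat.Agent.S56.Flat.Irr.Semilin
import Fermat.Agent.S56.Flat.Irr.Chi

set_option autoImplicit false

namespace Fermat.Agent.S56.Flat.Irr

open Fermat.Agent.Lib.InertiaField Polynomial
open Fermat.Agent.S53 (M2)

variable {A : ValuationSubring Qb} {p : ℕ} {ϖ c : Qb}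
variable {k : Type} [Field k] {s : GQ →* M2 k} {φ : GQ}

/-! ## IRR-S11 (file `ChiTheta.lean`): `chi A c = j₀ ∘ θ₁` or `j₀ ∘ θ₂` -/
section S11
variable {v₁ v₂ : Fin 2 → k} {θ₁ θ₂ : GQ → k} {x₀ y₀ : k}

theorem Eig.chi_eq_or [CharP k p] (E : Eig A s φ v₁ v₂ θ₁ θ₂ x₀ y₀) (hp : p.Prime)
    (C : ChiHyp A p s c) (hφ : A.IsFrobeniusAt φ p) (j₀ : k →+* kb A) :
    ∀ σ ∈ Iner A, chi A c σ = j₀ (θ₁ σ) ∨ chi A c σ = j₀ (θ₂ σ) := by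
  intro σ hσ
  have : Fact p.Prime := ⟨hp⟩
  have h21 : θ₂ σ = θ₁ σ ^ p := E.θ₂_eq hp C hφ σ hσ
  have h12 : θ₁ σ = θ₂ σ ^ p := E.θ₁_eq hp C hφ σ hσ
  obtain ⟨n₁, hn₁⟩ := exists_natCast_eq_of_pow_eq (p := p) hp (c := θ₁ σ + θ₂ σ) (by
    rw [add_pow_char, ← h21, ← h12, add_comm])
  obtain ⟨n₀, hn₀⟩ := exists_natCast_eq_of_pow_eq (p := p) hp (c := θ₁ σ * θ₂ σ) (by
    rw [mul_pow, ← h21, ← h12, mul_comm])
  have hrel : s σ * s σ + (n₀ : M2 k) = (n₁ : M2 k) * s σ := by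
    apply E.indep.eq_of_mulVec_eq
    · rw [Matrix.add_mulVec, ← Matrix.mulVec_mulVec, ← Matrix.mulVec_mulVec, E.eig₁ σ hσ,
        Matrix.mulVec_smul, E.eig₁ σ hσ, Matrix.natCast_mulVec, Matrix.natCast_mulVec, ← hn₀, ← hn₁,
        smul_smul, smul_smul, ← add_smul]
      congr 1
      ring
    · rw [Matrix.add_mulVec, ← Matrix.mulVec_mulVec, ← Matrix.mulVec_mulVec, E.eig₂ σ hσ,
        Matrix.mulVec_smul, E.eig₂ σ hσ, Matrix.natCast_mulVec, Matrix.natCast_mulVec, ← hn₀, ← hn₁,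
        smul_smul, smul_smul, ← add_smul]
      congr 1
      ring
  have hq := C.quad σ hσ n₁ n₀ hrel
  have e₀ : (n₀ : kb A) = j₀ (θ₁ σ) * j₀ (θ₂ σ) := by
    rw [← map_mul, hn₀, map_natCast]
  have e₁ : (n₁ : kb A) = j₀ (θ₁ σ) + j₀ (θ₂ σ) := by
    rw [← map_add, hn₁, map_natCast]
  rw [e₀, e₁] at hq
  have hprod : (chi A c σ - j₀ (θ₁ σ)) * (chi A c σ - j₀ (θ₂ σ)) = 0 := by
    linear_combination hq
  rcases mul_eq_zero.1 hprod with h | h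
  · exact Or.inl (sub_eq_zero.1 h)
  · exact Or.inr (sub_eq_zero.1 h)

theorem Eig.chi_eq [CharP k p] (E : Eig A s φ v₁ v₂ θ₁ θ₂ x₀ y₀) (hp : p.Prime)
    (C : ChiHyp A p s c) (hφ : A.IsFrobeniusAt φ p) (j₀ : k →+* kb A) :
    (∀ σ ∈ Iner A, chi A c σ = j₀ (θ₁ σ)) ∨ (∀ σ ∈ Iner A, chi A c σ = j₀ (θ₂ σ)) := by
  have hor := E.chi_eq_or hp C hφ j₀
  have hc : c ≠ 0 := C.c_ne_zero hp
  by_contra hcon
  rw [not_or] at hcon
  obtain ⟨h1, h2⟩ := hcon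
  push Not at h1 h2
  obtain ⟨a, ha, ha1⟩ := h1
  obtain ⟨b, hb, hb2⟩ := h2
  have ha2 : chi A c a = j₀ (θ₂ a) := (hor a ha).resolve_left ha1
  have hb1 : chi A c b = j₀ (θ₁ b) := (hor b hb).resolve_right hb2
  have hab : a * b ∈ Iner A := mul_mem ha hb
  have hmul : chi A c (a * b) = j₀ (θ₂ a) * j₀ (θ₁ b) := by
    rw [chi_mul hc ha hb, ha2, hb1]
  rcases hor (a * b) hab with h | h
  · rw [hmul, E.θ₁_mul ha hb, map_mul] at h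
    have hne : j₀ (θ₁ b) ≠ 0 := (map_ne_zero j₀).2 (E.θ₁_ne_zero hb)
    exact ha1 (ha2.trans (mul_right_cancel₀ hne h))
  · rw [hmul, E.swap.θ₁_mul ha hb, map_mul] at h
    have hne : j₀ (θ₂ a) ≠ 0 := (map_ne_zero j₀).2 (E.swap.θ₁_ne_zero ha)
    exact hb2 (hb1.trans (mul_left_cancel₀ hne h))

end S11

end Fermat.Agent.S56.Flat.Irr
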