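/-
S56 / FLAT / IRR (architect helper78), task IRR-S14 (proofs: helper195): the determinant condition on
inertia: `θ₁ θ₂ = ω₂ ^ (p + 1)`.
-/
import Fermat.Agent.S56.Flat.Irr.Defs3
import Fermat.Agent.S56.Flat.Irr.EigRel
import Fermat.Agent.S56.Flat.Irr.Cyc
import Fermat.Agent.S56.Flat.Irr.LinAlg

set_option autoImplicit false

namespace Fermat.Agent.S56.Flat.Irr

open Fermat.Agent.Lib.InertiaField Polynomial
open Fermat.Agent.S53 (M2)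

variable {A : ValuationSubring Qb} {p : ℕ} {ϖ c : Qb}
variable {k : Type} [Field k] {s : GQ →* M2 k} {φ : GQ}

/-! ## IRR-S14 (file `DetCyc.lean`): the determinant condition on inertia -/
section S14
variable {v₁ v₂ : Fin 2 → k} {θ₁ θ₂ : GQ → k} {x₀ y₀ : k}

theorem exists_zeta (hp : p.Prime) : ∃ ζ : Qb, ζ ^ p = 1 ∧ ζ ≠ 1 := by
  have : NeZero p := ⟨hp.ne_zero⟩
  have : NeZero (p : Qb) := ⟨Nat.cast_ne_zero.2 hp.ne_zero⟩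
  obtain ⟨ζ, hζ⟩ := HasEnoughRootsOfUnity.exists_primitiveRoot Qb p
  exact ⟨ζ, hζ.pow_eq_one, hζ.ne_one hp.one_lt⟩

theorem exists_pow_of_zeta (hp : p.Prime) {ζ : Qb} (hζ : ζ ^ p = 1) (hζ1 : ζ ≠ 1) {μ : Qb}
    (hμ : μ ^ p = 1) : ∃ n : ℕ, μ = ζ ^ n := by
  have : NeZero p := ⟨hp.ne_zero⟩
  obtain ⟨n, -, hn⟩ := (Cyc.isPrimitiveRoot hp hζ hζ1).eq_pow_of_pow_eq_one hμ
  exact ⟨n, hn.symm⟩

theorem Eig.det_rel (E : Eig A s φ v₁ v₂ θ₁ θ₂ x₀ y₀) (h : IrrHyp A p s φ) (hU : Unif A p ϖ)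
    (j₀ : k →+* kb A) :
    ∀ σ ∈ Iner A, j₀ (θ₁ σ) * j₀ (θ₂ σ) = rs A (xi ϖ σ) ^ (p + 1) := by
  intro σ hσ
  obtain ⟨ζ, hζ, hζ1⟩ := exists_zeta h.prime
  obtain ⟨a, ha⟩ := exists_pow_of_zeta h.prime hζ hζ1 (μ := σ ζ) (by rw [← map_pow, hζ, map_one])
  have hdet : (s σ).det = (a : k) := by
    refine h.det σ a fun μ hμ => ?_
    obtain ⟨n, rfl⟩ := exists_pow_of_zeta h.prime hζ hζ1 hμ
    rw [map_pow, ha, ← pow_mul, ← pow_mul, mul_comm]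
  have h1 := E.indep.det_eq (E.eig₁ σ hσ) (E.eig₂ σ hσ)
  have h2 := hU.natCast_sub_xi_pow_mem hσ hζ hζ1 ha
  rw [← rs_eq_iff (natCast_mem A a) (pow_mem (hU.xi_mem σ) _), rs_natCast,
    rs_pow (hU.xi_mem σ)] at h2
  rw [← h2, ← map_mul, ← h1, hdet, map_natCast]

end S14

end Fermat.Agent.S56.Flat.Irr
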