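/-
S56 / FLAT / IRR (architect helper78), task IRR-S12 (owner helper145):
a tame element of exponent `p² - 1` has the valuation of a power of `ϖ`.

`e = p² - 1`, `O = orb A x` (the orbit of `x` under inertia), `r = O.card`.
* `r ∣ e`: `X : ↥(Iner A) →* (kb A)ˣ`, `σ ↦ chi A x σ`; its range is a finite subgroup of the units of a
  field, hence cyclic, of exponent dividing `e`; the stabiliser of `x` is the kernel of `X`, so
  `r = [I : Stab x] = [I : ker X] = |range X|` divides `e`.
* `val x ^ r = val p ^ n` (`val_prod_orb`, `prod_orb_mem_K0`, `exists_zpow_mul_unit`), so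
  `val x ^ e = (val ϖ ^ (n (e / r))) ^ e`, and `y ↦ y ^ e` is injective on the value group.
-/
import Fermat.Agent.S56.Flat.Irr.Defs3
import Fermat.Agent.S56.Flat.Irr.Chi
import Fermat.Agent.S56.Flat.Irr.TameSurj
import Fermat.Agent.Lib.InertiaField.TotRam.Orbit

set_option autoImplicit false

namespace Fermat.Agent.S56.Flat.Irr

open Fermat.Agent.Lib.InertiaField Polynomial
open Fermat.Agent.S53 (M2)

variable {A : ValuationSubring Qb} {p : ℕ} {ϖ c : Qb}
variable {k : Type} [Field k] {s : GQ →* M2 k} {φ : GQ}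

section S12

/-- a subgroup of the units of a field which is killed by `e > 0` has order dividing `e` -/
theorem valChi_card_dvd {K : Type*} [Field K] (S : Subgroup Kˣ) {e : ℕ} (he : 0 < e)
    (h : ∀ u ∈ S, u ^ e = 1) : Nat.card S ∣ e := by
  have : NeZero e := ⟨he.ne'⟩
  have hle : S ≤ rootsOfUnity e K := fun u hu => (mem_rootsOfUnity _ _).2 (h u hu)
  have : Finite S := Finite.of_injective _ (Subgroup.inclusion_injective hle)
  have : IsCyclic S := isCyclic_subgroup_units S
  rw [← IsCyclic.exponent_eq_card]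
  apply Monoid.exponent_dvd_of_forall_pow_eq_one
  intro g
  exact Subtype.ext (h g.1 g.2)

/-- the tame character as a homomorphism -/
noncomputable def valChiHom (A : ValuationSubring Qb) {x : Qb} (hx : x ≠ 0) :
    ↥(Iner A) →* (kb A)ˣ :=
  MonoidHom.mk' (fun σ => Units.mk0 (chi A x σ.1) (chi_ne_zero hx σ.2)) (by
    intro σ τ
    apply Units.ext
    simp only [Units.val_mk0, Units.val_mul, Subgroup.coe_mul]
    exact chi_mul hx σ.2 τ.2)

theorem valChiHom_apply (A : ValuationSubring Qb) {x : Qb} (hx : x ≠ 0) (σ : ↥(Iner A)) :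
    ((valChiHom A hx σ : (kb A)ˣ) : kb A) = chi A x σ.1 := rfl

theorem valChi_card_orb {x : Qb} (hx : x ≠ 0)
    (h1 : ∀ σ ∈ Iner A, chi A x σ = 1 → σ x = x) :
    (orb A x).card = Nat.card (valChiHom A hx).range := by
  have hstab : MulAction.stabilizer ↥(Iner A) x = (valChiHom A hx).ker := by
    ext σ
    rw [MulAction.mem_stabilizer_iff, MonoidHom.mem_ker]
    constructor
    · intro h
      apply Units.ext
      rw [valChiHom_apply]
      exact chi_of_fix hx h
    · intro h
      have h2 := congrArg Units.val h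
      rw [valChiHom_apply] at h2
      exact h1 σ.1 σ.2 h2
  have horb : MulAction.orbit ↥(Iner A) x = ↑(orb A x) := by
    ext y
    rw [MulAction.mem_orbit_iff, Finset.mem_coe, mem_orb]
    constructor
    · rintro ⟨σ, rfl⟩
      exact ⟨σ.1, σ.2, rfl⟩
    · rintro ⟨σ, hσ, rfl⟩
      exact ⟨⟨σ, hσ⟩, rfl⟩
  rw [← Subgroup.index_ker, ← hstab, MulAction.index_stabilizer, horb, Set.ncard_coe_finset]

theorem Unif.exists_val_eq_zpow_of_chi (h : Unif A p ϖ) {x : Qb} (hx : x ≠ 0)
    (h1 : ∀ σ ∈ Iner A, chi A x σ = 1 → σ x = x)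
    (h2 : ∀ σ ∈ Iner A, chi A x σ ^ (p ^ 2 - 1) = 1) :
    ∃ m : ℤ, A.valuation x = A.valuation ϖ ^ m := by
  have hepos := tameSurj_e_pos h
  have hdvd : (orb A x).card ∣ p ^ 2 - 1 := by
    rw [valChi_card_orb hx h1]
    apply valChi_card_dvd _ hepos
    rintro u ⟨σ, rfl⟩
    apply Units.ext
    rw [Units.val_pow_eq_pow_val, valChiHom_apply]
    exact h2 σ.1 σ.2
  obtain ⟨t, ht⟩ := hdvd
  have hv := val_prod_orb A x
  have hvx : A.valuation x ≠ 0 := (_root_.map_ne_zero _).2 hx
  have hne : ∏ y ∈ orb A x, y ≠ 0 := by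
    rw [← _root_.map_ne_zero A.valuation, hv]
    exact pow_ne_zero _ hvx
  obtain ⟨n, u, -, hu, hu', hn⟩ :=
    exists_zpow_mul_unit A p h.prime h.lies (prod_orb_mem_K0 A x) hne
  have hu0 : u ≠ 0 := by
    rintro rfl
    rw [mul_zero] at hn
    exact hne hn
  have hu1 : A.valuation u = 1 := by
    have h1 : A.valuation u ≤ 1 := (A.valuation_le_one_iff _).2 hu
    have h2 : A.valuation u⁻¹ ≤ 1 := (A.valuation_le_one_iff _).2 hu'
    rw [map_inv₀] at h2
    have h0 : A.valuation u ≠ 0 := (_root_.map_ne_zero _).2 hu0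
    exact le_antisymm h1 ((inv_le_one₀ (zero_lt_iff.2 h0)).1 h2)
  have hr : A.valuation x ^ (orb A x).card = A.valuation (p : Qb) ^ n := by
    rw [← hv, hn, map_mul, map_zpow₀, hu1, mul_one]
  refine ⟨n * t, ?_⟩
  rw [← pow_left_inj₀ zero_le zero_le hepos.ne']
  calc A.valuation x ^ (p ^ 2 - 1) = (A.valuation x ^ (orb A x).card) ^ t := by
        rw [← pow_mul, ← ht]
    _ = (A.valuation (p : Qb) ^ n) ^ t := by rw [hr]
    _ = ((A.valuation ϖ ^ (p ^ 2 - 1)) ^ n) ^ t := by rw [h.val_pow]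
    _ = (A.valuation ϖ ^ (n * t)) ^ (p ^ 2 - 1) := by
        rw [← zpow_natCast (A.valuation ϖ) (p ^ 2 - 1), ← zpow_natCast _ t,
          ← zpow_natCast _ (p ^ 2 - 1), ← zpow_mul, ← zpow_mul, ← zpow_mul]
        congr 1
        ring

end S12

end Fermat.Agent.S56.Flat.Irr
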