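/-
S56 / FLAT / IRR (architect helper78), task IRR-S13: the exponent `m` with `chi A c = ω₂ ^ m`.
-/
import Fermat.Agent.S56.Flat.Irr.Defs3
import Fermat.Agent.S56.Flat.Irr.ValChi
import Fermat.Agent.S56.Flat.Irr.ChiConseq
import Fermat.Agent.S56.Flat.Irr.Chi
import Fermat.Agent.S56.Flat.Irr.Tame1
import Fermat.Agent.S56.Flat.Irr.TameSurj

set_option autoImplicit false

namespace Fermat.Agent.S56.Flat.Irr

open Fermat.Agent.Lib.InertiaField Polynomial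
open Fermat.Agent.S53 (M2)

variable {A : ValuationSubring Qb} {p : ℕ} {ϖ c : Qb}
variable {k : Type} [Field k] {s : GQ →* M2 k} {φ : GQ}

section S13

theorem ChiHyp.exists_exponent (h : Unif A p ϖ) (C : ChiHyp A p s c)
    (hchi : ∀ σ ∈ Iner A, chi A c σ ^ (p ^ 2 - 1) = 1) :
    ∃ m : ℕ, 1 ≤ m ∧ m ≤ p + 1 ∧ ∀ σ ∈ Iner A, chi A c σ = rs A (xi ϖ σ) ^ m := by
  have hp := h.prime
  have hc0 : c ≠ 0 := C.c_ne_zero hp
  obtain ⟨x, hxv, hxfix⟩ := C.fix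
  have hx0 : x ≠ 0 := by
    rw [← _root_.map_ne_zero A.valuation, hxv]
    exact (_root_.map_ne_zero _).2 hc0
  have hcx : ∀ σ ∈ Iner A, chi A x σ = chi A c σ := fun σ hσ => chi_congr hx0 hxv hσ
  obtain ⟨m, hm⟩ := h.exists_val_eq_zpow_of_chi hx0
    (fun σ hσ h1 => hxfix σ hσ ((C.chi_eq_one_iff hp σ hσ).1 (by rw [← hcx σ hσ, h1])))
    (fun σ hσ => by rw [hcx σ hσ, hchi σ hσ])
  rw [hxv] at hm
  have hv0 : 0 < A.valuation ϖ := zero_lt_iff.2 h.val_ne_zero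
  have hv1 : A.valuation ϖ < 1 := h.val_lt_one
  have hm1 : 0 < m := by
    have h1 := C.val_lt
    rw [hm, ← zpow_zero (A.valuation ϖ)] at h1
    exact (zpow_lt_zpow_iff_right_of_lt_one₀ hv0 hv1).1 h1
  have h3 := h.three_le
  have hm2 : m * ((p - 1 : ℕ) : ℤ) ≤ ((p ^ 2 - 1 : ℕ) : ℤ) := by
    have h1 := C.val_le
    rw [← h.val_pow, hm, ← zpow_natCast, ← zpow_natCast, ← zpow_mul] at h1
    exact (zpow_le_zpow_iff_right_of_lt_one₀ hv0 hv1).1 h1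
  obtain ⟨q, rfl⟩ : ∃ q, p = q + 1 := ⟨p - 1, by omega⟩
  have e1 : ((q + 1) ^ 2 - 1 : ℕ) = q * (q + 2) := by
    have : (q + 1) ^ 2 = q * (q + 2) + 1 := by ring
    omega
  rw [e1, Nat.add_sub_cancel] at hm2
  push_cast at hm2
  have hq : (0 : ℤ) < q := by omega
  have hm3 : m ≤ (q : ℤ) + 2 := by
    by_contra hcon
    rw [not_le] at hcon
    nlinarith
  obtain ⟨n, rfl⟩ : ∃ n : ℕ, m = (n : ℤ) := ⟨m.toNat, by omega⟩
  refine ⟨n, by omega, by omega, fun σ hσ => ?_⟩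
  rw [zpow_natCast, ← map_pow] at hm
  rw [chi_congr hc0 hm hσ, chi_pow_left h.ne_zero hσ, chi_eq_xi]

theorem exponent_eq (h : Unif A p ϖ) {m : ℕ} (h1 : 1 ≤ m) (h2 : m ≤ p + 1)
    (hm : ∀ σ ∈ Iner A, rs A (xi ϖ σ) ^ (m * (p + 1)) = rs A (xi ϖ σ) ^ (p + 1)) :
    m = 1 ∨ m = p := by
  obtain ⟨σ, hσ, hord⟩ := h.exists_inertia_generator
  have h3 := h.three_le
  have hg0 : rs A (xi ϖ σ) ≠ 0 := Chi.rs_ne_zero (h.val_xi σ)
  obtain ⟨q, rfl⟩ : ∃ q, p = q + 1 := ⟨p - 1, by omega⟩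
  obtain ⟨t, rfl⟩ : ∃ t, m = t + 1 := ⟨m - 1, by omega⟩
  have e1 : ((q + 1) ^ 2 - 1 : ℕ) = q * (q + 2) := by
    have : (q + 1) ^ 2 = q * (q + 2) + 1 := by ring
    omega
  have h5 : rs A (xi ϖ σ) ^ (t * (q + 2)) = 1 := by
    have h6 := hm σ hσ
    rw [show (t + 1) * (q + 1 + 1) = t * (q + 2) + (q + 1 + 1) by ring, pow_add] at h6
    exact mul_right_cancel₀ (pow_ne_zero _ hg0) (by rw [h6, one_mul])
  have h4 := orderOf_dvd_of_pow_eq_one h5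
  rw [hord, e1] at h4
  obtain ⟨r, rfl⟩ := Nat.dvd_of_mul_dvd_mul_right (by omega : 0 < q + 2) h4
  rcases r with _ | _ | r
  · left; simp
  · right; simp
  · exfalso
    have : q * (r + 1 + 1) ≥ 2 * q := by nlinarith
    omega

end S13

end Fermat.Agent.S56.Flat.Irr
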