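/-
S56 / FLAT / IRR (architect helper78), task IRR-S15: one of the two eigencharacters of inertia is
the fundamental character of level `2`.
-/
import Fermat.Agent.S56.Flat.Irr.Defs3
import Fermat.Agent.S56.Flat.Irr.ChiTheta
import Fermat.Agent.S56.Flat.Irr.ExpM
import Fermat.Agent.S56.Flat.Irr.DetCyc

set_option autoImplicit false

namespace Fermat.Agent.S56.Flat.Irr

open Fermat.Agent.Lib.InertiaField Polynomial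
open Fermat.Agent.S53 (M2)

variable {A : ValuationSubring Qb} {p : ℕ} {ϖ c : Qb}
variable {k : Type} [Field k] {s : GQ →* M2 k} {φ : GQ}

/-! ## IRR-S15 (file `Fund.lean`): one of the two characters is the fundamental character
`Eig.chi_eq`; up to `Eig.swap` `chi A c = j₀ ∘ θ₁`.  `chi ^ (p² - 1) = 1` (`Eig.θ₁_pow`),
`ChiHyp.exists_exponent` gives `m`; `Eig.det_rel` and `θ₂ = θ₁ ^ p` give
`ω ^ (m (p + 1)) = ω ^ (p + 1)`, `ω = rs (xi ϖ ·)`; `exponent_eq`: `m = 1` or `m = p`.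
`m = 1`: take `(v₁, v₂, θ₁, θ₂)`.  `m = p`: `j₀ (θ₂ σ) = j₀ (θ₁ σ) ^ p = ω ^ (p²) = ω`
(`Unif.xi_pow`), take the swapped basis, `θ₁ = θ₂ ^ p` (`Eig.θ₁_eq`). -/
section S15
variable {v₁ v₂ : Fin 2 → k} {θ₁ θ₂ : GQ → k} {x₀ y₀ : k}

/-- The case `chi A c = j₀ ∘ θ₁`. -/
theorem exists_fund_aux [CharP k p] (h : IrrHyp A p s φ) (hU : Unif A p ϖ) (C : ChiHyp A p s c)
    (E : Eig A s φ v₁ v₂ θ₁ θ₂ x₀ y₀) (j₀ : k →+* kb A)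
    (hχ : ∀ σ ∈ Iner A, chi A c σ = j₀ (θ₁ σ)) :
    ∃ (w₁ w₂ : Fin 2 → k) (θ θ' : GQ → k) (x₁ y₁ : k), Eig A s φ w₁ w₂ θ θ' x₁ y₁ ∧
      (∀ σ ∈ Iner A, θ' σ = θ σ ^ p) ∧ ∀ σ ∈ Iner A, j₀ (θ σ) = rs A (xi ϖ σ) := by
  have h21 := E.θ₂_eq h.prime C h.frob
  have h12 := E.θ₁_eq h.prime C h.frob
  have hchi : ∀ σ ∈ Iner A, chi A c σ ^ (p ^ 2 - 1) = 1 := by
    intro σ hσ
    rw [hχ σ hσ, ← map_pow, E.θ₁_pow h.prime C h.frob σ hσ, map_one]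
  obtain ⟨m, hm1, hm2, hm⟩ := C.exists_exponent hU hchi
  have hrel : ∀ σ ∈ Iner A, rs A (xi ϖ σ) ^ (m * (p + 1)) = rs A (xi ϖ σ) ^ (p + 1) := by
    intro σ hσ
    rw [← E.det_rel h hU j₀ σ hσ, h21 σ hσ, map_pow, ← hχ σ hσ, hm σ hσ, pow_mul, pow_succ']
  have hω : ∀ σ : GQ, rs A (xi ϖ σ) ^ (p ^ 2) = rs A (xi ϖ σ) := by
    intro σ
    have h1 : rs A (xi ϖ σ) ^ (p ^ 2 - 1) = 1 := by
      rw [← rs_pow (hU.xi_mem σ), hU.xi_pow, rs_one]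
    have h2 : p ^ 2 = (p ^ 2 - 1) + 1 := by
      have := Nat.one_le_pow 2 p h.prime.pos
      omega
    rw [h2, pow_succ, h1, one_mul]
  rcases exponent_eq hU hm1 hm2 hrel with rfl | rfl
  · refine ⟨v₁, v₂, θ₁, θ₂, x₀, y₀, E, h21, fun σ hσ => ?_⟩
    rw [← hχ σ hσ, hm σ hσ, pow_one]
  · refine ⟨v₂, v₁, θ₂, θ₁, y₀, x₀, E.swap, h12, fun σ hσ => ?_⟩
    rw [h21 σ hσ, map_pow, ← hχ σ hσ, hm σ hσ, ← pow_mul, ← sq, hω σ]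

theorem exists_fund [CharP k p] (h : IrrHyp A p s φ) (hU : Unif A p ϖ) (C : ChiHyp A p s c)
    (E : Eig A s φ v₁ v₂ θ₁ θ₂ x₀ y₀) (j₀ : k →+* kb A) :
    ∃ (w₁ w₂ : Fin 2 → k) (θ θ' : GQ → k) (x₁ y₁ : k), Eig A s φ w₁ w₂ θ θ' x₁ y₁ ∧
      (∀ σ ∈ Iner A, θ' σ = θ σ ^ p) ∧ ∀ σ ∈ Iner A, j₀ (θ σ) = rs A (xi ϖ σ) := by
  rcases E.chi_eq h.prime C h.frob j₀ with hχ | hχ
  · exact exists_fund_aux h hU C E j₀ hχ
  · exact exists_fund_aux h hU C E.swap j₀ hχ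
end S15

end Fermat.Agent.S56.Flat.Irr
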