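/-
S56 / FLAT / IRR (architect helper78), task IRR-S4 (helper217): (TC) applied to a minimal stable
subgroup of `k²`.
-/
import Fermat.Agent.S56.Flat.Irr.Defs3
import Fermat.Agent.S56.Flat.Export
import Fermat.Agent.S56.Flat.Depth.SubAction

set_option autoImplicit false

namespace Fermat.Agent.S56.Flat.Irr

open Fermat.Agent.Lib.InertiaField Polynomial
open Fermat.Agent.S53 (M2)

variable {A : ValuationSubring Qb} {p : ℕ} {ϖ c : Qb}
variable {k : Type} [Field k] {s : GQ →* M2 k} {φ : GQ}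

/-! ## IRR-S4 (file `LeadTC.lean`): (TC) applied to a minimal stable subgroup of `k²` -/
section S4

/-- a nonzero finite module has a minimal nonzero stable subgroup. -/
theorem leadTC_exists_minimal {G W : Type} [Group G] [AddCommGroup W] [DistribMulAction G W]
    [Finite W] [Nontrivial W] :
    ∃ W0 : AddSubgroup W, W0 ≠ ⊥ ∧ (∀ σ : G, ∀ w ∈ W0, σ • w ∈ W0) ∧
      ∀ W' : AddSubgroup W, (∀ σ : G, ∀ w ∈ W', σ • w ∈ W') → W' ≤ W0 → W' = ⊥ ∨ W' = W0 := by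
  have hwf : WellFounded ((· < ·) : AddSubgroup W → AddSubgroup W → Prop) := wellFounded_lt
  obtain ⟨W0, hW0, hmin⟩ := hwf.has_min
    {W' : AddSubgroup W | W' ≠ ⊥ ∧ ∀ σ : G, ∀ w ∈ W', σ • w ∈ W'}
    ⟨⊤, top_ne_bot, fun _ _ _ => AddSubgroup.mem_top _⟩
  refine ⟨W0, hW0.1, hW0.2, fun W' hst hle => ?_⟩
  by_cases hb : W' = ⊥
  · exact Or.inl hb
  · right
    by_contra hne
    exact hmin W' ⟨hb, hst⟩ (lt_of_le_of_ne hle hne)

/-- the abstract form of `exists_lead_or_fixed`. -/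
theorem leadTC_core {W : Type} [AddCommGroup W] [DistribMulAction ↥(Iner A) W] [Finite W]
    [Nontrivial W] (hp : p.Prime) (hp2 : p ≠ 2) (hA : A.LiesOverPrime p)
    (hpW : ∀ w : W, p • w = 0) (hflat : FlatLoc A W) :
    (∃ w : W, w ≠ 0 ∧ ∀ σ : ↥(Iner A), σ • w = w) ∨
    ∃ (W0 : AddSubgroup W) (c : Qb) (y : W → Qb),
      (∃ w ∈ W0, w ≠ 0) ∧ (∀ σ : ↥(Iner A), ∀ w ∈ W0, σ • w ∈ W0) ∧ A.valuation c < 1 ∧
      A.valuation (p : Qb) ≤ A.valuation c ^ (p - 1) ∧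
      (∀ σ : ↥(Iner A), ∀ w ∈ W0, y (σ • w) = σ.1 (y w)) ∧
      (∀ w ∈ W0, w ≠ 0 → A.valuation (y w) = A.valuation c) ∧ y 0 = 0 ∧
      (∀ w ∈ W0, ∀ w' ∈ W0, A.valuation (y (w + w') - y w - y w') < A.valuation c) := by
  classical
  obtain ⟨W0, hne, hst, hmin⟩ := leadTC_exists_minimal (G := ↥(Iner A)) (W := W)
  obtain ⟨w0, hw0, hw0ne⟩ : ∃ w ∈ W0, w ≠ 0 := by
    by_contra hcon
    apply hne
    rw [AddSubgroup.eq_bot_iff_forall]
    intro x hx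
    by_contra hx0
    exact hcon ⟨x, hx, hx0⟩
  let _ := subAction W0 hst
  have hfl : FlatLoc A ↥W0 := hflat.of_injective (subMap W0 hst) (subMap_injective W0 hst)
  have hpW0 : ∀ w : ↥W0, p • w = 0 := fun w => Subtype.ext (hpW w.1)
  have hirr : ∀ W' : AddSubgroup ↥W0, (∀ (σ : ↥(Iner A)), ∀ w ∈ W', σ • w ∈ W') →
      W' = ⊥ ∨ W' = ⊤ := by
    intro W' hW'
    have h1 : ∀ σ : ↥(Iner A), ∀ w ∈ W'.map W0.subtype, σ • w ∈ W'.map W0.subtype := by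
      rintro σ _ ⟨w, hw, rfl⟩
      exact ⟨σ • w, hW' σ w hw, rfl⟩
    have h2 : W'.map W0.subtype ≤ W0 := by
      rintro _ ⟨w, -, rfl⟩
      exact w.2
    rcases hmin _ h1 h2 with h3 | h3
    · left
      rw [AddSubgroup.eq_bot_iff_forall]
      intro x hx
      have h4 : (x : W) ∈ W'.map W0.subtype := ⟨x, hx, rfl⟩
      rw [h3, AddSubgroup.mem_bot] at h4
      exact Subtype.ext h4
    · right
      rw [AddSubgroup.eq_top_iff']
      intro x
      have h4 : (x : W) ∈ W'.map W0.subtype := by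
        rw [h3]
        exact x.2
      obtain ⟨x', hx', hxx⟩ := h4
      have h5 : x' = x := Subtype.ext hxx
      rwa [h5] at hx'
  rcases FlatLoc.exists_leading_term hp hp2 hA hpW0 hfl hirr with h | ⟨c, y, h1, h2, h3, h4, h5, h6⟩
  · left
    exact ⟨w0, hw0ne, fun σ => congrArg Subtype.val (h σ ⟨w0, hw0⟩)⟩
  · right
    refine ⟨W0, c, fun w => if h : w ∈ W0 then y ⟨w, h⟩ else 0, ⟨w0, hw0, hw0ne⟩, hst, h1, h2,
      ?_, ?_, ?_, ?_⟩
    · intro σ w hw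
      simp only [dif_pos hw, dif_pos (hst σ w hw)]
      exact h3 σ ⟨w, hw⟩
    · intro w hw hw0
      simp only [dif_pos hw]
      exact h4 ⟨w, hw⟩ fun h => hw0 (congrArg Subtype.val h)
    · simp only [dif_pos W0.zero_mem]
      exact h5
    · intro w hw w' hw'
      simp only [dif_pos hw, dif_pos hw', dif_pos (W0.add_mem hw hw')]
      exact h6 ⟨w, hw⟩ ⟨w', hw'⟩

theorem exists_lead_or_fixed [Finite k] [CharP k p] (hp : p.Prime) (hp2 : p ≠ 2)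
    (hA : A.LiesOverPrime p) (hflat : FlatLoc A (Vb s)) :
    (∃ w : Fin 2 → k, w ≠ 0 ∧ ∀ σ ∈ Iner A, (s σ).mulVec w = w) ∨
      ∃ (W0 : AddSubgroup (Fin 2 → k)) (c : Qb) (y : (Fin 2 → k) → Qb), Lead A p s W0 c y := by
  have : Nontrivial (Vb s) := inferInstanceAs (Nontrivial (Fin 2 → k))
  have hpW : ∀ w : Vb s, p • w = 0 := by
    intro w
    funext i
    show p • (w.vec i) = 0
    rw [nsmul_eq_mul, CharP.cast_eq_zero, zero_mul]
  rcases leadTC_core hp hp2 hA hpW hflat with ⟨w, hw, hfix⟩ | ⟨W0, c, y, h0, h1, h2, h3, h4, h5, h6, h7⟩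
  · left
    exact ⟨w, hw, fun σ hσ => hfix ⟨σ, hσ⟩⟩
  · right
    exact ⟨W0, c, y, ⟨h0, fun σ hσ w hw => h1 ⟨σ, hσ⟩ w hw, h2, h3,
      fun σ hσ w hw => h4 ⟨σ, hσ⟩ w hw, h5, h6, h7⟩⟩

end S4

end Fermat.Agent.S56.Flat.Irr
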