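/-
S56 / FLAT / IRR (architect helper78), task IRR-S16 (proof helper298): construction of the `Shape`.
-/
import Fermat.Agent.S56.Flat.Irr.Defs3
import Fermat.Agent.S56.Flat.Irr.LinAlg
import Fermat.Agent.S56.Flat.Irr.DetCyc
import Fermat.Agent.S56.Flat.Irr.TameSurj
import Fermat.Agent.Lib.InertiaField.Residue

set_option autoImplicit false

namespace Fermat.Agent.S56.Flat.Irr

open Fermat.Agent.Lib.InertiaField Polynomial
open Fermat.Agent.S53 (M2)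

variable {A : ValuationSubring Qb} {p : ℕ} {ϖ c : Qb}
variable {k : Type} [Field k] {s : GQ →* M2 k} {φ : GQ}

section S16
variable {v₁ v₂ : Fin 2 → k} {θ θ' : GQ → k} {x₀ y₀ : k}

theorem exists_unif (hp : p.Prime) (hp2 : p ≠ 2) (hA : A.LiesOverPrime p) :
    ∃ ϖ : Qb, Unif A p ϖ := by
  have he : 0 < p ^ 2 - 1 := by
    have h3 : 2 ^ 2 ≤ p ^ 2 := Nat.pow_le_pow_left hp.two_le 2
    omega
  obtain ⟨ϖ, hϖ⟩ := IsAlgClosed.exists_pow_nat_eq (p : Qb) he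
  exact ⟨ϖ, hp, hp2, hA, hϖ⟩

theorem exists_embedding [Finite k] [CharP k p] (hp : p.Prime) (hA : A.LiesOverPrime p) :
    Nonempty (k →+* kb A) := by
  have : Fact p.Prime := ⟨hp⟩
  have : CharP (kb A) p := charP_residueField A p hp hA
  have : IsAlgClosed (kb A) := isAlgClosed_residueField A
  letI := ZMod.algebra k p
  letI := ZMod.algebra (kb A) p
  have : Module.Finite (ZMod p) k := Module.Finite.of_finite
  have : Algebra.IsAlgebraic (ZMod p) k := Algebra.IsAlgebraic.of_finite (ZMod p) k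
  exact ⟨(IsAlgClosed.lift : k →ₐ[ZMod p] kb A).toRingHom⟩

theorem shape_of_eig (hU : Unif A p ϖ) (hφ : A.IsFrobeniusAt φ p)
    (E : Eig A s φ v₁ v₂ θ θ' x₀ y₀) (hθ' : ∀ σ ∈ Iner A, θ' σ = θ σ ^ p) (j₀ : k →+* kb A)
    (hj : ∀ σ ∈ Iner A, j₀ (θ σ) = rs A (xi ϖ σ)) :
    ∃ (P Q : M2 k) (hPQ : P * Q = 1) (hQP : Q * P = 1),
      Nonempty (Shape A p ϖ (conjRep s P Q hPQ hQP)) := by
  obtain ⟨P, Q, hPQ, hQP, hconj⟩ := E.indep.exists_conj
  obtain ⟨ζ, hζ, hζ1⟩ := exists_zeta hU.prime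
  obtain ⟨τ₀, hτ₀, hord⟩ := hU.exists_inertia_generator
  obtain ⟨n, hn⟩ := exists_pow_of_zeta hU.prime hζ hζ1 (μ := (φ * φ) ζ)
    (by rw [← map_pow, hζ, map_one])
  refine ⟨P, Q, hPQ, hQP, ⟨{
    θ := θ, diag := ?_, jj := j₀, jj_θ := hj, φ := φ, frob := hφ, x₀ := x₀, y₀ := y₀, anti := ?_,
    ζ := ζ, ζ_pow := hζ, ζ_ne := hζ1, τ₀ := τ₀, τ₀_mem := hτ₀, τ₀_order := ?_, nψ := n,
    nψ_spec := hn }⟩⟩
  · intro σ hσ
    rw [conjRep_apply]
    apply hconj (s σ) (θ σ) 0 0 (θ σ ^ p)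
    · rw [E.eig₁ σ hσ, zero_smul, add_zero]
    · rw [E.eig₂ σ hσ, hθ' σ hσ, zero_smul, zero_add]
  · rw [conjRep_apply]
    apply hconj (s φ) 0 x₀ y₀ 0
    · rw [E.frob₁, zero_smul, zero_add]
    · rw [E.frob₂, zero_smul, add_zero]
  · rw [← orderOf_injective (j₀ : k →* kb A) j₀.injective (θ τ₀)]
    show orderOf (j₀ (θ τ₀)) = _
    rw [hj τ₀ hτ₀, hord]

end S16

end Fermat.Agent.S56.Flat.Irr
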