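/-
S56 / FLAT / IRR (architect helper78), task IRR-S17 (helper162): final assembly of the irreducible
case.
-/
import Fermat.Agent.S56.Flat.Irr.Defs3
import Fermat.Agent.S56.Flat.Irr.LeadTC
import Fermat.Agent.S56.Flat.Irr.ChiHypOf
import Fermat.Agent.S56.Flat.Irr.ChiConseq
import Fermat.Agent.S56.Flat.Irr.EigFrob
import Fermat.Agent.S56.Flat.Irr.Fund
import Fermat.Agent.S56.Flat.Irr.ShapeOf
import Fermat.Agent.S56.Flat.Irr.Core
import Fermat.Agent.S56.Flat.Irr.Conj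

set_option autoImplicit false

namespace Fermat.Agent.S56.Flat.Irr

open Fermat.Agent.Lib.InertiaField Polynomial
open Fermat.Agent.S53 (M2)

variable {A : ValuationSubring Qb} {p : ℕ} {ϖ c : Qb}
variable {k : Type} [Field k] {s : GQ →* M2 k} {φ : GQ}

/-! ## IRR-S17 (file `Main.lean`): the irreducible case -/
section S17
variable {H : Type} [Group H] {f : H →* GQ}
theorem exists_shape [Finite k] [CharP k p] (h : IrrHyp A p s φ) (hflat : FlatLoc A (Vb s)) :
    ∃ (ϖ : Qb) (P Q : M2 k) (hPQ : P * Q = 1) (hQP : Q * P = 1), Unif A p ϖ ∧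
      Nonempty (Shape A p ϖ (conjRep s P Q hPQ hQP)) := by
  rcases exists_lead_or_fixed h.prime h.odd h.lies hflat with hfix | ⟨W0, c, y, L⟩
  · exact absurd hfix h.no_fixed
  · have C : ChiHyp A p s c := chiHyp_of_lead h L
    obtain ⟨v₁, v₂, θ₁, θ₂, x₀, y₀, E⟩ := exists_eig h (C.comm h.prime)
    obtain ⟨ϖ, hU⟩ := exists_unif (A := A) h.prime h.odd h.lies
    obtain ⟨j₀⟩ := exists_embedding (A := A) (k := k) h.prime h.lies
    obtain ⟨w₁, w₂, θ, θ', x₁, y₁, E', hθ', hj⟩ := exists_fund h hU C E j₀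
    obtain ⟨P, Q, hPQ, hQP, hSh⟩ := shape_of_eig hU h.frob E' hθ' j₀ hj
    exact ⟨ϖ, P, Q, hPQ, hQP, hU, hSh⟩
theorem countCore_irr [Finite k] [CharP k p] (h : IrrHyp A p s φ) (hflat : FlatLoc A (Vb s))
    (hf : IsLocMap A f) : CountCore A p f s := by
  obtain ⟨ϖ, P, Q, hPQ, hQP, hU, ⟨Sh⟩⟩ := exists_shape h hflat
  exact countCore_conj P Q hPQ hQP (countCore_of_shape hU Sh hf)
end S17

end Fermat.Agent.S56.Flat.Irr
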