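/-
S56 / FLAT / IRR (helper78): the hypotheses `IrrHyp` for an ARBITRARY place `A` over `p`, from
`ResHyp` and the absence of a stable line.  Frobenius: `Lib.Frobenius.exists_isFrobeniusAt`;
density of its powers modulo inertia: `S19.exists_frob_pow_inertia`.
-/
import Fermat.Agent.S56.Flat.Irr.Defs3
import Fermat.Agent.S56.Flat.Irr.Res
import Fermat.Agent.S56.Interface
import Fermat.Agent.S19.T.Decomp
import Fermat.Agent.Lib.Frobenius

set_option autoImplicit false

namespace Fermat.Agent.S56.Flat.Irr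

open Fermat.Agent.Lib.InertiaField Polynomial
open Fermat.Agent.S53 (M2)

variable {k : Type} [Field k]

theorem exists_irrHyp_A {p : ℕ} (hp : p.Prime) (hp2 : p ≠ 2) {A : ValuationSubring Qb}
    (hA : A.LiesOverPrime p) {s : GQ →* M2 k} (hs : Fermat.Agent.S56.ResHyp p s)
    (hline : ¬ ∃ v : Fin 2 → k, v ≠ 0 ∧
      ∀ g ∈ A.decompositionSubgroup ℚ, ∃ a : k, (s g).mulVec v = a • v) :
    ∃ φ : GQ, IrrHyp A p s φ := by
  haveI : Fact p.Prime := ⟨hp⟩
  obtain ⟨φ, hφ⟩ := Fermat.Agent.Lib.Frobenius.exists_isFrobeniusAt A p hp hA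
  refine ⟨φ, hp, hp2, hA, hφ, ?_, hs.det, hs.split, hline⟩
  intro g hg
  obtain ⟨F, hF, hFs⟩ := hs.fin
  haveI : IsGalois ℚ Qb := Fermat.Agent.Lib.Frobenius.isGalois_rat
  have hF' : @FiniteDimensional ℚ F _ _ (IntermediateField.module' F) := by
    convert hF
  haveI hfd : FiniteDimensional ℚ (IntermediateField.normalClosure ℚ F Qb) :=
    normalClosure.is_finiteDimensional ℚ F Qb
  haveI hn : Normal ℚ (IntermediateField.normalClosure ℚ F Qb) := normalClosure.normal ℚ F Qb
  haveI hgal : IsGalois ℚ (IntermediateField.normalClosure ℚ F Qb) := ⟨⟩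
  have hstab : Fermat.Agent.S19.StabAt A (IntermediateField.normalClosure ℚ F Qb) g := by
    intro a _ ha
    rw [← A.valuation_le_one_iff] at ha ⊢
    rwa [val_apply hg]
  obtain ⟨j, τ, hτ, hjτ⟩ := Fermat.Agent.S19.exists_frob_pow_inertia hA hφ
    (IntermediateField.normalClosure ℚ F Qb) hstab
  refine ⟨j, τ, hτ, ?_⟩
  have h1 : s ((φ ^ j * τ)⁻¹ * g) = 1 := by
    apply hFs
    intro x hx
    have hx' : x ∈ IntermediateField.normalClosure ℚ F Qb := F.le_normalClosure hx
    have h2 : g x = (φ ^ j * τ) x := hjτ x hx'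
    rw [AlgEquiv.mul_apply, h2]
    exact (φ ^ j * τ).symm_apply_apply x
  have h3 : s g = s (φ ^ j * τ) * s ((φ ^ j * τ)⁻¹ * g) := by
    rw [← map_mul, mul_inv_cancel_left]
  rw [h3, h1, mul_one, map_mul, map_pow]

end Fermat.Agent.S56.Flat.Irr
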