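/-
S56 / FLAT / IRR (architect helper78), task IRR-C11 (helper233): the count is invariant under
conjugation of `s`.
-/
import Fermat.Agent.S56.Flat.Irr.Defs2
import Fermat.Agent.S56.Flat.Irr.MCoc

set_option autoImplicit false

namespace Fermat.Agent.S56.Flat.Irr

open Fermat.Agent.Lib.InertiaField
open Fermat.Agent.S53 (M2)

variable {A : ValuationSubring Qb} {p : ℕ} {ϖ : Qb}
variable {k : Type} [Field k] {H : Type} [Group H] {f : H →* GQ} {s : GQ →* M2 k}

/-! ## IRR-C11 (file `Conj.lean`): the count is invariant under conjugation of `s`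
`u ↦ P u Q` maps `FlatData .. s` to `FlatData .. (conjRep s P Q)` (same `W`; `P s Q = 1 ↔ s = 1`,
`P u Q = 0 ↔ u = 0`); `Φ u := Φ' (P u Q)`; if `P (u - u') Q = s' m' s'⁻¹ - m'` then
`u - u' = s (Q m' P) s⁻¹ - Q m' P`, and `tr (Q m' P) = tr m'`. -/
section C11

private theorem conj_trace (P Q : M2 k) (hQP : Q * P = 1) (X : M2 k) :
    (P * X * Q).trace = X.trace := by
  rw [Matrix.trace_mul_comm, ← mul_assoc, hQP, one_mul]

theorem FlatData.conj {u : H → M2 k} (hu : FlatData A p f s u) (P Q : M2 k) (hPQ : P * Q = 1)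
    (hQP : Q * P = 1) : FlatData A p f (conjRep s P Q hPQ hQP) (fun x => P * u x * Q) := by
  obtain ⟨hcoc, W, i1, i2, hfin, hpW, hflat, htriv⟩ := hu
  have hQP' : ∀ X : M2 k, Q * (P * X) = X := fun X => by rw [← mul_assoc, hQP, one_mul]
  refine ⟨⟨?_, ?_, ?_⟩, W, i1, i2, hfin, hpW, hflat, ?_⟩
  · intro x y
    simp only [conjRep_apply]
    rw [hcoc.map_mul, mul_add, add_mul]
    simp only [mul_assoc, hQP']
  · intro x
    rw [conj_trace P Q hQP, hcoc.trace]
  · obtain ⟨N, hN, h⟩ := hcoc.level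
    refine ⟨N, hN, fun n hn => ?_⟩
    rw [h n hn, mul_zero, zero_mul]
  · intro σ hσ
    obtain ⟨h1, h2⟩ := htriv σ hσ
    refine ⟨by rw [conjRep_apply, h1, mul_one, hPQ], fun x hx => ?_⟩
    simp only
    rw [h2 x hx, mul_zero, zero_mul]

theorem countCore_conj (P Q : M2 k) (hPQ : P * Q = 1) (hQP : Q * P = 1)
    (hc : CountCore A p f (conjRep s P Q hPQ hQP)) : CountCore A p f s := by
  obtain ⟨T, hT, Φ', hcard, hΦ'⟩ := hc
  have hQP' : ∀ X : M2 k, Q * (P * X) = X := fun X => by rw [← mul_assoc, hQP, one_mul]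
  refine ⟨T, hT, fun u => Φ' ⟨fun x => P * u.1 x * Q, u.2.conj P Q hPQ hQP⟩, hcard, ?_⟩
  intro u u' huu'
  obtain ⟨m', hm', h⟩ := hΦ' _ _ huu'
  refine ⟨Q * m' * P, by rw [conj_trace Q P hPQ, hm'], fun x hx => ?_⟩
  have h1 := h x hx
  simp only [conjRep_apply] at h1
  have h2 : u.1 x - u'.1 x = Q * (P * u.1 x * Q - P * u'.1 x * Q) * P := by
    rw [mul_sub, sub_mul]
    simp only [mul_assoc, hQP', hQP, mul_one]
  rw [h2, h1, mul_sub, sub_mul]
  simp only [mul_assoc, hQP', hQP, mul_one]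

end C11

end Fermat.Agent.S56.Flat.Irr
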