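/-
S56 / FLAT / IRR, node FrobDenseA (helper56; split off AdapterA by helper78): the hypotheses `IrrHyp` for an ARBITRARY place `A` of
`Qb` over `p` (transport from the chosen place `plc` by conjugation), and the density of the powers
of a Frobenius modulo inertia for an arbitrary place.
-/
import Fermat.Agent.S56.Flat.Irr.Defs3
import Fermat.Agent.S56.Interface
import Fermat.Agent.S56.Flat.FC.DDefs
import Fermat.Agent.S55.Loc.Field.Inertia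
import Fermat.Agent.S55.BR.LocalPlace
import Fermat.Agent.S56.Sel.Arith.Cheb

set_option autoImplicit false

namespace Fermat.Agent.S56.Flat.Irr

open Fermat.Agent.Lib.InertiaField Polynomial
open Fermat.Agent.S53 (M2)
open Fermat.Agent.S55 (plc exists_smul_Av_eq)
open scoped Pointwise

/-- Density of the powers of a Frobenius modulo inertia, for an arbitrary place over `p`. -/
theorem exists_pow_mul_of_frob_A {A : ValuationSubring Qb} {p : ℕ} (hp : p.Prime)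
    (hA : A.LiesOverPrime p) {φ : GQ} (hφ : A.IsFrobeniusAt φ p)
    (F : IntermediateField ℚ Qb) (hF : FiniteDimensional ℚ F) {g : GQ}
    (hg : g ∈ A.decompositionSubgroup ℚ) :
    ∃ i : ℕ, ∃ τ ∈ Iner A, (φ ^ i * τ)⁻¹ * g ∈ F.fixingSubgroup := by
  obtain ⟨g₀, hg₀⟩ := exists_smul_Av_eq ⟨p, hp⟩ A hA
  have hinv : g₀⁻¹ • A = plc ⟨p, hp⟩ := by rw [← hg₀, inv_smul_smul]
  -- transport to `plc`
  have hφ' : (plc ⟨p, hp⟩).IsFrobeniusAt (g₀⁻¹ * φ * g₀⁻¹⁻¹) p := by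
    rw [← hinv]
    exact Fermat.Agent.S56.Sel.Arith.Cheb.isFrobeniusAt_conj A φ g₀⁻¹ p hφ
  have hg' : g₀⁻¹ * g * g₀⁻¹⁻¹ ∈ (plc ⟨p, hp⟩).decompositionSubgroup ℚ := by
    rw [← hinv]
    exact Fermat.Agent.S56.Sel.Arith.Cheb.conj_mem_decompositionSubgroup A g g₀⁻¹ hg
  have hF' : FiniteDimensional ℚ (F.map ((g₀⁻¹ : GQ) : Qb →ₐ[ℚ] Qb)) :=
    LinearEquiv.finiteDimensional
      (IntermediateField.equivMap F ((g₀⁻¹ : GQ) : Qb →ₐ[ℚ] Qb)).toLinearEquiv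
  obtain ⟨i, τ', hτ', h⟩ := Fermat.Agent.S55.Loc.Field.exists_pow_mul_of_frob
    (q := ⟨p, hp⟩) hφ' (F.map ((g₀⁻¹ : GQ) : Qb →ₐ[ℚ] Qb)) hF' hg'
  refine ⟨i, g₀ * τ' * g₀⁻¹, ?_, ?_⟩
  · have := Fermat.Agent.S55.Bridge.conj_mem_inertiaSubgroupIn_smul (plc ⟨p, hp⟩) g₀ τ' hτ'
    rwa [hg₀] at this
  · rw [IntermediateField.mem_fixingSubgroup_iff] at h ⊢
    intro x hx
    have h1 := h (g₀⁻¹ x) ⟨x, hx, rfl⟩
    have h2 : (φ ^ i * (g₀ * τ' * g₀⁻¹))⁻¹ * g =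
        g₀ * (((g₀⁻¹ * φ * g₀⁻¹⁻¹) ^ i * τ')⁻¹ * (g₀⁻¹ * g * g₀⁻¹⁻¹)) * g₀⁻¹ := by
      rw [conj_pow]
      group
    rw [h2]
    change g₀ ((((g₀⁻¹ * φ * g₀⁻¹⁻¹) ^ i * τ')⁻¹ * (g₀⁻¹ * g * g₀⁻¹⁻¹)) (g₀⁻¹ x)) = x
    rw [h1]
    exact g₀.apply_symm_apply x


end Fermat.Agent.S56.Flat.Irr
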