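/-
S56 / FLAT / IRR (helper78): the irreducible case in the form required by `Flat/FC/Reduce.lean`.
-/
import Fermat.Agent.S56.Flat.FC.Reduce
import Fermat.Agent.S56.Flat.FC.IrrAdapter
import Fermat.Agent.S56.Flat.Irr.AdapterA
import Fermat.Agent.S56.Flat.Irr.Main

set_option autoImplicit false

namespace Fermat.Agent.S56.Flat.Irr

/-- **IRR**: the flat count when `ρ̄` restricted to the decomposition group has no stable line. -/
theorem irrStatement : Fermat.Agent.S56.Flat.FC.IrrStatement := by
  intro k _ _ s p A _ hp hp2 hA hs hline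
  obtain ⟨φ, hφ⟩ := exists_irrHyp_A hp hp2 hA hs hline
  exact Fermat.Agent.S56.Flat.FC.countGoalD_of_countCore (p := p) fun hflat =>
    countCore_irr hφ hflat (Fermat.Agent.S56.Flat.FC.isLocMap_subtype A)

end Fermat.Agent.S56.Flat.Irr
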